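import Mathlib

/-!
# P-S41 (B4b)(i): normal subgroups of finite index of `SL(2, A)` contain `E(M)` (helper4)

Model-independent part of the congruence subgroup property: `A` is any commutative ring.

* `upperT t`, `lowerT t` : the elementary matrices `[[1, t], [0, 1]]`, `[[1, 0], [t, 1]]`;
* `E I` : the normal closure in `SL(2, A)` of the elementary matrices with `t ∈ I`;
* `GammaI I` : the principal congruence subgroup `ker (SL(2, A) → SL(2, A ⧸ I))`;
* `E_le_GammaI : E I ≤ GammaI I`;
* `E_span_index_le` : a normal subgroup `H` of finite index contains `E (H.index • A)`;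
* `exists_coprime_E_le` : if the prime `q` is a unit of `A`, then `H ⊇ E (M • A)` for some `M > 0`
  prime to `q`.
-/

set_option autoImplicit false

namespace Fermat.Agent.S41.CSP

open Matrix
open scoped MatrixGroups

variable {A : Type*} [CommRing A]

/-- The upper elementary matrix `[[1, t], [0, 1]]`. -/
def upperT (t : A) : SL(2, A) := ⟨!![1, t; 0, 1], by simp [Matrix.det_fin_two_of]⟩

/-- The lower elementary matrix `[[1, 0], [t, 1]]`. -/
def lowerT (t : A) : SL(2, A) := ⟨!![1, 0; t, 1], by simp [Matrix.det_fin_two_of]⟩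

@[simp] theorem coe_upperT (t : A) :
    ((upperT t : SL(2, A)) : Matrix (Fin 2) (Fin 2) A) = !![1, t; 0, 1] := rfl

@[simp] theorem coe_lowerT (t : A) :
    ((lowerT t : SL(2, A)) : Matrix (Fin 2) (Fin 2) A) = !![1, 0; t, 1] := rfl

theorem upperT_zero : upperT (0 : A) = 1 := by
  apply Subtype.ext
  ext i j
  fin_cases i <;> fin_cases j <;> simp

theorem lowerT_zero : lowerT (0 : A) = 1 := by
  apply Subtype.ext
  ext i j
  fin_cases i <;> fin_cases j <;> simp

theorem upperT_add (s t : A) : upperT (s + t) = upperT s * upperT t := by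
  apply Subtype.ext
  ext i j
  fin_cases i <;> fin_cases j <;> simp [Matrix.mul_apply, Fin.sum_univ_two, add_comm]

theorem lowerT_add (s t : A) : lowerT (s + t) = lowerT s * lowerT t := by
  apply Subtype.ext
  ext i j
  fin_cases i <;> fin_cases j <;> simp [Matrix.mul_apply, Fin.sum_univ_two, add_comm]

/-- `t ↦ upperT t` as a homomorphism from the additive group of `A`. -/
def upperTHom : Multiplicative A →* SL(2, A) where
  toFun t := upperT t.toAdd
  map_one' := upperT_zero
  map_mul' s t := upperT_add s.toAdd t.toAdd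

/-- `t ↦ lowerT t` as a homomorphism from the additive group of `A`. -/
def lowerTHom : Multiplicative A →* SL(2, A) where
  toFun t := lowerT t.toAdd
  map_one' := lowerT_zero
  map_mul' s t := lowerT_add s.toAdd t.toAdd

theorem upperT_nsmul (n : ℕ) (t : A) : upperT (n • t) = upperT t ^ n := by
  have := map_pow (upperTHom (A := A)) (Multiplicative.ofAdd t) n
  rw [← ofAdd_nsmul] at this
  exact this

theorem lowerT_nsmul (n : ℕ) (t : A) : lowerT (n • t) = lowerT t ^ n := by
  have := map_pow (lowerTHom (A := A)) (Multiplicative.ofAdd t) n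
  rw [← ofAdd_nsmul] at this
  exact this

theorem upperT_neg (t : A) : upperT (-t) = (upperT t)⁻¹ := by
  rw [eq_inv_iff_mul_eq_one, ← upperT_add, neg_add_cancel, upperT_zero]

theorem lowerT_neg (t : A) : lowerT (-t) = (lowerT t)⁻¹ := by
  rw [eq_inv_iff_mul_eq_one, ← lowerT_add, neg_add_cancel, lowerT_zero]

/-- The elementary matrices of level `I`. -/
def elemSet (I : Ideal A) : Set SL(2, A) := {g | ∃ t ∈ I, g = upperT t ∨ g = lowerT t}

/-- `E(I)`: the normal closure in `SL(2, A)` of the elementary matrices of level `I`. -/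
def E (I : Ideal A) : Subgroup SL(2, A) := Subgroup.normalClosure (elemSet I)

instance E_normal (I : Ideal A) : (E I).Normal := Subgroup.normalClosure_normal

theorem upperT_mem_E {I : Ideal A} {t : A} (ht : t ∈ I) : upperT t ∈ E I :=
  Subgroup.subset_normalClosure ⟨t, ht, Or.inl rfl⟩

theorem lowerT_mem_E {I : Ideal A} {t : A} (ht : t ∈ I) : lowerT t ∈ E I :=
  Subgroup.subset_normalClosure ⟨t, ht, Or.inr rfl⟩

theorem E_le_iff {I : Ideal A} {H : Subgroup SL(2, A)} [H.Normal] :
    E I ≤ H ↔ ∀ t ∈ I, upperT t ∈ H ∧ lowerT t ∈ H := by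
  constructor
  · intro h t ht
    exact ⟨h (upperT_mem_E ht), h (lowerT_mem_E ht)⟩
  · intro h
    refine Subgroup.normalClosure_le_normal ?_
    rintro g ⟨t, ht, rfl | rfl⟩
    · exact (h t ht).1
    · exact (h t ht).2

theorem E_mono {I J : Ideal A} (h : I ≤ J) : E I ≤ E J :=
  E_le_iff.mpr fun _ ht => ⟨upperT_mem_E (h ht), lowerT_mem_E (h ht)⟩

/-- The principal congruence subgroup of level `I`. -/
def GammaI (I : Ideal A) : Subgroup SL(2, A) :=
  (Matrix.SpecialLinearGroup.map (Ideal.Quotient.mk I)).ker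

instance GammaI_normal (I : Ideal A) : (GammaI I).Normal := MonoidHom.normal_ker _

theorem mem_GammaI_iff {I : Ideal A} {g : SL(2, A)} :
    g ∈ GammaI I ↔ g 0 0 - 1 ∈ I ∧ g 0 1 ∈ I ∧ g 1 0 ∈ I ∧ g 1 1 - 1 ∈ I := by
  rw [GammaI, MonoidHom.mem_ker]
  constructor
  · intro h
    have h' := congrArg (fun x : SL(2, A ⧸ I) => (x : Matrix (Fin 2) (Fin 2) (A ⧸ I))) h
    simp only [Matrix.SpecialLinearGroup.map_apply_coe, Matrix.SpecialLinearGroup.coe_one] at h'
    have e := fun i j => congrFun (congrFun h' i) j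
    refine ⟨?_, ?_, ?_, ?_⟩
    · have := e 0 0
      rw [← Ideal.Quotient.eq_zero_iff_mem, map_sub, map_one]
      simpa [sub_eq_zero] using this
    · have := e 0 1
      rw [← Ideal.Quotient.eq_zero_iff_mem]
      simpa using this
    · have := e 1 0
      rw [← Ideal.Quotient.eq_zero_iff_mem]
      simpa using this
    · have := e 1 1
      rw [← Ideal.Quotient.eq_zero_iff_mem, map_sub, map_one]
      simpa [sub_eq_zero] using this
  · rintro ⟨h00, h01, h10, h11⟩
    rw [← Ideal.Quotient.eq_zero_iff_mem, map_sub, map_one, sub_eq_zero] at h00 h11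
    rw [← Ideal.Quotient.eq_zero_iff_mem] at h01 h10
    apply Subtype.ext
    ext i j
    fin_cases i <;> fin_cases j <;> simp [h00, h01, h10, h11]

theorem E_le_GammaI (I : Ideal A) : E I ≤ GammaI I := by
  refine E_le_iff.mpr fun t ht => ⟨?_, ?_⟩
  · rw [mem_GammaI_iff]
    simp [ht]
  · rw [mem_GammaI_iff]
    simp [ht]

/-- A normal subgroup of finite index contains `E (index • A)`. -/
theorem E_span_index_le (H : Subgroup SL(2, A)) [H.Normal] :
    E (Ideal.span {((H.index : ℕ) : A)}) ≤ H := by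
  refine E_le_iff.mpr fun t ht => ?_
  obtain ⟨s, rfl⟩ := Ideal.mem_span_singleton'.mp ht
  have hs : s * ((H.index : ℕ) : A) = H.index • s := by
    rw [nsmul_eq_mul, mul_comm]
  rw [hs, upperT_nsmul, lowerT_nsmul]
  exact ⟨H.pow_index_mem _, H.pow_index_mem _⟩

/-- **(B4b)(i)**: if the prime `q` is invertible in `A`, every normal subgroup of finite index of
`SL(2, A)` contains `E (M • A)` for some `M > 0` prime to `q`. -/
theorem exists_coprime_E_le {q : ℕ} (hq : q.Prime) (hu : IsUnit ((q : ℕ) : A))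
    (H : Subgroup SL(2, A)) [H.Normal] [H.FiniteIndex] :
    ∃ M : ℕ, 0 < M ∧ Nat.Coprime M q ∧ E (Ideal.span {((M : ℕ) : A)}) ≤ H := by
  have hidx : H.index ≠ 0 := Subgroup.FiniteIndex.index_ne_zero
  obtain ⟨e, M, hM, hidxeq⟩ := Nat.exists_eq_pow_mul_and_not_dvd hidx q hq.ne_one
  refine ⟨M, Nat.pos_of_ne_zero ?_, ?_, ?_⟩
  · rintro rfl
    exact hM (dvd_zero q)
  · exact ((Nat.Prime.coprime_iff_not_dvd hq).mpr hM).symm
  · have hspan : Ideal.span {((M : ℕ) : A)} = Ideal.span {((H.index : ℕ) : A)} := by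
      rw [hidxeq, Nat.cast_mul, Nat.cast_pow]
      exact (Ideal.span_singleton_mul_left_unit (hu.pow e) _).symm
    rw [hspan]
    exact E_span_index_le H

end Fermat.Agent.S41.CSP
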