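import Mathlib

/-!
# P-S41 (B4b) STEP 2 of helper19's note 834: saturation of powers of `q` (helper51)

Pure elementary number theory (no Dirichlet, no valuations).

`IsExact q n` : there are `τ ≥ 1` and `w` prime to `n` with `q ^ τ = 1 + n * w`.

* `IsExact.exists_pow_congr` : if `n` is exact then every class `1 + n x mod n ^ 2` is a power
  of `q`;
* `IsExact.mul_prime` : if `n` is exact, `r` is prime and `r ^ 2 ∣ n` then `n * r` is exact;
* `exists_forall_isExact_pow` : for `n0 ≠ 0` prime to `q ≥ 2`, `n0 ^ e` is exact for all large `e`;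
* `exists_pow_congr_int` : the consumer form over `ℤ`.
-/

set_option autoImplicit false

namespace Fermat.Agent.S41.CSP

/-- `n` is *exact* for `q`: some power `q ^ τ`, `τ ≥ 1`, is `1 + n w` with `w` prime to `n`. -/
def IsExact (q n : ℕ) : Prop :=
  ∃ τ w : ℕ, 0 < τ ∧ q ^ τ = 1 + n * w ∧ Nat.Coprime w n

/-- `(1 + y) ^ k = 1 + y * c` for some `c`. -/
theorem exists_one_add_mul_pow (y k : ℕ) : ∃ c : ℕ, (1 + y) ^ k = 1 + y * c := by
  induction k with
  | zero => exact ⟨0, by simp⟩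
  | succ k ih =>
    obtain ⟨c, hc⟩ := ih
    exact ⟨c + 1 + y * c, by rw [pow_succ, hc]; ring⟩

/-- `∑_{i<k} (1 + y) ^ i = k + y * t` for some `t`. -/
theorem exists_geom_sum_eq (y k : ℕ) :
    ∃ t : ℕ, ∑ i ∈ Finset.range k, (1 + y) ^ i = k + y * t := by
  induction k with
  | zero => exact ⟨0, by simp⟩
  | succ k ih =>
    obtain ⟨t, ht⟩ := ih
    obtain ⟨c, hc⟩ := exists_one_add_mul_pow y k
    exact ⟨t + c, by rw [Finset.sum_range_succ, ht, hc]; ring⟩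

/-- `(1 + y) ^ k ≡ 1 + k y mod y ^ 2` over `ℤ`. -/
theorem sq_dvd_one_add_pow_sub (y : ℤ) (k : ℕ) : y ^ 2 ∣ (1 + y) ^ k - (1 + k * y) := by
  induction k with
  | zero => simp
  | succ k ih =>
    obtain ⟨c, hc⟩ := ih
    refine ⟨c * (1 + y) + k, ?_⟩
    have : (1 + y) ^ k = 1 + k * y + y ^ 2 * c := by linarith
    rw [pow_succ, this]
    push_cast
    ring

/-- Step (a'): if `n` is exact, `r` is prime and `r ^ 2 ∣ n`, then `n * r` is exact. -/
theorem IsExact.mul_prime {q n r : ℕ} (h : IsExact q n) (hr : r.Prime) (hrn : r ^ 2 ∣ n) :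
    IsExact q (n * r) := by
  obtain ⟨τ, w, hτ, hqw, hcop⟩ := h
  obtain ⟨u, rfl⟩ : ∃ u, n = u * r := by
    obtain ⟨v, rfl⟩ := hrn
    exact ⟨r * v, by ring⟩
  have hru : r ∣ u := by
    have h1 : r * r ∣ u * r := by simpa [sq] using hrn
    exact Nat.dvd_of_mul_dvd_mul_right hr.pos h1
  -- `S = ∑_{i<r} (1 + y)^i = r + y t`, with `y = u r w`
  set y := u * r * w with hy
  obtain ⟨t, ht⟩ := exists_geom_sum_eq y r
  have hgeom := geom_sum_mul_add y r
  -- s = 1 + u * w * t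
  refine ⟨τ * r, w * (1 + u * w * t), Nat.mul_pos hτ hr.pos, ?_, ?_⟩
  · rw [pow_mul, hqw]
    have ht' : ∑ i ∈ Finset.range r, (y + 1) ^ i = r + y * t := by
      simpa [add_comm] using ht
    rw [add_comm 1 y, ← hgeom, ht', hy]
    ring
  · have hs_u : Nat.Coprime (1 + u * w * t) u := by
      have : 1 + u * w * t = 1 + u * (w * t) := by ring
      rw [this]
      simp
    have hs_r : Nat.Coprime (1 + u * w * t) r := Nat.Coprime.coprime_dvd_right hru hs_u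
    have hs : Nat.Coprime (1 + u * w * t) (u * r) := Nat.Coprime.mul_right hs_u hs_r
    have hw_r : Nat.Coprime w r := Nat.Coprime.coprime_dvd_right (Dvd.intro_left u rfl) hcop
    have h1 : Nat.Coprime (w * (1 + u * w * t)) (u * r) := Nat.Coprime.mul_left hcop hs
    have h2 : Nat.Coprime (w * (1 + u * w * t)) r :=
      Nat.Coprime.mul_left hw_r hs_r
    exact Nat.Coprime.mul_right h1 h2

/-- If `n` is exact, every class `1 + n x` modulo `n ^ 2` is a power of `q`. -/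
theorem IsExact.exists_pow_congr {q n : ℕ} (h : IsExact q n) (x : ℤ) :
    ∃ j : ℕ, ((n : ℤ) ^ 2) ∣ (q : ℤ) ^ j - (1 + n * x) := by
  obtain ⟨τ, w, _, hqw, hcop⟩ := h
  -- inverse of `w` mod `n`
  have hcop' : IsCoprime (w : ℤ) (n : ℤ) := Nat.isCoprime_iff_coprime.mpr hcop
  obtain ⟨a, b, hab⟩ := hcop'
  -- a * w + b * n = 1 ; choose j0 ≡ x * a mod n, j0 ≥ 0
  by_cases hn : n = 0
  · subst hn
    -- then w = 1 ... q^τ = 1
    refine ⟨0, ?_⟩
    simp
  have hnpos : (0 : ℤ) < n := by exact_mod_cast Nat.pos_of_ne_zero hn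
  set j0 : ℤ := (x * a) % n with hj0
  have hj0nn : 0 ≤ j0 := Int.emod_nonneg _ hnpos.ne'
  obtain ⟨k, hk⟩ : ∃ k : ℤ, x * a = j0 + n * k := ⟨(x * a) / n, by
    rw [hj0]; exact (Int.emod_add_mul_ediv (x * a) n).symm⟩
  refine ⟨τ * j0.toNat, ?_⟩
  have hq : (q : ℤ) ^ τ = 1 + (n * w : ℤ) := by exact_mod_cast hqw
  rw [pow_mul, hq]
  have h1 := sq_dvd_one_add_pow_sub (n * w : ℤ) j0.toNat
  have hcast : ((j0.toNat : ℕ) : ℤ) = j0 := Int.toNat_of_nonneg hj0nn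
  rw [hcast] at h1
  -- (1 + n w)^j0 ≡ 1 + j0 n w mod n^2 w^2, and j0 n w ≡ n x mod n^2
  have h2 : ((n : ℤ) ^ 2) ∣ ((n : ℤ) * w) ^ 2 := ⟨(w : ℤ) ^ 2, by ring⟩
  have h3 : ((n : ℤ) ^ 2) ∣ (1 + j0 * (n * w)) - (1 + n * x) := by
    -- j0 * w - x = (x a - n k) w - x = x (a w - 1) - n k w = - x b n - n k w
    refine ⟨-(x * b) - k * w, ?_⟩
    have hj : j0 = x * a - n * k := by linarith
    have haw : a * w = 1 - b * n := by linarith
    rw [hj]
    have : (x * a - n * k) * (n * w) = n * (x * (a * w)) - n ^ 2 * (k * w) := by ring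
    rw [this, haw]
    ring
  have hsum : (1 + (n : ℤ) * w) ^ j0.toNat - (1 + n * x) =
      ((1 + (n : ℤ) * w) ^ j0.toNat - (1 + j0 * (n * w))) + ((1 + j0 * (n * w)) - (1 + n * x)) := by
    ring
  rw [hsum]
  exact dvd_add (dvd_trans h2 h1) h3

/-- Splitting off the `n0`-part: `X = n1 * w` with `n1 ∣ n0 ^ k` and `w` prime to `n0`. -/
theorem exists_split (n0 : ℕ) (X : ℕ) (hX : X ≠ 0) :
    ∃ n1 w k : ℕ, X = n1 * w ∧ n1 ∣ n0 ^ k ∧ Nat.Coprime w n0 := by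
  induction X using Nat.strong_induction_on with
  | _ X ih =>
    by_cases hc : Nat.Coprime X n0
    · exact ⟨1, X, 0, by simp, by simp, hc⟩
    · obtain ⟨r, hr, hrX, hrn⟩ := Nat.Prime.not_coprime_iff_dvd.mp hc
      obtain ⟨X', rfl⟩ := hrX
      have hX' : X' ≠ 0 := by
        rintro rfl
        simp at hX
      have hlt : X' < r * X' := by
        have := hr.one_lt
        nlinarith [Nat.pos_of_ne_zero hX']
      obtain ⟨n1, w, k, h1, h2, h3⟩ := ih X' hlt hX'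
      refine ⟨r * n1, w, k + 1, by rw [h1]; ring, ?_, h3⟩
      rw [pow_succ, mul_comm]
      exact Nat.mul_dvd_mul h2 hrn

/-- Main induction: every multiple `m` of the exact starting value `n1` dividing a power of `n0`
is exact. -/
theorem isExact_of_dvd {q n0 n1 : ℕ} (hn0 : n0 ≠ 0) (h1 : IsExact q n1) (hsq : n0 ^ 2 ∣ n1)
    (m : ℕ) (hm1 : n1 ∣ m) (hm : ∃ k, m ∣ n0 ^ k) : IsExact q m := by
  induction m using Nat.strong_induction_on with
  | _ m ih =>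
    obtain ⟨c, rfl⟩ := hm1
    obtain ⟨k, hk⟩ := hm
    have hm0 : n1 * c ≠ 0 := by
      intro h0
      rw [h0] at hk
      have := Nat.eq_zero_of_zero_dvd hk
      exact (pow_ne_zero k hn0) this
    have hn1 : n1 ≠ 0 := fun h => hm0 (by simp [h])
    have hc0 : c ≠ 0 := fun h => hm0 (by simp [h])
    by_cases hc1 : c = 1
    · subst hc1
      simpa using h1
    -- a prime factor of c
    set r := c.minFac with hr
    have hrp : r.Prime := Nat.minFac_prime hc1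
    obtain ⟨c', hc'⟩ : r ∣ c := Nat.minFac_dvd c
    have hrn0 : r ∣ n0 := by
      have : r ∣ n0 ^ k := dvd_trans (dvd_trans ⟨c', hc'⟩ (Dvd.intro_left n1 rfl)) hk
      exact hrp.dvd_of_dvd_pow this
    have hc'0 : c' ≠ 0 := by
      rintro rfl
      simp at hc'
      exact hc0 hc'
    have hlt : n1 * c' < n1 * c := by
      rw [hc']
      have := hrp.one_lt
      have h1 : 0 < n1 * c' := Nat.mul_pos (Nat.pos_of_ne_zero hn1) (Nat.pos_of_ne_zero hc'0)
      nlinarith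
    have hex : IsExact q (n1 * c') := by
      refine ih (n1 * c') hlt ⟨c', rfl⟩ ⟨k, dvd_trans ?_ hk⟩
      rw [hc']
      exact ⟨r, by ring⟩
    have hr2 : r ^ 2 ∣ n1 * c' :=
      dvd_trans (pow_dvd_pow_of_dvd hrn0 2) (dvd_trans hsq (Dvd.intro c' rfl))
    have := hex.mul_prime hrp hr2
    have heq : n1 * c' * r = n1 * c := by rw [hc']; ring
    rwa [heq] at this

/-- For `n0 ≠ 0` prime to `q ≥ 2`, all large powers of `n0` are exact. -/
theorem exists_forall_isExact_pow {q : ℕ} (hq : 2 ≤ q) (n0 : ℕ) (hn0 : n0 ≠ 0)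
    (hc : Nat.Coprime q n0) : ∃ E : ℕ, ∀ e, E ≤ e → IsExact q (n0 ^ e) := by
  -- X = q ^ φ(n0^2) - 1
  have hc2 : Nat.Coprime q (n0 ^ 2) := Nat.Coprime.pow_right 2 hc
  have hφ : 0 < Nat.totient (n0 ^ 2) := Nat.totient_pos.mpr (Nat.pos_of_ne_zero (pow_ne_zero 2 hn0))
  set τ := Nat.totient (n0 ^ 2) with hτ
  have hmod : q ^ τ ≡ 1 [MOD n0 ^ 2] := Nat.ModEq.pow_totient hc2
  have hge : 2 ≤ q ^ τ := by
    calc 2 ≤ q := hq
      _ = q ^ 1 := (pow_one q).symm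
      _ ≤ q ^ τ := Nat.pow_le_pow_right (by omega) hφ
  have hdvd : n0 ^ 2 ∣ q ^ τ - 1 := (Nat.modEq_iff_dvd' (by omega)).mp hmod.symm
  have hX : q ^ τ - 1 ≠ 0 := by omega
  obtain ⟨n1, w, k, hsplit, hn1k, hw⟩ := exists_split n0 (q ^ τ - 1) hX
  have hwn1 : Nat.Coprime w n1 :=
    Nat.Coprime.coprime_dvd_right hn1k (Nat.Coprime.pow_right k hw)
  have h1 : IsExact q n1 := ⟨τ, w, hφ, by omega, hwn1⟩
  have hsq : n0 ^ 2 ∣ n1 := by
    have : n0 ^ 2 ∣ n1 * w := hsplit ▸ hdvd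
    exact (Nat.Coprime.pow_left 2 hw.symm).dvd_of_dvd_mul_right this
  refine ⟨k, fun e he => ?_⟩
  refine isExact_of_dvd hn0 h1 hsq (n0 ^ e) (dvd_trans hn1k (pow_dvd_pow n0 he)) ⟨e, dvd_rfl⟩

/-- Consumer form over `ℤ`: for `b0 ≠ 0` prime to `q`, and all large `e`, every class
`1 + b0 ^ e * x` modulo `(b0 ^ e) ^ 2` is a power of `q`. -/
theorem exists_pow_congr_int {q : ℕ} (hq : 2 ≤ q) (b0 : ℤ) (hb0 : b0 ≠ 0)
    (hc : Nat.Coprime q b0.natAbs) :
    ∃ E : ℕ, ∀ e, E ≤ e → ∀ x : ℤ, ∃ j : ℕ, (b0 ^ e) ^ 2 ∣ (q : ℤ) ^ j - (1 + b0 ^ e * x) := by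
  obtain ⟨E, hE⟩ := exists_forall_isExact_pow hq b0.natAbs (Int.natAbs_ne_zero.mpr hb0) hc
  refine ⟨E, fun e he x => ?_⟩
  have hex := hE e he
  rw [← Int.natAbs_pow] at hex
  set B : ℤ := b0 ^ e with hB
  obtain ⟨j, hj⟩ := hex.exists_pow_congr (B.sign * x)
  refine ⟨j, ?_⟩
  have h1 : ((B.natAbs : ℕ) : ℤ) ^ 2 = B ^ 2 := Int.natAbs_sq B
  have h2 : ((B.natAbs : ℕ) : ℤ) * (B.sign * x) = B * x := by
    rw [← mul_assoc, mul_comm ((B.natAbs : ℕ) : ℤ), Int.sign_mul_natAbs]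
  rw [h1, h2] at hj
  exact hj

end Fermat.Agent.S41.CSP
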