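import Mathlib
import Fermat.Agent.S41.CSP.Elementary
import Fermat.Agent.S41.Ihara.Amalgam

/-!
# P-S41 (B4b): symbols on `Γ(M)[1/q]` (helper19)

Everything lives inside `SL(2, ℚ)`.

* `Rq q` : the subring `ℤ[1/q]` of `ℚ`; `Lv q M = M • ℤ[1/q]`;
* `GR q = SL₂(ℤ[1/q])`, `Del q M = Γ(M)[1/q]` (principal congruence subgroup), normal in `GR q`;
* `IsSym q M κ` : `κ : SL(2, ℚ) → B` is additive on `Del q M` and kills its trace-`2` elements;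
* `cnat m`, conjugation by `diag(m, 1)`, and `IsSym.comp_cnat`;
* `IsSym.eq_zero_of_unit_row` : STEP 1 of the proof (note 834).
-/

set_option autoImplicit false

namespace Fermat.Agent.S41.CSP

open Matrix
open scoped MatrixGroups
open Fermat.Agent.S41.Ihara.Amalgam (ext4 inv_apply_00 inv_apply_01 inv_apply_10
  inv_apply_11 det_eq_one)

/-- Entries of a product in `SL(2, ℚ)`. -/
theorem mul_ap (g h : SL(2, ℚ)) (i j : Fin 2) :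
    (g * h) i j = g i 0 * h 0 j + g i 1 * h 1 j :=
  Fermat.Agent.S41.Ihara.Amalgam.mul_apply' g h i j

/-! ### The ring `ℤ[1/q]` inside `ℚ` -/

/-- `ℤ[1/q]` as a subring of `ℚ`. -/
def Rq (q : ℕ) : Subring ℚ where
  carrier := {x | ∃ k : ℕ, ∃ m : ℤ, x * (q : ℚ) ^ k = m}
  mul_mem' := by
    rintro x y ⟨k, m, hm⟩ ⟨l, n, hn⟩
    refine ⟨k + l, m * n, ?_⟩
    push_cast
    rw [← hm, ← hn, pow_add]
    ring
  one_mem' := ⟨0, 1, by simp⟩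
  add_mem' := by
    rintro x y ⟨k, m, hm⟩ ⟨l, n, hn⟩
    refine ⟨k + l, m * (q : ℤ) ^ l + n * (q : ℤ) ^ k, ?_⟩
    push_cast
    rw [← hm, ← hn, pow_add]
    ring
  zero_mem' := ⟨0, 0, by simp⟩
  neg_mem' := by
    rintro x ⟨k, m, hm⟩
    refine ⟨k, -m, ?_⟩
    push_cast
    rw [← hm]
    ring

theorem mem_Rq_iff {q : ℕ} {x : ℚ} : x ∈ Rq q ↔ ∃ k : ℕ, ∃ m : ℤ, x * (q : ℚ) ^ k = m := Iff.rfl

theorem inv_q_mem_Rq {q : ℕ} (hq : q ≠ 0) : ((q : ℚ))⁻¹ ∈ Rq q :=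
  ⟨1, 1, by
    have : (q : ℚ) ≠ 0 := Nat.cast_ne_zero.mpr hq
    simp [this]⟩

/-- `u` is a unit of `ℤ[1/q]`. -/
def IsU (q : ℕ) (u : ℚ) : Prop := u ≠ 0 ∧ u ∈ Rq q ∧ u⁻¹ ∈ Rq q

theorem IsU.mem {q : ℕ} {u : ℚ} (hu : IsU q u) : u ∈ Rq q := hu.2.1

theorem IsU.inv_mem {q : ℕ} {u : ℚ} (hu : IsU q u) : u⁻¹ ∈ Rq q := hu.2.2

theorem IsU.inv {q : ℕ} {u : ℚ} (hu : IsU q u) : IsU q u⁻¹ :=
  ⟨inv_ne_zero hu.1, hu.2.2, by rw [inv_inv]; exact hu.2.1⟩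

theorem IsU.mul {q : ℕ} {u v : ℚ} (hu : IsU q u) (hv : IsU q v) : IsU q (u * v) :=
  ⟨mul_ne_zero hu.1 hv.1, (Rq q).mul_mem hu.2.1 hv.2.1, by
    rw [mul_inv]; exact (Rq q).mul_mem hu.2.2 hv.2.2⟩

theorem isU_one (q : ℕ) : IsU q 1 := ⟨one_ne_zero, (Rq q).one_mem, by simp [(Rq q).one_mem]⟩

theorem isU_neg_one (q : ℕ) : IsU q (-1) :=
  ⟨by norm_num, (Rq q).neg_mem (Rq q).one_mem, by
    rw [inv_neg, inv_one]; exact (Rq q).neg_mem (Rq q).one_mem⟩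

theorem isU_q {q : ℕ} (hq : q ≠ 0) : IsU q (q : ℚ) :=
  ⟨Nat.cast_ne_zero.mpr hq, natCast_mem _ q, inv_q_mem_Rq hq⟩

theorem IsU.pow {q : ℕ} {u : ℚ} (hu : IsU q u) (n : ℕ) : IsU q (u ^ n) := by
  induction n with
  | zero => simpa using isU_one q
  | succ n ih => rw [pow_succ]; exact ih.mul hu

theorem IsU.neg {q : ℕ} {u : ℚ} (hu : IsU q u) : IsU q (-u) := by
  have := (isU_neg_one q).mul hu
  simpa using this

/-! ### The additive subgroup `M • ℤ[1/q]` -/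

/-- `M • ℤ[1/q]`. -/
def Lv (q M : ℕ) : AddSubgroup ℚ where
  carrier := {x | ∃ r ∈ Rq q, x = (M : ℚ) * r}
  add_mem' := by
    rintro x y ⟨r, hr, rfl⟩ ⟨s, hs, rfl⟩
    exact ⟨r + s, (Rq q).add_mem hr hs, by ring⟩
  zero_mem' := ⟨0, (Rq q).zero_mem, by simp⟩
  neg_mem' := by
    rintro x ⟨r, hr, rfl⟩
    exact ⟨-r, (Rq q).neg_mem hr, by ring⟩

theorem mem_Lv_iff {q M : ℕ} {x : ℚ} : x ∈ Lv q M ↔ ∃ r ∈ Rq q, x = (M : ℚ) * r := Iff.rfl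

theorem Lv_le_Rq {q M : ℕ} {x : ℚ} (hx : x ∈ Lv q M) : x ∈ Rq q := by
  obtain ⟨r, hr, rfl⟩ := hx
  exact (Rq q).mul_mem (natCast_mem _ M) hr

theorem mul_mem_Lv_left {q M : ℕ} {r x : ℚ} (hr : r ∈ Rq q) (hx : x ∈ Lv q M) :
    r * x ∈ Lv q M := by
  obtain ⟨s, hs, rfl⟩ := hx
  exact ⟨r * s, (Rq q).mul_mem hr hs, by ring⟩

theorem mul_mem_Lv_right {q M : ℕ} {r x : ℚ} (hx : x ∈ Lv q M) (hr : r ∈ Rq q) :
    x * r ∈ Lv q M := by
  rw [mul_comm]; exact mul_mem_Lv_left hr hx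

theorem natCast_mul_mem_Lv {q M : ℕ} {r : ℚ} (hr : r ∈ Rq q) : (M : ℚ) * r ∈ Lv q M :=
  ⟨r, hr, rfl⟩

theorem Lv_mono {q M M' : ℕ} (h : M ∣ M') {x : ℚ} (hx : x ∈ Lv q M') : x ∈ Lv q M := by
  obtain ⟨r, hr, rfl⟩ := hx
  obtain ⟨c, rfl⟩ := h
  exact ⟨c * r, (Rq q).mul_mem (natCast_mem _ c) hr, by push_cast; ring⟩

theorem Lv_one {q : ℕ} {x : ℚ} : x ∈ Lv q 1 ↔ x ∈ Rq q :=
  ⟨Lv_le_Rq, fun h => ⟨x, h, by simp⟩⟩

theorem mem_Lv_mul_of_coprime {q M M' : ℕ} (h : Nat.Coprime M M') {x : ℚ}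
    (hx : x ∈ Lv q M) (hx' : x ∈ Lv q M') : x ∈ Lv q (M * M') := by
  obtain ⟨r, hr, rfl⟩ := hx
  obtain ⟨s, hs, hrs⟩ := hx'
  have hb : ((M : ℤ) : ℚ) * (Nat.gcdA M M' : ℤ) + ((M' : ℤ) : ℚ) * (Nat.gcdB M M' : ℤ) = 1 := by
    have := Nat.gcd_eq_gcd_ab M M'
    rw [h] at this
    exact_mod_cast this.symm
  refine ⟨s * (Nat.gcdA M M' : ℤ) + r * (Nat.gcdB M M' : ℤ),
    (Rq q).add_mem ((Rq q).mul_mem hs (intCast_mem _ _)) ((Rq q).mul_mem hr (intCast_mem _ _)), ?_⟩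
  push_cast at hb ⊢
  have e1 : (M : ℚ) * r = (M : ℚ) * r * ((M : ℚ) * (Nat.gcdA M M' : ℤ)
      + (M' : ℚ) * (Nat.gcdB M M' : ℤ)) := by rw [hb, mul_one]
  rw [e1]
  have e2 : (M : ℚ) * r * ((M : ℚ) * (Nat.gcdA M M' : ℤ)) =
      ((M' : ℚ) * s) * ((M : ℚ) * (Nat.gcdA M M' : ℤ)) := by rw [hrs]
  rw [mul_add, e2]
  ring

/-! ### `SL₂(ℤ[1/q])` and its principal congruence subgroups -/

/-- `SL₂(ℤ[1/q])` inside `SL(2, ℚ)`. -/
def GR (q : ℕ) : Subgroup SL(2, ℚ) where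
  carrier := {g | ∀ i j, g i j ∈ Rq q}
  mul_mem' := by
    intro g h hg hh i j
    rw [mul_ap]
    exact (Rq q).add_mem ((Rq q).mul_mem (hg i 0) (hh 0 j)) ((Rq q).mul_mem (hg i 1) (hh 1 j))
  one_mem' := by
    intro i j
    fin_cases i <;> fin_cases j <;> simp [(Rq q).one_mem, (Rq q).zero_mem]
  inv_mem' := by
    intro g hg i j
    fin_cases i <;> fin_cases j
    · show (g⁻¹) 0 0 ∈ Rq q
      rw [inv_apply_00]; exact hg 1 1
    · show (g⁻¹) 0 1 ∈ Rq q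
      rw [inv_apply_01]; exact (Rq q).neg_mem (hg 0 1)
    · show (g⁻¹) 1 0 ∈ Rq q
      rw [inv_apply_10]; exact (Rq q).neg_mem (hg 1 0)
    · show (g⁻¹) 1 1 ∈ Rq q
      rw [inv_apply_11]; exact hg 0 0

theorem mem_GR_iff {q : ℕ} {g : SL(2, ℚ)} : g ∈ GR q ↔ ∀ i j, g i j ∈ Rq q := Iff.rfl

/-- `Γ(M)[1/q]`: the principal congruence subgroup of level `M` of `SL₂(ℤ[1/q])`. -/
def Del (q M : ℕ) : Subgroup SL(2, ℚ) where
  carrier := {g | g 0 0 - 1 ∈ Lv q M ∧ g 0 1 ∈ Lv q M ∧ g 1 0 ∈ Lv q M ∧ g 1 1 - 1 ∈ Lv q M}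
  mul_mem' := by
    rintro g h ⟨g00, g01, g10, g11⟩ ⟨h00, h01, h10, h11⟩
    have G00 : g 0 0 ∈ Rq q := by
      have := (Rq q).add_mem (Lv_le_Rq g00) (Rq q).one_mem; simpa using this
    have G11 : g 1 1 ∈ Rq q := by
      have := (Rq q).add_mem (Lv_le_Rq g11) (Rq q).one_mem; simpa using this
    have H00 : h 0 0 ∈ Rq q := by
      have := (Rq q).add_mem (Lv_le_Rq h00) (Rq q).one_mem; simpa using this
    have H11 : h 1 1 ∈ Rq q := by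
      have := (Rq q).add_mem (Lv_le_Rq h11) (Rq q).one_mem; simpa using this
    refine ⟨?_, ?_, ?_, ?_⟩
    · rw [mul_ap]
      have e : g 0 0 * h 0 0 + g 0 1 * h 1 0 - 1 =
          (g 0 0 - 1) * h 0 0 + (h 0 0 - 1) + g 0 1 * h 1 0 := by ring
      rw [e]
      exact (Lv q M).add_mem ((Lv q M).add_mem (mul_mem_Lv_right g00 H00) h00)
        (mul_mem_Lv_right g01 (Lv_le_Rq h10))
    · rw [mul_ap]
      exact (Lv q M).add_mem (mul_mem_Lv_left G00 h01) (mul_mem_Lv_right g01 H11)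
    · rw [mul_ap]
      exact (Lv q M).add_mem (mul_mem_Lv_right g10 H00) (mul_mem_Lv_left G11 h10)
    · rw [mul_ap]
      have e : g 1 0 * h 0 1 + g 1 1 * h 1 1 - 1 =
          g 1 0 * h 0 1 + ((g 1 1 - 1) * h 1 1 + (h 1 1 - 1)) := by ring
      rw [e]
      exact (Lv q M).add_mem (mul_mem_Lv_right g10 (Lv_le_Rq h01))
        ((Lv q M).add_mem (mul_mem_Lv_right g11 H11) h11)
  one_mem' := by
    refine ⟨?_, ?_, ?_, ?_⟩ <;> simp [(Lv q M).zero_mem]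
  inv_mem' := by
    rintro g ⟨g00, g01, g10, g11⟩
    refine ⟨?_, ?_, ?_, ?_⟩
    · rw [inv_apply_00]; exact g11
    · rw [inv_apply_01]; exact (Lv q M).neg_mem g01
    · rw [inv_apply_10]; exact (Lv q M).neg_mem g10
    · rw [inv_apply_11]; exact g00

theorem mem_Del_iff {q M : ℕ} {g : SL(2, ℚ)} : g ∈ Del q M ↔
    g 0 0 - 1 ∈ Lv q M ∧ g 0 1 ∈ Lv q M ∧ g 1 0 ∈ Lv q M ∧ g 1 1 - 1 ∈ Lv q M := Iff.rfl

theorem Del_le_GR (q M : ℕ) : Del q M ≤ GR q := by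
  rintro g ⟨g00, g01, g10, g11⟩ i j
  fin_cases i <;> fin_cases j
  · have := (Rq q).add_mem (Lv_le_Rq g00) (Rq q).one_mem; simpa using this
  · exact Lv_le_Rq g01
  · exact Lv_le_Rq g10
  · have := (Rq q).add_mem (Lv_le_Rq g11) (Rq q).one_mem; simpa using this

theorem Del_mono {q M M' : ℕ} (h : M ∣ M') : Del q M' ≤ Del q M := by
  rintro g ⟨g00, g01, g10, g11⟩
  exact ⟨Lv_mono h g00, Lv_mono h g01, Lv_mono h g10, Lv_mono h g11⟩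

theorem mem_Del_mul_of_coprime {q M M' : ℕ} (h : Nat.Coprime M M') {g : SL(2, ℚ)}
    (hg : g ∈ Del q M) (hg' : g ∈ Del q M') : g ∈ Del q (M * M') :=
  ⟨mem_Lv_mul_of_coprime h hg.1 hg'.1, mem_Lv_mul_of_coprime h hg.2.1 hg'.2.1,
    mem_Lv_mul_of_coprime h hg.2.2.1 hg'.2.2.1, mem_Lv_mul_of_coprime h hg.2.2.2 hg'.2.2.2⟩

/-- `Γ(M)[1/q]` is normalised by `SL₂(ℤ[1/q])`. -/
theorem conj_mem_Del {q M : ℕ} {x g : SL(2, ℚ)} (hx : x ∈ GR q) (hg : g ∈ Del q M) :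
    x * g * x⁻¹ ∈ Del q M := by
  obtain ⟨g00, g01, g10, g11⟩ := hg
  have hd := det_eq_one x
  have X := hx
  refine ⟨?_, ?_, ?_, ?_⟩
  · have e : (x * g * x⁻¹) 0 0 - 1 = x 0 0 * x 1 1 * (g 0 0 - 1) + x 0 1 * x 1 1 * g 1 0
        - x 0 0 * x 1 0 * g 0 1 - x 0 1 * x 1 0 * (g 1 1 - 1) := by
      rw [mul_ap, mul_ap, mul_ap, inv_apply_00, inv_apply_10]
      linear_combination hd
    rw [e]
    exact (Lv q M).sub_mem ((Lv q M).sub_mem ((Lv q M).add_mem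
      (mul_mem_Lv_left ((Rq q).mul_mem (X 0 0) (X 1 1)) g00)
      (mul_mem_Lv_left ((Rq q).mul_mem (X 0 1) (X 1 1)) g10))
      (mul_mem_Lv_left ((Rq q).mul_mem (X 0 0) (X 1 0)) g01))
      (mul_mem_Lv_left ((Rq q).mul_mem (X 0 1) (X 1 0)) g11)
  · have e : (x * g * x⁻¹) 0 1 = -(x 0 0 * x 0 1 * (g 0 0 - 1)) - x 0 1 * x 0 1 * g 1 0
        + x 0 0 * x 0 0 * g 0 1 + x 0 1 * x 0 0 * (g 1 1 - 1) := by
      rw [mul_ap, mul_ap, mul_ap, inv_apply_01, inv_apply_11]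
      ring
    rw [e]
    exact (Lv q M).add_mem ((Lv q M).add_mem ((Lv q M).sub_mem ((Lv q M).neg_mem
      (mul_mem_Lv_left ((Rq q).mul_mem (X 0 0) (X 0 1)) g00))
      (mul_mem_Lv_left ((Rq q).mul_mem (X 0 1) (X 0 1)) g10))
      (mul_mem_Lv_left ((Rq q).mul_mem (X 0 0) (X 0 0)) g01))
      (mul_mem_Lv_left ((Rq q).mul_mem (X 0 1) (X 0 0)) g11)
  · have e : (x * g * x⁻¹) 1 0 = x 1 0 * x 1 1 * (g 0 0 - 1) + x 1 1 * x 1 1 * g 1 0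
        - x 1 0 * x 1 0 * g 0 1 - x 1 1 * x 1 0 * (g 1 1 - 1) := by
      rw [mul_ap, mul_ap, mul_ap, inv_apply_00, inv_apply_10]
      ring
    rw [e]
    exact (Lv q M).sub_mem ((Lv q M).sub_mem ((Lv q M).add_mem
      (mul_mem_Lv_left ((Rq q).mul_mem (X 1 0) (X 1 1)) g00)
      (mul_mem_Lv_left ((Rq q).mul_mem (X 1 1) (X 1 1)) g10))
      (mul_mem_Lv_left ((Rq q).mul_mem (X 1 0) (X 1 0)) g01))
      (mul_mem_Lv_left ((Rq q).mul_mem (X 1 1) (X 1 0)) g11)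
  · have e : (x * g * x⁻¹) 1 1 - 1 = -(x 1 0 * x 0 1 * (g 0 0 - 1)) - x 1 1 * x 0 1 * g 1 0
        + x 1 0 * x 0 0 * g 0 1 + x 1 1 * x 0 0 * (g 1 1 - 1) := by
      rw [mul_ap, mul_ap, mul_ap, inv_apply_01, inv_apply_11]
      linear_combination hd
    rw [e]
    exact (Lv q M).add_mem ((Lv q M).add_mem ((Lv q M).sub_mem ((Lv q M).neg_mem
      (mul_mem_Lv_left ((Rq q).mul_mem (X 1 0) (X 0 1)) g00))
      (mul_mem_Lv_left ((Rq q).mul_mem (X 1 1) (X 0 1)) g10))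
      (mul_mem_Lv_left ((Rq q).mul_mem (X 1 0) (X 0 0)) g01))
      (mul_mem_Lv_left ((Rq q).mul_mem (X 1 1) (X 0 0)) g11)

theorem conj_mem_Del' {q M : ℕ} {x g : SL(2, ℚ)} (hx : x ∈ GR q) (hg : g ∈ Del q M) :
    x⁻¹ * g * x ∈ Del q M := by
  have := conj_mem_Del ((GR q).inv_mem hx) hg
  rwa [inv_inv] at this

/-! ### Elementary matrices -/

@[simp] theorem upperT_00 (t : ℚ) : (upperT t : SL(2, ℚ)) 0 0 = 1 := rfl
@[simp] theorem upperT_01 (t : ℚ) : (upperT t : SL(2, ℚ)) 0 1 = t := rfl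
@[simp] theorem upperT_10 (t : ℚ) : (upperT t : SL(2, ℚ)) 1 0 = 0 := rfl
@[simp] theorem upperT_11 (t : ℚ) : (upperT t : SL(2, ℚ)) 1 1 = 1 := rfl
@[simp] theorem lowerT_00 (t : ℚ) : (lowerT t : SL(2, ℚ)) 0 0 = 1 := rfl
@[simp] theorem lowerT_01 (t : ℚ) : (lowerT t : SL(2, ℚ)) 0 1 = 0 := rfl
@[simp] theorem lowerT_10 (t : ℚ) : (lowerT t : SL(2, ℚ)) 1 0 = t := rfl
@[simp] theorem lowerT_11 (t : ℚ) : (lowerT t : SL(2, ℚ)) 1 1 = 1 := rfl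

theorem upperT_mem_GR {q : ℕ} {t : ℚ} (ht : t ∈ Rq q) : (upperT t : SL(2, ℚ)) ∈ GR q := by
  intro i j
  fin_cases i <;> fin_cases j <;> simp [ht, (Rq q).one_mem, (Rq q).zero_mem]

theorem lowerT_mem_GR {q : ℕ} {t : ℚ} (ht : t ∈ Rq q) : (lowerT t : SL(2, ℚ)) ∈ GR q := by
  intro i j
  fin_cases i <;> fin_cases j <;> simp [ht, (Rq q).one_mem, (Rq q).zero_mem]

theorem upperT_mem_Del {q M : ℕ} {t : ℚ} (ht : t ∈ Lv q M) : (upperT t : SL(2, ℚ)) ∈ Del q M := by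
  refine ⟨?_, ?_, ?_, ?_⟩ <;> simp [ht, (Lv q M).zero_mem]

theorem lowerT_mem_Del {q M : ℕ} {t : ℚ} (ht : t ∈ Lv q M) : (lowerT t : SL(2, ℚ)) ∈ Del q M := by
  refine ⟨?_, ?_, ?_, ?_⟩ <;> simp [ht, (Lv q M).zero_mem]

/-- The trace of an element of `SL(2, ℚ)`. -/
def tr2 (g : SL(2, ℚ)) : ℚ := g 0 0 + g 1 1

theorem tr2_conj (x g : SL(2, ℚ)) : tr2 (x * g * x⁻¹) = tr2 g := by
  have hd := det_eq_one x
  unfold tr2
  rw [mul_ap, mul_ap, mul_ap, mul_ap, mul_ap, mul_ap, inv_apply_00,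
    inv_apply_10, inv_apply_01, inv_apply_11]
  linear_combination (g 0 0 + g 1 1) * hd

@[simp] theorem tr2_upperT (t : ℚ) : tr2 (upperT t) = 2 := by simp [tr2]; norm_num
@[simp] theorem tr2_lowerT (t : ℚ) : tr2 (lowerT t) = 2 := by simp [tr2]; norm_num

/-- Two elements of `SL(2, ℚ)` with the same first row differ by a lower elementary matrix. -/
theorem eq_lowerT_mul_of_row_eq {g h : SL(2, ℚ)} (h0 : g 0 0 = h 0 0) (h1 : g 0 1 = h 0 1) :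
    g = lowerT (g 1 0 * h 1 1 - g 1 1 * h 1 0) * h := by
  have hg := det_eq_one g
  have hh := det_eq_one h
  rw [h0, h1] at hg
  apply ext4
  · rw [mul_ap]; simp [h0]
  · rw [mul_ap]; simp [h1]
  · rw [mul_ap]; simp only [lowerT_10, lowerT_11]
    linear_combination (-(g 1 0)) * hh + (h 1 0) * hg
  · rw [mul_ap]; simp only [lowerT_10, lowerT_11]
    linear_combination (-(g 1 1)) * hh + (h 1 1) * hg

/-! ### Symbols -/

/-- `κ` is additive on `Γ(M)[1/q]` and kills its trace-`2` elements. -/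
structure IsSym (q M : ℕ) {B : Type*} [AddCommGroup B] (κ : SL(2, ℚ) → B) : Prop where
  mul : ∀ g ∈ Del q M, ∀ h ∈ Del q M, κ (g * h) = κ g + κ h
  unip : ∀ g ∈ Del q M, tr2 g = 2 → κ g = 0

namespace IsSym

variable {q M : ℕ} {B : Type*} [AddCommGroup B] {κ : SL(2, ℚ) → B}

theorem one (hκ : IsSym q M κ) : κ 1 = 0 :=
  hκ.unip 1 (Del q M).one_mem (by simp [tr2]; norm_num)

theorem inv (hκ : IsSym q M κ) {g : SL(2, ℚ)} (hg : g ∈ Del q M) : κ g⁻¹ = -κ g := by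
  have := hκ.mul g hg g⁻¹ ((Del q M).inv_mem hg)
  rw [mul_inv_cancel, hκ.one] at this
  exact (neg_eq_of_add_eq_zero_right this.symm).symm

theorem mono (hκ : IsSym q M κ) {M' : ℕ} (h : M ∣ M') : IsSym q M' κ :=
  ⟨fun g hg k hk => hκ.mul g (Del_mono h hg) k (Del_mono h hk),
    fun g hg ht => hκ.unip g (Del_mono h hg) ht⟩

theorem upperT (hκ : IsSym q M κ) {t : ℚ} (ht : t ∈ Lv q M) : κ (upperT t) = 0 :=
  hκ.unip _ (upperT_mem_Del ht) (tr2_upperT t)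

theorem lowerT (hκ : IsSym q M κ) {t : ℚ} (ht : t ∈ Lv q M) : κ (lowerT t) = 0 :=
  hκ.unip _ (lowerT_mem_Del ht) (tr2_lowerT t)

/-- Conjugates (by `SL₂(ℤ[1/q])`) of trace-`2` elements are killed. -/
theorem conj_unip (hκ : IsSym q M κ) {x g : SL(2, ℚ)} (hx : x ∈ GR q) (hg : g ∈ Del q M)
    (ht : tr2 g = 2) : κ (x * g * x⁻¹) = 0 :=
  hκ.unip _ (conj_mem_Del hx hg) (by rw [tr2_conj, ht])

/-- Multiplying by a trace-`2` element on the left does not change `κ`. -/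
theorem unip_mul (hκ : IsSym q M κ) {z g : SL(2, ℚ)} (hz : z ∈ Del q M) (ht : tr2 z = 2)
    (hg : g ∈ Del q M) : κ (z * g) = κ g := by
  rw [hκ.mul z hz g hg, hκ.unip z hz ht, zero_add]

theorem mul_unip (hκ : IsSym q M κ) {z g : SL(2, ℚ)} (hz : z ∈ Del q M) (ht : tr2 z = 2)
    (hg : g ∈ Del q M) : κ (g * z) = κ g := by
  rw [hκ.mul g hg z hz, hκ.unip z hz ht, add_zero]

/-- `κ` only depends on the first row. -/
theorem eq_of_row_eq (hκ : IsSym q M κ) {g h : SL(2, ℚ)} (hg : g ∈ Del q M) (hh : h ∈ Del q M)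
    (h0 : g 0 0 = h 0 0) (h1 : g 0 1 = h 0 1) : κ g = κ h := by
  have e := eq_lowerT_mul_of_row_eq h0 h1
  have hl : (CSP.lowerT (g 1 0 * h 1 1 - g 1 1 * h 1 0) : SL(2, ℚ)) ∈ Del q M := by
    have : CSP.lowerT (g 1 0 * h 1 1 - g 1 1 * h 1 0) = g * h⁻¹ := by
      rw [eq_mul_inv_iff_mul_eq]; exact e.symm
    rw [this]
    exact (Del q M).mul_mem hg ((Del q M).inv_mem hh)
  rw [e, hκ.unip_mul hl (tr2_lowerT _) hh]

end IsSym


/-! ### Conjugation by `diag(m, 1)` -/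

open Fermat.Agent.S41.Ihara.Amalgam (conjD conjD_00 conjD_01 conjD_10 conjD_11)

/-- Underlying function of conjugation by `diag(m, 1)`: `[[a,b],[c,d]] ↦ [[a, m b],[c / m, d]]`. -/
def cnatFun (m : ℕ) [NeZero m] (g : SL(2, ℚ)) : SL(2, ℚ) :=
  ⟨!![g 0 0, m * g 0 1; g 1 0 / m, g 1 1], by
    have hm : (m : ℚ) ≠ 0 := Nat.cast_ne_zero.mpr (NeZero.ne m)
    have hdet := det_eq_one g
    rw [Matrix.det_fin_two_of]
    field_simp
    linarith⟩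

/-- Conjugation by `diag(m, 1)` as a group homomorphism of `SL(2, ℚ)`. -/
def cnat (m : ℕ) [NeZero m] : SL(2, ℚ) →* SL(2, ℚ) where
  toFun := cnatFun m
  map_one' := by
    ext i j
    fin_cases i <;> fin_cases j <;> simp [cnatFun]
  map_mul' g h := by
    have hm : (m : ℚ) ≠ 0 := Nat.cast_ne_zero.mpr (NeZero.ne m)
    apply ext4
    · rw [mul_ap]; show (g * h) 0 0 = g 0 0 * h 0 0 + m * g 0 1 * (h 1 0 / m)
      rw [mul_ap]; field_simp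
    · rw [mul_ap]; show m * (g * h) 0 1 = g 0 0 * (m * h 0 1) + m * g 0 1 * h 1 1
      rw [mul_ap]; ring
    · rw [mul_ap]; show (g * h) 1 0 / m = g 1 0 / m * h 0 0 + g 1 1 * (h 1 0 / m)
      rw [mul_ap]; field_simp
    · rw [mul_ap]; show (g * h) 1 1 = g 1 0 / m * (m * h 0 1) + g 1 1 * h 1 1
      rw [mul_ap]; field_simp

@[simp] theorem cnat_00 (m : ℕ) [NeZero m] (g : SL(2, ℚ)) : (cnat m g) 0 0 = g 0 0 := rfl
@[simp] theorem cnat_01 (m : ℕ) [NeZero m] (g : SL(2, ℚ)) : (cnat m g) 0 1 = m * g 0 1 := rfl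
@[simp] theorem cnat_10 (m : ℕ) [NeZero m] (g : SL(2, ℚ)) : (cnat m g) 1 0 = g 1 0 / m := rfl
@[simp] theorem cnat_11 (m : ℕ) [NeZero m] (g : SL(2, ℚ)) : (cnat m g) 1 1 = g 1 1 := rfl

@[simp] theorem tr2_cnat (m : ℕ) [NeZero m] (g : SL(2, ℚ)) : tr2 (cnat m g) = tr2 g := rfl

theorem cnat_conjD (m : ℕ) [NeZero m] (g : SL(2, ℚ)) : cnat m (conjD m g) = g := by
  have hm : (m : ℚ) ≠ 0 := Nat.cast_ne_zero.mpr (NeZero.ne m)
  apply ext4 <;> simp <;> field_simp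

theorem conjD_cnat (m : ℕ) [NeZero m] (g : SL(2, ℚ)) : conjD m (cnat m g) = g := by
  have hm : (m : ℚ) ≠ 0 := Nat.cast_ne_zero.mpr (NeZero.ne m)
  apply ext4 <;> simp <;> field_simp

theorem cnat_lowerT (m : ℕ) [NeZero m] (t : ℚ) : cnat m (lowerT t) = lowerT (t / m) := by
  apply ext4 <;> simp

theorem cnat_upperT (m : ℕ) [NeZero m] (t : ℚ) : cnat m (upperT t) = upperT (m * t) := by
  apply ext4 <;> simp

/-- `cnat m` maps `g ∈ Γ(M)[1/q]` with lower left entry in `m M ℤ[1/q]` into `Γ(M)[1/q]`. -/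
theorem cnat_mem_Del' {q M m : ℕ} [NeZero m] {g : SL(2, ℚ)} (hg : g ∈ Del q M)
    (h10 : g 1 0 ∈ Lv q (m * M)) : cnat m g ∈ Del q M := by
  have hm : (m : ℚ) ≠ 0 := Nat.cast_ne_zero.mpr (NeZero.ne m)
  refine ⟨hg.1, ?_, ?_, hg.2.2.2⟩
  · rw [cnat_01]; exact mul_mem_Lv_left (natCast_mem _ m) hg.2.1
  · rw [cnat_10]
    obtain ⟨r, hr, e⟩ := h10
    refine ⟨r, hr, ?_⟩
    rw [e]; push_cast; field_simp

theorem cnat_mem_Del {q M m : ℕ} [NeZero m] {g : SL(2, ℚ)} (hg : g ∈ Del q (m * M)) :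
    cnat m g ∈ Del q M :=
  cnat_mem_Del' (Del_mono (Dvd.intro_left m rfl) hg) hg.2.2.1

theorem conjD_mem_Del {q M m : ℕ} [NeZero m] {g : SL(2, ℚ)} (hg : g ∈ Del q (m * (m * M))) :
    conjD m g ∈ Del q (m * M) := by
  have hm : (m : ℚ) ≠ 0 := Nat.cast_ne_zero.mpr (NeZero.ne m)
  have h' := Del_mono (Dvd.intro_left m rfl : m * M ∣ m * (m * M)) hg
  refine ⟨h'.1, ?_, ?_, h'.2.2.2⟩
  · rw [conjD_01]
    obtain ⟨r, hr, e⟩ := hg.2.1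
    refine ⟨r, hr, ?_⟩
    rw [e]; push_cast; field_simp
  · rw [conjD_10]
    obtain ⟨r, hr, e⟩ := hg.2.2.1
    refine ⟨m * m * r, (Rq q).mul_mem ((Rq q).mul_mem (natCast_mem _ m) (natCast_mem _ m)) hr, ?_⟩
    rw [e]; push_cast; ring

/-- `κ ∘ cnat m` is a symbol of level `m M`. -/
theorem IsSym.comp_cnat {q M : ℕ} {B : Type*} [AddCommGroup B] {κ : SL(2, ℚ) → B}
    (hκ : IsSym q M κ) (m : ℕ) [NeZero m] : IsSym q (m * M) (fun g => κ (cnat m g)) where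
  mul g hg h hh := by
    show κ (cnat m (g * h)) = _
    rw [map_mul]
    exact hκ.mul _ (cnat_mem_Del hg) _ (cnat_mem_Del hh)
  unip g hg ht := hκ.unip _ (cnat_mem_Del hg) (by rw [tr2_cnat]; exact ht)

/-! ### STEP 1: first row `(u + t b, b)` with `u` a unit congruent to `1` -/

/-- The diagonal matrix `diag(u, u⁻¹)`. -/
def hU (u : ℚ) (hu : u ≠ 0) : SL(2, ℚ) :=
  ⟨!![u, 0; 0, u⁻¹], by rw [Matrix.det_fin_two_of]; field_simp; ring⟩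

@[simp] theorem hU_00 (u : ℚ) (hu : u ≠ 0) : (hU u hu) 0 0 = u := rfl
@[simp] theorem hU_01 (u : ℚ) (hu : u ≠ 0) : (hU u hu) 0 1 = 0 := rfl
@[simp] theorem hU_10 (u : ℚ) (hu : u ≠ 0) : (hU u hu) 1 0 = 0 := rfl
@[simp] theorem hU_11 (u : ℚ) (hu : u ≠ 0) : (hU u hu) 1 1 = u⁻¹ := rfl

/-- Whitehead's identity. -/
theorem hU_eq (u : ℚ) (hu : u ≠ 0) :
    hU u hu = lowerT (u⁻¹ - 1) * (upperT 1 * lowerT (u - 1) * (upperT 1)⁻¹) * upperT (1 - u⁻¹) := by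
  apply ext4 <;>
    simp only [mul_ap, inv_apply_00, inv_apply_01, inv_apply_10, inv_apply_11, hU_00, hU_01,
      hU_10, hU_11, upperT_00, upperT_01, upperT_10, upperT_11, lowerT_00, lowerT_01, lowerT_10,
      lowerT_11] <;> field_simp <;> ring

theorem inv_sub_one_mem_Lv {q M : ℕ} {u : ℚ} (hu : IsU q u) (h1 : u - 1 ∈ Lv q M) :
    u⁻¹ - 1 ∈ Lv q M := by
  have hu0 := hu.1
  have e : u⁻¹ - 1 = -(u⁻¹ * (u - 1)) := by field_simp; ring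
  rw [e]
  exact (Lv q M).neg_mem (mul_mem_Lv_left hu.inv_mem h1)

theorem hU_mem_Del {q M : ℕ} {u : ℚ} (hu : IsU q u) (h1 : u - 1 ∈ Lv q M) :
    hU u hu.1 ∈ Del q M :=
  ⟨h1, (Lv q M).zero_mem, (Lv q M).zero_mem, inv_sub_one_mem_Lv hu h1⟩

/-- `P ∈ Γ(M)[1/q]` all of whose `SL₂(ℤ[1/q])`-conjugates are killed by `κ`. -/
def KillConj (q M : ℕ) {B : Type*} [AddCommGroup B] (κ : SL(2, ℚ) → B) (P : SL(2, ℚ)) : Prop :=
  P ∈ Del q M ∧ ∀ x ∈ GR q, κ (x * P * x⁻¹) = 0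

namespace KillConj

variable {q M : ℕ} {B : Type*} [AddCommGroup B] {κ : SL(2, ℚ) → B}

theorem of_unip (hκ : IsSym q M κ) {z : SL(2, ℚ)} (hz : z ∈ Del q M) (ht : tr2 z = 2) :
    KillConj q M κ z :=
  ⟨hz, fun _ hx => hκ.conj_unip hx hz ht⟩

theorem mul (hκ : IsSym q M κ) {P P' : SL(2, ℚ)} (h : KillConj q M κ P)
    (h' : KillConj q M κ P') : KillConj q M κ (P * P') := by
  refine ⟨(Del q M).mul_mem h.1 h'.1, fun x hx => ?_⟩
  have e : x * (P * P') * x⁻¹ = (x * P * x⁻¹) * (x * P' * x⁻¹) := by group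
  rw [e, hκ.mul _ (conj_mem_Del hx h.1) _ (conj_mem_Del hx h'.1), h.2 x hx, h'.2 x hx, add_zero]

theorem conj {P x : SL(2, ℚ)} (h : KillConj q M κ P) (hx : x ∈ GR q) :
    KillConj q M κ (x * P * x⁻¹) := by
  refine ⟨conj_mem_Del hx h.1, fun y hy => ?_⟩
  have e : y * (x * P * x⁻¹) * y⁻¹ = (y * x) * P * (y * x)⁻¹ := by group
  rw [e]
  exact h.2 _ ((GR q).mul_mem hy hx)

theorem eq_zero {P : SL(2, ℚ)} (h : KillConj q M κ P) : κ P = 0 := by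
  have := h.2 1 (GR q).one_mem
  simpa using this

end KillConj

namespace IsSym

variable {q M : ℕ} {B : Type*} [AddCommGroup B] {κ : SL(2, ℚ) → B}

theorem killConj_hU (hκ : IsSym q M κ) {u : ℚ} (hu : IsU q u) (h1 : u - 1 ∈ Lv q M) :
    KillConj q M κ (hU u hu.1) := by
  rw [hU_eq]
  have hi := inv_sub_one_mem_Lv hu h1
  have hi' : 1 - u⁻¹ ∈ Lv q M := by
    have := (Lv q M).neg_mem hi
    rwa [neg_sub] at this
  refine KillConj.mul hκ (KillConj.mul hκ ?_ ?_) ?_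
  · exact KillConj.of_unip hκ (lowerT_mem_Del hi) (tr2_lowerT _)
  · exact (KillConj.of_unip hκ (lowerT_mem_Del h1) (tr2_lowerT _)).conj
      (upperT_mem_GR (Rq q).one_mem)
  · exact KillConj.of_unip hκ (upperT_mem_Del hi') (tr2_upperT _)

/-- **STEP 1.** If the first row of `g ∈ Γ(M)[1/q]` is `(u + t b, b)` with `u` a unit of
`ℤ[1/q]` congruent to `1` modulo `M` and `t ∈ ℤ[1/q]`, then `κ g = 0`. -/
theorem eq_zero_of_unit_row (hκ : IsSym q M κ) {g : SL(2, ℚ)} (hg : g ∈ Del q M) {u t : ℚ}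
    (hu : IsU q u) (h1 : u - 1 ∈ Lv q M) (ht : t ∈ Rq q) (h : g 0 0 = u + t * g 0 1) :
    κ g = 0 := by
  have hu0 := hu.1
  have hbu : g 0 1 * u⁻¹ ∈ Lv q M := mul_mem_Lv_right hg.2.1 hu.inv_mem
  have hP : KillConj q M κ (hU u hu.1 * CSP.upperT (g 0 1 * u⁻¹)) :=
    KillConj.mul hκ (hκ.killConj_hU hu h1)
      (KillConj.of_unip hκ (upperT_mem_Del hbu) (tr2_upperT _))
  have hx : (CSP.lowerT t : SL(2, ℚ))⁻¹ ∈ GR q := (GR q).inv_mem (lowerT_mem_GR ht)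
  have hQ := hP.conj hx
  rw [inv_inv] at hQ
  rw [hκ.eq_of_row_eq hg hQ.1 ?_ ?_, hQ.eq_zero]
  · simp only [mul_ap, inv_apply_00, inv_apply_01, inv_apply_10, inv_apply_11, hU_00, hU_01,
      hU_10, hU_11, upperT_00, upperT_01, upperT_10, upperT_11, lowerT_00, lowerT_01, lowerT_10,
      lowerT_11]
    rw [h]; field_simp; ring
  · simp only [mul_ap, inv_apply_00, inv_apply_01, inv_apply_10, inv_apply_11, hU_00, hU_01,
      hU_10, hU_11, upperT_00, upperT_01, upperT_10, upperT_11, lowerT_00, lowerT_01, lowerT_10,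
      lowerT_11]
    field_simp; ring

end IsSym

/-! ### Arithmetic of `ℤ[1/q]` -/

theorem isU_q_pow_inv {q : ℕ} (hq : q ≠ 0) (k : ℕ) : IsU q (((q : ℚ) ^ k)⁻¹) :=
  ((isU_q hq).pow k).inv

/-- Integers are dense in `ℤ[1/q]` modulo `n` prime to `q`. -/
theorem exists_int_sub_mem_Lv {q : ℕ} (hq : q ≠ 0) {n : ℕ} (hn : Nat.Coprime n q) {x : ℚ}
    (hx : x ∈ Rq q) : ∃ m : ℤ, x - m ∈ Lv q n := by
  obtain ⟨k, m, hm⟩ := hx
  have hq0 : (q : ℚ) ≠ 0 := Nat.cast_ne_zero.mpr hq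
  have hqk : (q : ℚ) ^ k ≠ 0 := pow_ne_zero k hq0
  have hc : Nat.Coprime n (q ^ k) := Nat.Coprime.pow_right k hn
  have hb : ((n : ℤ) : ℚ) * (Nat.gcdA n (q ^ k) : ℤ) + ((q ^ k : ℕ) : ℚ) * (Nat.gcdB n (q ^ k) : ℤ)
      = 1 := by
    have := Nat.gcd_eq_gcd_ab n (q ^ k)
    rw [hc] at this
    exact_mod_cast this.symm
  refine ⟨m * Nat.gcdB n (q ^ k), m * (Nat.gcdA n (q ^ k) : ℤ) * ((q : ℚ) ^ k)⁻¹,
    (Rq q).mul_mem ((Rq q).mul_mem (intCast_mem _ _) (intCast_mem _ _)) (isU_q_pow_inv hq k).mem, ?_⟩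
  have hx' : x = m * ((q : ℚ) ^ k)⁻¹ := by
    rw [← hm]; field_simp
  push_cast at hb ⊢
  rw [hx']
  field_simp
  linear_combination (-(m : ℚ)) * hb

theorem intCast_mem_Lv_iff {q : ℕ} {n : ℕ} (hn : Nat.Coprime n q) (m : ℤ) :
    (m : ℚ) ∈ Lv q n ↔ (n : ℤ) ∣ m := by
  constructor
  · rintro ⟨r, ⟨k, j, hj⟩, e⟩
    have h1 : (m * (q : ℤ) ^ k : ℤ) = (n : ℤ) * j := by
      have : ((m * (q : ℤ) ^ k : ℤ) : ℚ) = (((n : ℤ) * j : ℤ) : ℚ) := by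
        push_cast
        rw [e, ← hj]; ring
      exact_mod_cast this
    have hc : IsCoprime (n : ℤ) ((q : ℤ) ^ k) :=
      (Nat.isCoprime_iff_coprime.mpr hn).pow_right
    exact hc.dvd_of_dvd_mul_right ⟨j, h1⟩
  · rintro ⟨c, rfl⟩
    exact ⟨c, intCast_mem _ _, by push_cast; ring⟩

/-- Every nonzero element of `ℤ[1/q]` is a unit times a positive integer prime to `q`. -/
theorem exists_unit_mul_nat {q : ℕ} (hq : q.Prime) {x : ℚ} (hx : x ∈ Rq q) (hx0 : x ≠ 0) :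
    ∃ (u : ℚ) (n : ℕ), IsU q u ∧ 0 < n ∧ Nat.Coprime n q ∧ x = u * n := by
  obtain ⟨k, m, hm⟩ := hx
  have hq0 : (q : ℚ) ≠ 0 := Nat.cast_ne_zero.mpr hq.ne_zero
  have hqk : (q : ℚ) ^ k ≠ 0 := pow_ne_zero k hq0
  have hm0 : m ≠ 0 := by
    rintro rfl
    simp only [Int.cast_zero, mul_eq_zero] at hm
    rcases hm with h | h
    · exact hx0 h
    · exact hqk h
  have hna : m.natAbs ≠ 0 := Int.natAbs_ne_zero.mpr hm0
  obtain ⟨i, n, hn, hin⟩ := Nat.exists_eq_pow_mul_and_not_dvd hna q hq.ne_one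
  have hn0 : 0 < n := by
    rcases Nat.eq_zero_or_pos n with h | h
    · exact absurd (h ▸ dvd_zero q) hn
    · exact h
  have hcop : Nat.Coprime n q := ((Nat.Prime.coprime_iff_not_dvd hq).mpr hn).symm
  have hx' : x = m * ((q : ℚ) ^ k)⁻¹ := by
    rw [← hm]; field_simp
  rcases Int.natAbs_eq m with h | h
  · refine ⟨(q : ℚ) ^ i * ((q : ℚ) ^ k)⁻¹, n,
      ((isU_q hq.ne_zero).pow i).mul (isU_q_pow_inv hq.ne_zero k), hn0, hcop, ?_⟩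
    rw [hx', h, hin]; push_cast; ring
  · refine ⟨-((q : ℚ) ^ i * ((q : ℚ) ^ k)⁻¹), n,
      (((isU_q hq.ne_zero).pow i).mul (isU_q_pow_inv hq.ne_zero k)).neg, hn0, hcop, ?_⟩
    rw [hx', h, hin]; push_cast; ring

end Fermat.Agent.S41.CSP
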