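import Mathlib
import Fermat.Agent.S41.CSP.Sym
import Fermat.Agent.S41.CSP.Sat

/-!
# P-S41 (B4b), STEP 3: centrality (helper19)

`IsSym.conj_lowerT_one_of_sat` : a symbol `κ` of level `M` on `Γ(M)[1/q]` is invariant under
conjugation by `lowerT 1`, given the saturation property `SatProp q` (STEP 2, `Sat.lean`).
-/

set_option autoImplicit false

namespace Fermat.Agent.S41.CSP

open Matrix
open scoped MatrixGroups
open Fermat.Agent.S41.Ihara.Amalgam (ext4 inv_apply_00 inv_apply_01 inv_apply_10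
  inv_apply_11 det_eq_one)

/-- The output of STEP 2 used by STEP 3: high powers of `b0` are exactly saturated for `q`. -/
def SatProp (q : ℕ) : Prop :=
  ∀ b0 : ℕ, 0 < b0 → Nat.Coprime b0 q → ∃ E : ℕ, ∀ e, E ≤ e → ∀ x : ℤ, ∃ j : ℕ,
    (q : ℤ) ^ j ≡ 1 + ((b0 ^ e : ℕ) : ℤ) * x [ZMOD (((b0 ^ e : ℕ) : ℤ)) ^ 2]

/-- First row of the commutator `[lowerT 1, g]`. -/
theorem comm_lowerT_one_00 (g : SL(2, ℚ)) :
    ((lowerT (1 : ℚ) : SL(2, ℚ)) * g * (lowerT (1 : ℚ))⁻¹ * g⁻¹) 0 0 = 1 - g 0 1 * g 1 1 := by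
  have hd := det_eq_one g
  simp only [mul_ap, inv_apply_00, inv_apply_01, inv_apply_10, inv_apply_11, lowerT_00,
    lowerT_01, lowerT_10, lowerT_11]
  linear_combination hd

theorem comm_lowerT_one_01 (g : SL(2, ℚ)) :
    ((lowerT (1 : ℚ) : SL(2, ℚ)) * g * (lowerT (1 : ℚ))⁻¹ * g⁻¹) 0 1 = g 0 1 * g 0 1 := by
  simp only [mul_ap, inv_apply_00, inv_apply_01, inv_apply_10, inv_apply_11, lowerT_00,
    lowerT_01, lowerT_10, lowerT_11]
  ring

theorem one_mem_Lv_iff {q M : ℕ} (hMq : Nat.Coprime M q) : (1 : ℚ) ∈ Lv q M ↔ M = 1 := by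
  have := intCast_mem_Lv_iff hMq 1
  rw [Int.cast_one] at this
  rw [this]
  constructor
  · intro h
    have := Int.eq_one_of_dvd_one (Int.natCast_nonneg M) h
    exact_mod_cast this
  · rintro rfl
    simp

namespace IsSym

variable {q M : ℕ} {B : Type*} [AddCommGroup B] {κ : SL(2, ℚ) → B}

/-- It suffices to kill the commutator. -/
theorem conj_eq_of_comm (hκ : IsSym q M κ) {x g : SL(2, ℚ)} (hx : x ∈ GR q) (hg : g ∈ Del q M)
    (h : κ (x * g * x⁻¹ * g⁻¹) = 0) : κ (x * g * x⁻¹) = κ g := by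
  have hc : x * g * x⁻¹ * g⁻¹ ∈ Del q M :=
    (Del q M).mul_mem (conj_mem_Del hx hg) ((Del q M).inv_mem hg)
  have e : x * g * x⁻¹ = (x * g * x⁻¹ * g⁻¹) * g := by group
  rw [e, hκ.mul _ hc _ hg, h, zero_add]

/-- The statement `κ (x g x⁻¹) = κ g` is insensitive to multiplying `g` on the left by a
trace-`2` element of `Γ(M)[1/q]`. -/
theorem conj_eq_of_unip_mul (hκ : IsSym q M κ) {x z g : SL(2, ℚ)} (hx : x ∈ GR q)
    (hz : z ∈ Del q M) (htz : tr2 z = 2) (hg : g ∈ Del q M)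
    (h : κ (x * (z * g) * x⁻¹) = κ (z * g)) : κ (x * g * x⁻¹) = κ g := by
  have e : x * (z * g) * x⁻¹ = (x * z * x⁻¹) * (x * g * x⁻¹) := by group
  rw [e, hκ.mul _ (conj_mem_Del hx hz) _ (conj_mem_Del hx hg), hκ.conj_unip hx hz htz, zero_add,
    hκ.unip_mul hz htz hg] at h
  exact h

/-- **STEP 3 (core).** Invariance under conjugation by `lowerT 1`. -/
theorem conj_lowerT_one_of_sat (hκ : IsSym q M κ) (hq : q.Prime) (hMq : Nat.Coprime M q)
    (hsat : SatProp q) {g : SL(2, ℚ)} (hg : g ∈ Del q M) :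
    κ (CSP.lowerT 1 * g * (CSP.lowerT 1)⁻¹) = κ g := by
  have hx : (CSP.lowerT 1 : SL(2, ℚ)) ∈ GR q := lowerT_mem_GR (Rq q).one_mem
  by_cases hM1 : M = 1
  · -- then `lowerT 1 ∈ Γ(M)[1/q]`
    have hxD : (CSP.lowerT 1 : SL(2, ℚ)) ∈ Del q M :=
      lowerT_mem_Del ((one_mem_Lv_iff hMq).mpr hM1)
    rw [hκ.mul _ ((Del q M).mul_mem hxD hg) _ ((Del q M).inv_mem hxD), hκ.mul _ hxD _ hg,
      hκ.inv hxD]
    abel
  have hq0 : q ≠ 0 := hq.ne_zero
  have hgR := Del_le_GR q M hg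
  by_cases hb0 : g 0 1 = 0
  · -- the commutator has first row `(1, 0)`
    apply hκ.conj_eq_of_comm hx hg
    have hc : CSP.lowerT 1 * g * (CSP.lowerT 1)⁻¹ * g⁻¹ ∈ Del q M :=
      (Del q M).mul_mem (conj_mem_Del hx hg) ((Del q M).inv_mem hg)
    refine hκ.eq_zero_of_unit_row hc (isU_one q) (by simp [(Lv q M).zero_mem]) (Rq q).zero_mem ?_
    rw [comm_lowerT_one_00, hb0]; ring
  -- `g 0 1 = v0 * n0`
  obtain ⟨v0, n0, hv0, hn0, hn0q, hbv⟩ := exists_unit_mul_nat hq (hgR 0 1) hb0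
  have hv00 := hv0.1
  -- `M ∣ n0`
  have hMn0 : M ∣ n0 := by
    have h1 : ((n0 : ℤ) : ℚ) ∈ Lv q M := by
      have : ((n0 : ℤ) : ℚ) = v0⁻¹ * g 0 1 := by
        rw [hbv]; push_cast; field_simp
      rw [this]
      exact mul_mem_Lv_left hv0.inv_mem hg.2.1
    have := (intCast_mem_Lv_iff hMq (n0 : ℤ)).mp h1
    exact_mod_cast this
  obtain ⟨n0', rfl⟩ := hMn0
  -- `g 1 1 ≠ 0`
  have hd0 : g 1 1 ≠ 0 := by
    intro h0
    have h1 := hg.2.2.2
    rw [h0, zero_sub] at h1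
    have := (Lv q M).neg_mem h1
    rw [neg_neg] at this
    exact hM1 ((one_mem_Lv_iff hMq).mp this)
  obtain ⟨v1, n1, hv1, hn1, hn1q, hdv⟩ := exists_unit_mul_nat hq (hgR 1 1) hd0
  have hv10 := hv1.1
  -- `n0` and `n1` are coprime
  have hcop : Nat.Coprime (M * n0') n1 := by
    have hdq : Nat.Coprime (Nat.gcd (M * n0') n1) q :=
      Nat.Coprime.coprime_dvd_left (Nat.gcd_dvd_left _ _) hn0q
    have h1 : ((1 : ℤ) : ℚ) ∈ Lv q (Nat.gcd (M * n0') n1) := by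
      obtain ⟨c0, hc0⟩ := Nat.gcd_dvd_left (M * n0') n1
      obtain ⟨c1, hc1⟩ := Nat.gcd_dvd_right (M * n0') n1
      have hdet := det_eq_one g
      refine ⟨g 0 0 * v1 * c1 - v0 * c0 * g 1 0, ?_, ?_⟩
      · exact (Rq q).sub_mem ((Rq q).mul_mem ((Rq q).mul_mem (hgR 0 0) hv1.mem) (natCast_mem _ _))
          ((Rq q).mul_mem ((Rq q).mul_mem hv0.mem (natCast_mem _ _)) (hgR 1 0))
      · have e0 : ((M * n0' : ℕ) : ℚ) = (Nat.gcd (M * n0') n1 : ℕ) * c0 := by exact_mod_cast hc0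
        have e1 : (n1 : ℚ) = (Nat.gcd (M * n0') n1 : ℕ) * c1 := by exact_mod_cast hc1
        rw [hbv, hdv, e0, e1] at hdet
        push_cast
        linear_combination (-1 : ℚ) * hdet
    have := (intCast_mem_Lv_iff hdq 1).mp h1
    have := Int.eq_one_of_dvd_one (Int.natCast_nonneg _) this
    exact_mod_cast this
  -- the exponent
  obtain ⟨E, hE⟩ := hsat (M * n0') hn0 hn0q
  set φ := Nat.totient n1 with hφ
  have hpow : (M * n0') ^ (φ * E) ≡ 1 [MOD n1] := by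
    rw [pow_mul]
    have := (Nat.ModEq.pow_totient hcop).pow E
    rwa [one_pow] at this
  set e := 1 + φ * E with he
  have heE : E ≤ e := by
    have : 1 ≤ φ := Nat.totient_pos.mpr hn1
    nlinarith
  set n := (M * n0') ^ e with hn
  have hnq : Nat.Coprime n q := Nat.Coprime.pow_left e hn0q
  -- `(M n0')^(φ E) - 1 = n1 * j`
  obtain ⟨j, hj⟩ : ∃ j : ℤ, (((M * n0') ^ (φ * E) : ℕ) : ℤ) - 1 = (n1 : ℤ) * j := by
    have := (Nat.modEq_iff_dvd.mp hpow.symm)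
    obtain ⟨c, hc⟩ := this
    exact ⟨c, by push_cast at hc ⊢; linarith⟩
  -- the elementary modification
  set s : ℚ := (M : ℚ) * (v0 * n0' * j * v1⁻¹) with hs
  have hsL : s ∈ Lv q M :=
    ⟨v0 * n0' * j * v1⁻¹, (Rq q).mul_mem ((Rq q).mul_mem ((Rq q).mul_mem hv0.mem (natCast_mem _ _))
      (intCast_mem _ _)) hv1.inv_mem, rfl⟩
  have hzD : (CSP.upperT s : SL(2, ℚ)) ∈ Del q M := upperT_mem_Del hsL
  apply hκ.conj_eq_of_unip_mul hx hzD (tr2_upperT s) hg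
  set g' := CSP.upperT s * g with hg'
  have hg'D : g' ∈ Del q M := (Del q M).mul_mem hzD hg
  have hg'11 : g' 1 1 = g 1 1 := by rw [hg', mul_ap]; simp
  have hjQ : (((M : ℚ) * n0') ^ (φ * E)) - 1 = (n1 : ℚ) * j := by exact_mod_cast hj
  have hg'01 : g' 0 1 = v0 * n := by
    rw [hg', mul_ap]
    simp only [upperT_00, upperT_01]
    rw [hbv, hdv, hs, hn, he, pow_add, pow_one]
    push_cast
    have : (((M : ℚ) * n0') ^ (φ * E)) = 1 + (n1 : ℚ) * j := by linarith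
    rw [this]
    field_simp
  apply hκ.conj_eq_of_comm hx hg'D
  have hc : CSP.lowerT 1 * g' * (CSP.lowerT 1)⁻¹ * g'⁻¹ ∈ Del q M :=
    (Del q M).mul_mem (conj_mem_Del hx hg'D) ((Del q M).inv_mem hg'D)
  -- approximate `-v0 * d0` by an integer modulo `n`
  obtain ⟨x', hx'⟩ := exists_int_sub_mem_Lv hq0 hnq
    ((Rq q).neg_mem ((Rq q).mul_mem hv0.mem (hgR 1 1)))
  obtain ⟨r, hr, hrx⟩ := hx'
  obtain ⟨i, hi⟩ := hE e heE x'
  obtain ⟨k, hk⟩ := (Int.modEq_iff_dvd.mp hi.symm)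
  -- hk : q^i - (1 + n x') = n^2 * k
  have hkQ : ((q : ℚ)) ^ i - (1 + (n : ℚ) * x') = (n : ℚ) ^ 2 * k := by
    have : (((q : ℤ) ^ i - (1 + ((n : ℕ) : ℤ) * x') : ℤ) : ℚ) = ((((n : ℕ) : ℤ) ^ 2 * k : ℤ) : ℚ) := by
      rw [hk]
    push_cast at this
    exact this
  have hnQ0 : (n : ℚ) ≠ 0 := by
    have : 0 < n := pow_pos hn0 e
    exact_mod_cast this.ne'
  refine hκ.eq_zero_of_unit_row hc ((isU_q hq0).pow i) ?_ (t := (r - k) * (v0⁻¹ * v0⁻¹))
    ((Rq q).mul_mem ((Rq q).sub_mem hr (intCast_mem _ _)) ((Rq q).mul_mem hv0.inv_mem hv0.inv_mem)) ?_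
  · -- `q^i - 1 ∈ M ℤ[1/q]`
    have hMn : M ∣ n := by
      rw [hn, he, pow_add, pow_one]
      exact Dvd.dvd.mul_right (Dvd.intro _ rfl) _
    have e1 : (q : ℚ) ^ i - 1 = ((n : ℤ) * (n * k + x') : ℤ) := by
      push_cast
      linear_combination hkQ
    rw [e1]
    apply Lv_mono hMn
    exact (intCast_mem_Lv_iff hnq _).mpr (Dvd.intro _ rfl)
  · rw [comm_lowerT_one_00, comm_lowerT_one_01, hg'01, hg'11]
    have e2 : -(v0 * g 1 1) - x' = (n : ℚ) * r := hrx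
    have hvv : v0⁻¹ * v0 = 1 := inv_mul_cancel₀ hv00
    linear_combination (-1 : ℚ) * hkQ + (n : ℚ) * e2
      - (r - k) * (n : ℚ) ^ 2 * (v0⁻¹ * v0 + 1) * hvv

end IsSym

/-- STEP 2 (`Sat.lean`) gives `SatProp`. -/
theorem satProp {q : ℕ} (hq : q.Prime) : SatProp q := by
  intro b0 hb0 hb0q
  obtain ⟨E, hE⟩ := exists_forall_isExact_pow hq.two_le b0 hb0.ne' hb0q.symm
  refine ⟨E, fun e he x => ?_⟩
  obtain ⟨j, hj⟩ := (hE e he).exists_pow_congr x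
  exact ⟨j, (Int.modEq_iff_dvd.mpr hj).symm⟩

/-- **STEP 3 (core).** A symbol of level `M` on `Γ(M)[1/q]` is invariant under conjugation by
`lowerT 1`. -/
theorem IsSym.conj_lowerT_one {q M : ℕ} {B : Type*} [AddCommGroup B] {κ : SL(2, ℚ) → B}
    (hκ : IsSym q M κ) (hq : q.Prime) (hMq : Nat.Coprime M q) {g : SL(2, ℚ)}
    (hg : g ∈ Del q M) : κ (CSP.lowerT 1 * g * (CSP.lowerT 1)⁻¹) = κ g :=
  hκ.conj_lowerT_one_of_sat hq hMq (satProp hq) hg

end Fermat.Agent.S41.CSP
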