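import Mathlib
import Fermat.Agent.S41.CSP.Sym
import Fermat.Agent.S41.Ihara.Assembly

/-!
# P-S41 (B4b): bridge between `CSP/Sym.lean` and `Ihara/Assembly.lean` (helper63)

`Rq q = {x | IsZInv q x}`, `Del q M = {g | IsLevel M q g}`, `GR q = GammaEntry 1 q`,
`Del q M ≤ GammaS N q ≤ GR q` for `N ∣ M`.
-/

set_option autoImplicit false

namespace Fermat.Agent.S41.CSP

open Matrix
open scoped MatrixGroups
open Fermat.Agent.S41.Ihara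
open Fermat.Agent.S41.Ihara.Amalgam

theorem mem_Rq_iff_isZInv {q : ℕ} {x : ℚ} : x ∈ Rq q ↔ IsZInv q x := Iff.rfl

/-- Raising the exponent in a presentation `x * q ^ k = M * m`. -/
theorem exists_pow_eq_of_le {q M : ℕ} {x : ℚ} {k : ℕ} {m : ℤ}
    (h : x * (q : ℚ) ^ k = M * m) {l : ℕ} (hl : k ≤ l) :
    ∃ m' : ℤ, x * (q : ℚ) ^ l = M * m' := by
  obtain ⟨d, rfl⟩ := Nat.exists_eq_add_of_le hl
  refine ⟨m * (q : ℤ) ^ d, ?_⟩
  push_cast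
  rw [pow_add, ← mul_assoc, h]
  ring

theorem mem_Lv_iff_exists_pow {q M : ℕ} (hq : q ≠ 0) {x : ℚ} :
    x ∈ Lv q M ↔ ∃ k : ℕ, ∃ m : ℤ, x * (q : ℚ) ^ k = M * m := by
  have hq0 : (q : ℚ) ≠ 0 := Nat.cast_ne_zero.mpr hq
  constructor
  · rintro ⟨r, ⟨k, m, hm⟩, rfl⟩
    exact ⟨k, m, by rw [mul_assoc, hm]⟩
  · rintro ⟨k, m, hm⟩
    refine ⟨(m : ℚ) * ((q : ℚ) ^ k)⁻¹, ⟨k, m, ?_⟩, ?_⟩
    · rw [mul_assoc, inv_mul_cancel₀ (pow_ne_zero k hq0), mul_one]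
    · rw [← mul_assoc, ← hm, mul_assoc, mul_inv_cancel₀ (pow_ne_zero k hq0), mul_one]

/-- `Del q M` is cut out by `Ihara.IsLevel M q`. -/
theorem mem_Del_iff_isLevel {q M : ℕ} (hq : q ≠ 0) {g : SL(2, ℚ)} :
    g ∈ Del q M ↔ IsLevel M q g := by
  constructor
  · rintro ⟨h00, h01, h10, h11⟩
    obtain ⟨k0, m0, e0⟩ := (mem_Lv_iff_exists_pow hq).mp h00
    obtain ⟨k1, m1, e1⟩ := (mem_Lv_iff_exists_pow hq).mp h01
    obtain ⟨k2, m2, e2⟩ := (mem_Lv_iff_exists_pow hq).mp h10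
    obtain ⟨k3, m3, e3⟩ := (mem_Lv_iff_exists_pow hq).mp h11
    obtain ⟨n0, f0⟩ := exists_pow_eq_of_le e0 (l := k0 + k1 + k2 + k3) (by omega)
    obtain ⟨n1, f1⟩ := exists_pow_eq_of_le e1 (l := k0 + k1 + k2 + k3) (by omega)
    obtain ⟨n2, f2⟩ := exists_pow_eq_of_le e2 (l := k0 + k1 + k2 + k3) (by omega)
    obtain ⟨n3, f3⟩ := exists_pow_eq_of_le e3 (l := k0 + k1 + k2 + k3) (by omega)
    exact ⟨k0 + k1 + k2 + k3, n0, n1, n2, n3, f0, f1, f2, f3⟩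
  · rintro ⟨k, m00, m01, m10, m11, e00, e01, e10, e11⟩
    exact ⟨(mem_Lv_iff_exists_pow hq).mpr ⟨k, m00, e00⟩, (mem_Lv_iff_exists_pow hq).mpr ⟨k, m01, e01⟩,
      (mem_Lv_iff_exists_pow hq).mpr ⟨k, m10, e10⟩, (mem_Lv_iff_exists_pow hq).mpr ⟨k, m11, e11⟩⟩

theorem isLevel_of_mem_Del {q M : ℕ} (hq : q ≠ 0) {g : SL(2, ℚ)} (hg : g ∈ Del q M) :
    IsLevel M q g := (mem_Del_iff_isLevel hq).mp hg

theorem mem_Del_of_isLevel {q M : ℕ} (hq : q ≠ 0) {g : SL(2, ℚ)} (hg : IsLevel M q g) :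
    g ∈ Del q M := (mem_Del_iff_isLevel hq).mpr hg

/-- Raising the exponent in a presentation `x * q ^ k = m`. -/
theorem exists_pow_eq_int_of_le {q : ℕ} {x : ℚ} {k : ℕ} {m : ℤ}
    (h : x * (q : ℚ) ^ k = m) {l : ℕ} (hl : k ≤ l) :
    ∃ m' : ℤ, x * (q : ℚ) ^ l = m' ∧ m ∣ m' := by
  obtain ⟨d, rfl⟩ := Nat.exists_eq_add_of_le hl
  refine ⟨m * (q : ℤ) ^ d, ?_, dvd_mul_right _ _⟩
  push_cast
  rw [pow_add, ← mul_assoc, h]

/-- `GR q` is `GammaEntry 1 q`. -/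
theorem mem_GR_iff_isGammaEntry {q : ℕ} {g : SL(2, ℚ)} :
    g ∈ GR q ↔ IsGammaEntry 1 q g := by
  constructor
  · intro h
    obtain ⟨k0, m0, e0⟩ := h 0 0
    obtain ⟨k1, m1, e1⟩ := h 0 1
    obtain ⟨k2, m2, e2⟩ := h 1 0
    obtain ⟨k3, m3, e3⟩ := h 1 1
    obtain ⟨n0, f0, -⟩ := exists_pow_eq_int_of_le e0 (l := k0 + k1 + k2 + k3) (by omega)
    obtain ⟨n1, f1, -⟩ := exists_pow_eq_int_of_le e1 (l := k0 + k1 + k2 + k3) (by omega)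
    obtain ⟨n2, f2, -⟩ := exists_pow_eq_int_of_le e2 (l := k0 + k1 + k2 + k3) (by omega)
    obtain ⟨n3, f3, -⟩ := exists_pow_eq_int_of_le e3 (l := k0 + k1 + k2 + k3) (by omega)
    exact ⟨k0 + k1 + k2 + k3, n0, n1, n2, n3, by simp, f0, f1, f2, f3⟩
  · rintro ⟨k, m00, m01, m10, m11, -, e00, e01, e10, e11⟩ i j
    fin_cases i <;> fin_cases j
    · exact ⟨k, m00, e00⟩
    · exact ⟨k, m01, e01⟩
    · exact ⟨k, m10, e10⟩
    · exact ⟨k, m11, e11⟩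

theorem GR_eq_GammaEntry (q : ℕ) : GR q = GammaEntry 1 q := by
  ext g
  exact mem_GR_iff_isGammaEntry

theorem GammaEntry_le_GR (N q : ℕ) : GammaEntry N q ≤ GR q := by
  rintro g ⟨k, m00, m01, m10, m11, -, e00, e01, e10, e11⟩
  exact mem_GR_iff_isGammaEntry.mpr ⟨k, m00, m01, m10, m11, one_dvd _, e00, e01, e10, e11⟩

theorem GammaS_le_GR {N q : ℕ} [Fact q.Prime] (hNq : Nat.Coprime N q) : GammaS N q ≤ GR q := by
  rw [GammaS_eq_GammaEntry hNq]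
  exact GammaEntry_le_GR N q

theorem GammaS_one_eq_GR (q : ℕ) [Fact q.Prime] : GammaS 1 q = GR q := by
  rw [GammaS_eq_GammaEntry (Nat.coprime_one_left q), GR_eq_GammaEntry]

/-- An element of level `M` with `N ∣ M` satisfies the entry condition of `Γ₀(N)[1/q]`. -/
theorem isGammaEntry_of_isLevel {N M q : ℕ} (hNM : N ∣ M) {g : SL(2, ℚ)}
    (hg : IsLevel M q g) : IsGammaEntry N q g := by
  obtain ⟨k, m00, m01, m10, m11, e00, e01, e10, e11⟩ := hg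
  refine ⟨k, (M : ℤ) * m00 + (q : ℤ) ^ k, (M : ℤ) * m01, (M : ℤ) * m10,
    (M : ℤ) * m11 + (q : ℤ) ^ k, ?_, ?_, ?_, ?_, ?_⟩
  · exact dvd_mul_of_dvd_left (Int.natCast_dvd_natCast.mpr hNM) _
  · push_cast
    rw [← e00]
    ring
  · push_cast
    rw [← e01]
  · push_cast
    rw [← e10]
  · push_cast
    rw [← e11]
    ring

theorem mem_GammaS_of_isLevel {N M q : ℕ} [Fact q.Prime] (hNq : Nat.Coprime N q) (hNM : N ∣ M)
    {g : SL(2, ℚ)} (hg : IsLevel M q g) : g ∈ GammaS N q :=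
  (mem_GammaS_iff hNq).mpr (isGammaEntry_of_isLevel hNM hg)

theorem Del_le_GammaS {N M q : ℕ} [hq : Fact q.Prime] (hNq : Nat.Coprime N q) (hNM : N ∣ M) :
    Del q M ≤ GammaS N q := fun _ hg =>
  mem_GammaS_of_isLevel hNq hNM (isLevel_of_mem_Del hq.out.ne_zero hg)

end Fermat.Agent.S41.CSP
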