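/-
helper23 (P-S41, block (B4b) "CSP", item (E)): every element of trace `2` of
`Γ₀(N)[1/q] = GammaS N q` is conjugate inside `GammaS N q` to (the image of) a parabolic element of
`Γ₀(N)`; hence the Ihara character kills every trace-`2` element.

If `z = 1 + n` has trace `2`, `v` is a primitive integral vector with `n v = 0` and `ψ · v = 1`,
then `h = u⁻¹ + (u - u⁻¹) v ψᵀ` (`u = q ^ e`, `q ^ e ≡ 1 mod N`) lies in `GammaS N q` and
`h z h⁻¹ = 1 + u² n`, which is integral for large `e`.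
-/
import Fermat.Agent.S41.Ihara.Assembly

set_option autoImplicit false

namespace Fermat.Agent.S41.CSP

open CongruenceSubgroup Matrix
open Fermat.Agent.S41.Ihara Fermat.Agent.S41.Ihara.Amalgam
open Fermat.Agent.Gateway.A2
open scoped MatrixGroups

section Kernel

/-- a primitive integral vector in the kernel of the nilpotent matrix `[[A, B], [C, -A]]`, with a
Bezout covector. -/
theorem exists_primitive_kernel {A B C : ℤ} (h : A * A + B * C = 0) :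
    ∃ v₁ v₂ ψ₁ ψ₂ : ℤ, A * v₁ + B * v₂ = 0 ∧ C * v₁ - A * v₂ = 0 ∧ ψ₁ * v₁ + ψ₂ * v₂ = 1 := by
  by_cases h0 : A = 0 ∧ B = 0
  · obtain ⟨rfl, rfl⟩ := h0
    exact ⟨0, 1, 0, 1, by ring, by ring, by ring⟩
  · have hg : 0 < Int.gcd A B := by
      rw [Nat.pos_iff_ne_zero, Ne, Int.gcd_eq_zero_iff]
      exact h0
    obtain ⟨A', B', hco, hA, hB⟩ := Int.exists_gcd_one hg
    obtain ⟨s, t, hst⟩ := Int.isCoprime_iff_gcd_eq_one.mpr hco
    set g : ℤ := (Int.gcd A B : ℤ) with hgdef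
    have hg0 : g ≠ 0 := by
      rw [hgdef]
      exact_mod_cast hg.ne'
    have hkey : g * A' * A' + B' * C = 0 := by
      have h1 : g * (g * A' * A' + B' * C) = 0 := by
        rw [hA, hB] at h
        linear_combination h
      rcases mul_eq_zero.mp h1 with h2 | h2
      · exact absurd h2 hg0
      · exact h2
    refine ⟨B', -A', t, -s, ?_, ?_, ?_⟩
    · rw [hA, hB]; ring
    · rw [hA]; linear_combination hkey
    · linear_combination hst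

end Kernel

section Torus

/-- `u⁻¹ + (u - u⁻¹) v ψᵀ`, for `ψ · v = 1`: the element of `SL(2, ℚ)` acting by `u` on the line of
`v` and by `u⁻¹` on the quotient. -/
def torusAt (u ui v₁ v₂ ψ₁ ψ₂ : ℚ) (hu : u * ui = 1) (hψ : ψ₁ * v₁ + ψ₂ * v₂ = 1) : SL(2, ℚ) :=
  ⟨!![ui + (u - ui) * v₁ * ψ₁, (u - ui) * v₁ * ψ₂; (u - ui) * v₂ * ψ₁, ui + (u - ui) * v₂ * ψ₂], by
    rw [Matrix.det_fin_two_of]
    linear_combination (ui * (u - ui)) * hψ + hu⟩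

variable (u ui v₁ v₂ ψ₁ ψ₂ : ℚ) (hu : u * ui = 1) (hψ : ψ₁ * v₁ + ψ₂ * v₂ = 1)

@[simp] theorem torusAt_00 : (torusAt u ui v₁ v₂ ψ₁ ψ₂ hu hψ) 0 0 = ui + (u - ui) * v₁ * ψ₁ := rfl
@[simp] theorem torusAt_01 : (torusAt u ui v₁ v₂ ψ₁ ψ₂ hu hψ) 0 1 = (u - ui) * v₁ * ψ₂ := rfl
@[simp] theorem torusAt_10 : (torusAt u ui v₁ v₂ ψ₁ ψ₂ hu hψ) 1 0 = (u - ui) * v₂ * ψ₁ := rfl
@[simp] theorem torusAt_11 : (torusAt u ui v₁ v₂ ψ₁ ψ₂ hu hψ) 1 1 = ui + (u - ui) * v₂ * ψ₂ := rfl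

/-- conjugation by `torusAt` multiplies the nilpotent part of a trace-`2` element fixing `v` by
`u²`. -/
theorem torusAt_mul_eq {z w : SL(2, ℚ)} {A B C : ℚ} (hz00 : z 0 0 = 1 + A) (hz01 : z 0 1 = B)
    (hz10 : z 1 0 = C) (hz11 : z 1 1 = 1 - A) (hw00 : w 0 0 = 1 + u ^ 2 * A)
    (hw01 : w 0 1 = u ^ 2 * B) (hw10 : w 1 0 = u ^ 2 * C) (hw11 : w 1 1 = 1 - u ^ 2 * A)
    (R1 : A * v₁ + B * v₂ = 0) (R2 : C * v₁ - A * v₂ = 0) :
    torusAt u ui v₁ v₂ ψ₁ ψ₂ hu hψ * z = w * torusAt u ui v₁ v₂ ψ₁ ψ₂ hu hψ := by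
  apply ext4
  · rw [mul_apply', mul_apply', torusAt_00, torusAt_01, torusAt_10, hz00, hz10, hw00, hw01]
    linear_combination ((u - ui) * ψ₂) * R2 + ((u - ui) * A) * hψ
      - (u ^ 2 * (u - ui) * ψ₁) * R1 - (A * u) * hu
  · rw [mul_apply', mul_apply', torusAt_00, torusAt_01, torusAt_11, hz01, hz11, hw00, hw01]
    linear_combination ((u - ui) * B) * hψ - ((u - ui) * ψ₂ + u ^ 2 * (u - ui) * ψ₂) * R1
      - (B * u) * hu
  · rw [mul_apply', mul_apply', torusAt_00, torusAt_10, torusAt_11, hz00, hz10, hw10, hw11]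
    linear_combination ((u - ui) * C) * hψ - ((u - ui) * ψ₁ + u ^ 2 * (u - ui) * ψ₁) * R2
      - (C * u) * hu
  · rw [mul_apply', mul_apply', torusAt_01, torusAt_10, torusAt_11, hz01, hz11, hw10, hw11]
    linear_combination ((u - ui) * ψ₁) * R1 - ((u - ui) * A) * hψ
      - (u ^ 2 * (u - ui) * ψ₂) * R2 + (A * u) * hu

end Torus

section Main

variable {N q : ℕ} [hq : Fact q.Prime]

/-- **(E), structural form**: an element `g` of trace `2` of `Γ₀(N)[1/q]` is conjugate inside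
`Γ₀(N)[1/q]` to the image of a parabolic element of `Γ₀(N)`. -/
theorem exists_conj_eq_j1_of_trace_eq_two (hNq : Nat.Coprime N q) (g : ↥(GammaS N q))
    (hg : (g : SL(2, ℚ)) 0 0 + (g : SL(2, ℚ)) 1 1 = 2) :
    ∃ (h : ↥(GammaS N q)) (γ : Gamma0 N), IsPE (γ : SL(2, ℤ)) ∧ h * g = j1 N q γ * h := by
  have hq0 : (q : ℚ) ≠ 0 := Nat.cast_ne_zero.mpr hq.out.ne_zero
  have hN0 : N ≠ 0 := by
    rintro rfl
    rw [Nat.coprime_zero_left] at hNq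
    exact hq.out.one_lt.ne' hNq
  obtain ⟨k, m00, m01, m10, m11, hN, h00, h01, h10, h11⟩ := (mem_GammaS_iff hNq).mp g.2
  set z : SL(2, ℚ) := (g : SL(2, ℚ)) with hz
  have hQ0 : ((q : ℚ) ^ k) ≠ 0 := pow_ne_zero _ hq0
  -- the integral nilpotent matrix `q ^ k • (z - 1)`
  have htr : m00 + m11 = 2 * (q : ℤ) ^ k := by
    have : ((m00 + m11 : ℤ) : ℚ) = ((2 * (q : ℤ) ^ k : ℤ) : ℚ) := by
      push_cast
      rw [← h00, ← h11, ← add_mul, hg]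
    exact_mod_cast this
  have hdet : m00 * m11 - m01 * m10 = (q : ℤ) ^ k * (q : ℤ) ^ k := by
    have : ((m00 * m11 - m01 * m10 : ℤ) : ℚ) = (((q : ℤ) ^ k * (q : ℤ) ^ k : ℤ) : ℚ) := by
      push_cast
      rw [← h00, ← h01, ← h10, ← h11]
      have hd := det_eq_one z
      linear_combination ((q : ℚ) ^ k * (q : ℚ) ^ k) * hd
    exact_mod_cast this
  have hnil : (m00 - (q : ℤ) ^ k) * (m00 - (q : ℤ) ^ k) + m01 * m10 = 0 := by
    have h11' : m11 = 2 * (q : ℤ) ^ k - m00 := by linarith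
    rw [h11'] at hdet
    linear_combination -hdet
  obtain ⟨v₁, v₂, ψ₁, ψ₂, R1, R2, R3⟩ := exists_primitive_kernel hnil
  -- the exponent
  set t : ℕ := Nat.totient N with ht
  have htpos : 0 < t := Nat.totient_pos.mpr (Nat.pos_of_ne_zero hN0)
  set e : ℕ := k * t with he
  have hke : k ≤ 2 * e := by
    rw [he]
    nlinarith
  obtain ⟨j, hj⟩ := Nat.exists_eq_add_of_le hke
  have hmodN : (N : ℤ) ∣ (q : ℤ) ^ (2 * e) - 1 := by
    have h1 : q ^ t ≡ 1 [MOD N] := Nat.ModEq.pow_totient hNq.symm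
    have h2 : (q ^ t) ^ (2 * k) ≡ 1 ^ (2 * k) [MOD N] := h1.pow (2 * k)
    rw [one_pow, ← pow_mul] at h2
    have h3 : t * (2 * k) = 2 * e := by rw [he]; ring
    rw [h3] at h2
    have h4 := (Nat.modEq_iff_dvd.mp h2.symm)
    push_cast at h4
    exact h4
  obtain ⟨c, hc⟩ := hmodN
  set u : ℚ := (q : ℚ) ^ e with hu
  have hu0 : u ≠ 0 := pow_ne_zero _ hq0
  have huui : u * u⁻¹ = 1 := mul_inv_cancel₀ hu0
  have hψ : (ψ₁ : ℚ) * (v₁ : ℚ) + (ψ₂ : ℚ) * (v₂ : ℚ) = 1 := by exact_mod_cast R3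
  have hu2 : u ^ 2 = (q : ℚ) ^ k * (q : ℚ) ^ j := by
    rw [hu, ← pow_mul, ← pow_add, mul_comm e 2, hj]
  have hu2' : u ^ 2 - 1 = (N : ℚ) * (c : ℚ) := by
    have : (((q : ℤ) ^ (2 * e) - 1 : ℤ) : ℚ) = (((N : ℤ) * c : ℤ) : ℚ) := by rw [hc]
    push_cast at this
    rw [hu, ← pow_mul, mul_comm e 2]
    exact this
  -- the conjugating element
  let hh : SL(2, ℚ) := torusAt u u⁻¹ v₁ v₂ ψ₁ ψ₂ huui hψ
  have hhmem : hh ∈ GammaS N q := by
    rw [mem_GammaS_iff hNq]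
    refine ⟨e, 1 + (N : ℤ) * c * v₁ * ψ₁, (N : ℤ) * c * v₁ * ψ₂, (N : ℤ) * c * v₂ * ψ₁,
      1 + (N : ℤ) * c * v₂ * ψ₂, ⟨c * v₂ * ψ₁, by ring⟩, ?_, ?_, ?_, ?_⟩
    · show (u⁻¹ + (u - u⁻¹) * v₁ * ψ₁) * u = _
      push_cast
      linear_combination ((v₁ : ℚ) * ψ₁) * hu2' + (1 - (v₁ : ℚ) * ψ₁) * huui
    · show ((u - u⁻¹) * v₁ * ψ₂) * u = _
      push_cast
      linear_combination ((v₁ : ℚ) * ψ₂) * hu2' - ((v₁ : ℚ) * ψ₂) * huui
    · show ((u - u⁻¹) * v₂ * ψ₁) * u = _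
      push_cast
      linear_combination ((v₂ : ℚ) * ψ₁) * hu2' - ((v₂ : ℚ) * ψ₁) * huui
    · show (u⁻¹ + (u - u⁻¹) * v₂ * ψ₂) * u = _
      push_cast
      linear_combination ((v₂ : ℚ) * ψ₂) * hu2' + (1 - (v₂ : ℚ) * ψ₂) * huui
  -- the integral parabolic element
  set A : ℤ := m00 - (q : ℤ) ^ k with hA
  have hdetγ : (1 + (q : ℤ) ^ j * A) * (1 - (q : ℤ) ^ j * A)
      - ((q : ℤ) ^ j * m01) * ((q : ℤ) ^ j * m10) = 1 := by
    linear_combination (-((q : ℤ) ^ j * (q : ℤ) ^ j)) * hnil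
  let γ₀ : SL(2, ℤ) := mkSL (1 + (q : ℤ) ^ j * A) ((q : ℤ) ^ j * m01) ((q : ℤ) ^ j * m10)
    (1 - (q : ℤ) ^ j * A) hdetγ
  have hγmem : γ₀ ∈ Gamma0 N := by
    rw [mem_Gamma0_iff_dvd]
    show (N : ℤ) ∣ (q : ℤ) ^ j * m10
    exact dvd_mul_of_dvd_right hN _
  have hγPE : IsPE γ₀ := by
    show ((γ₀ : SL(2, ℤ)) : Matrix (Fin 2) (Fin 2) ℤ).trace ^ 2 ≤ 4
    rw [Matrix.trace_fin_two]
    show (γ₀ 0 0 + γ₀ 1 1) ^ 2 ≤ 4
    rw [mkSL_00, mkSL_11]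
    have : (1 + (q : ℤ) ^ j * A) + (1 - (q : ℤ) ^ j * A) = 2 := by ring
    rw [this]
    norm_num
  -- entries of `z`
  have eA : (z 0 0 - 1) * (q : ℚ) ^ k = (A : ℚ) := by
    rw [hA, sub_mul, h00]
    push_cast
    ring
  have hR1 : (z 0 0 - 1) * (v₁ : ℚ) + z 0 1 * (v₂ : ℚ) = 0 := by
    have h1 : ((z 0 0 - 1) * (v₁ : ℚ) + z 0 1 * (v₂ : ℚ)) * (q : ℚ) ^ k = 0 := by
      have h2 : ((A * v₁ + m01 * v₂ : ℤ) : ℚ) = 0 := by rw [R1]; norm_num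
      push_cast at h2
      rw [← h2, ← eA, ← h01]
      ring
    rcases mul_eq_zero.mp h1 with h3 | h3
    · exact h3
    · exact absurd h3 hQ0
  have hR2 : z 1 0 * (v₁ : ℚ) - (z 0 0 - 1) * (v₂ : ℚ) = 0 := by
    have h1 : (z 1 0 * (v₁ : ℚ) - (z 0 0 - 1) * (v₂ : ℚ)) * (q : ℚ) ^ k = 0 := by
      have h2 : ((m10 * v₁ - A * v₂ : ℤ) : ℚ) = 0 := by rw [R2]; norm_num
      push_cast at h2
      rw [← h2, ← eA, ← h10]
      ring
    rcases mul_eq_zero.mp h1 with h3 | h3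
    · exact h3
    · exact absurd h3 hQ0
  have key : hh * z = castQ γ₀ * hh := by
    apply torusAt_mul_eq u u⁻¹ v₁ v₂ ψ₁ ψ₂ huui hψ (A := z 0 0 - 1) (B := z 0 1) (C := z 1 0)
      (by ring) rfl rfl (by linarith) ?_ ?_ ?_ ?_ hR1 hR2
    · rw [castQ_apply]
      show ((1 + (q : ℤ) ^ j * A : ℤ) : ℚ) = _
      push_cast
      rw [hu2, ← eA]
      ring
    · rw [castQ_apply]
      show (((q : ℤ) ^ j * m01 : ℤ) : ℚ) = _
      push_cast
      rw [hu2, ← h01]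
      ring
    · rw [castQ_apply]
      show (((q : ℤ) ^ j * m10 : ℤ) : ℚ) = _
      push_cast
      rw [hu2, ← h10]
      ring
    · rw [castQ_apply]
      show ((1 - (q : ℤ) ^ j * A : ℤ) : ℚ) = _
      push_cast
      rw [hu2, ← eA]
      ring
  refine ⟨⟨hh, hhmem⟩, ⟨γ₀, hγmem⟩, hγPE, ?_⟩
  apply Subtype.ext
  rw [Subgroup.coe_mul, Subgroup.coe_mul, j1_coe]
  exact key

variable {B : Type*} [AddCommGroup B]

/-- **(E), consumer form**: a character of `Γ₀(N)[1/q]` whose restriction to `Γ₀(N)` kills the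
parabolic / elliptic elements kills every element of trace `2`. -/
theorem iharaChar_trace_eq_two (F : ↥(GammaS N q) →* Multiplicative B)
    (hF : ∀ γ : Gamma0 N, IsPE (γ : SL(2, ℤ)) → F (j1 N q γ) = 1) (hNq : Nat.Coprime N q)
    (g : ↥(GammaS N q)) (hg : (g : SL(2, ℚ)) 0 0 + (g : SL(2, ℚ)) 1 1 = 2) : F g = 1 := by
  obtain ⟨h, γ, hγ, hconj⟩ := exists_conj_eq_j1_of_trace_eq_two hNq g hg
  have h1 := congrArg F hconj
  rw [map_mul, map_mul, hF γ hγ, one_mul] at h1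
  exact mul_left_cancel (a := F h) (by rw [h1, mul_one])

end Main

end Fermat.Agent.S41.CSP
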