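import Mathlib

/-!
# P-S41 (B4b): the number-theoretic kernels of the elementary CSP proof (note 834, helper19)

Pure number theory (Dirichlet + Jacobi reciprocity), independent of the matrix-group side.

* `exists_int_crt` : integer CRT for coprime natural moduli;
* `exists_prime_gt_modEq_modEq` : Dirichlet with two coprime moduli;
* `exists_pos_coprime_modEq` : a residue class modulo `b` (prime to the prime `q`) contains a
  positive integer prime to `q`;
* `isSquare_natCast_of_modEq_one` : a prime `r ≡ 1 mod 8`, `r ≡ 1 mod k` has `k` as a square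
  mod `r` (Jacobi reciprocity);
* `exists_primes_lemmaX` : the two primes `a''`, `y` of STEP 5 (Lemma X);
* `exists_prime_step7` : the prime `π` of STEP 7;
* `pow_pred_modEq_one` : `a ^ (π - 1) ≡ 1 [ZMOD M * π]`.
-/

set_option autoImplicit false

namespace Fermat.Agent.S41.CSP.NT

open scoped NumberTheorySymbols

/-- Integer CRT for coprime natural moduli. -/
theorem exists_int_crt {m n : ℕ} (hmn : Nat.Coprime m n) (x y : ℤ) :
    ∃ z : ℤ, z ≡ x [ZMOD m] ∧ z ≡ y [ZMOD n] := by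
  obtain ⟨u, v, huv⟩ := (Nat.isCoprime_iff_coprime.mpr hmn)
  refine ⟨x * (v * n) + y * (u * m), ?_, ?_⟩
  · rw [Int.modEq_iff_dvd]
    refine ⟨x * u - y * u, ?_⟩
    have : (v : ℤ) * n = 1 - u * m := by linarith
    rw [this]; ring
  · rw [Int.modEq_iff_dvd]
    refine ⟨y * v - x * v, ?_⟩
    have : (u : ℤ) * m = 1 - v * n := by linarith
    rw [this]; ring

/-- Coprimality only depends on the residue class. -/
theorem isCoprime_of_modEq {z x m : ℤ} (h : z ≡ x [ZMOD m]) (hx : IsCoprime x m) :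
    IsCoprime z m := by
  obtain ⟨t, ht⟩ := (Int.modEq_iff_dvd.mp h.symm)
  have : z = x + m * t := by linarith
  rw [this]
  exact hx.add_mul_left_left t

/-- Dirichlet's theorem with two coprime moduli. -/
theorem exists_prime_gt_modEq_modEq {m n : ℕ} (hm : m ≠ 0) (hn : n ≠ 0) (hmn : Nat.Coprime m n)
    {x y : ℤ} (hx : IsCoprime x m) (hy : IsCoprime y n) (B : ℕ) :
    ∃ r : ℕ, B < r ∧ r.Prime ∧ (r : ℤ) ≡ x [ZMOD m] ∧ (r : ℤ) ≡ y [ZMOD n] := by
  obtain ⟨z, hzx, hzy⟩ := exists_int_crt hmn x y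
  have hz : IsCoprime z ((m * n : ℕ) : ℤ) := by
    push_cast
    exact IsCoprime.mul_right (isCoprime_of_modEq hzx hx) (isCoprime_of_modEq hzy hy)
  obtain ⟨r, hrB, hr, hrz⟩ :=
    Nat.forall_exists_prime_gt_and_zmodEq B (q := m * n) (a := z) (Nat.mul_ne_zero hm hn) hz
  refine ⟨r, hrB, hr, ?_, ?_⟩
  · have : (r : ℤ) ≡ z [ZMOD (m : ℤ) * n] := by exact_mod_cast hrz
    exact (Int.ModEq.of_mul_right _ this).trans hzx
  · have : (r : ℤ) ≡ z [ZMOD (m : ℤ) * n] := by exact_mod_cast hrz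
    exact (Int.ModEq.of_mul_left _ this).trans hzy

/-- A residue class modulo `b` (with `b ≠ 0` prime to the prime `q`) contains a positive
integer prime to `q`. -/
theorem exists_pos_coprime_modEq {q : ℕ} (hq : q.Prime) {b : ℤ} (hb0 : b ≠ 0)
    (hbq : IsCoprime b q) (c : ℤ) :
    ∃ k : ℕ, 0 < k ∧ Nat.Coprime k q ∧ (k : ℤ) ≡ c [ZMOD b] := by
  have hcop : Nat.Coprime b.natAbs q := by
    have := Int.isCoprime_iff_gcd_eq_one.mp hbq
    simpa [Int.gcd] using this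
  obtain ⟨z, hzc, hz1⟩ := exists_int_crt hcop c 1
  -- make it positive
  set N : ℤ := (b.natAbs : ℤ) * q with hN
  have hNpos : 0 < N := by
    have h1 : 0 < (b.natAbs : ℤ) := by exact_mod_cast Int.natAbs_pos.mpr hb0
    have h2 : 0 < (q : ℤ) := by exact_mod_cast hq.pos
    positivity
  set k : ℤ := z + N * (|z| + 1) with hk
  have hkpos : 0 < k := by
    have h1 : N * (|z| + 1) ≥ 1 * (|z| + 1) := by
      apply mul_le_mul_of_nonneg_right (by linarith) (by positivity)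
    have h2 : -|z| ≤ z := neg_abs_le z
    linarith
  have hkz_b : k ≡ z [ZMOD b] := by
    rw [Int.modEq_iff_dvd]
    have : (b : ℤ) ∣ (b.natAbs : ℤ) := Int.dvd_natAbs_self
    obtain ⟨t, ht⟩ := this
    refine ⟨-(t * q * (|z| + 1)), ?_⟩
    rw [hk, hN, ht]; ring
  have hkz_q : k ≡ z [ZMOD q] := by
    rw [Int.modEq_iff_dvd]
    refine ⟨-((b.natAbs : ℤ) * (|z| + 1)), ?_⟩
    rw [hk, hN]; ring
  refine ⟨k.toNat, ?_, ?_, ?_⟩
  · exact Int.pos_iff_toNat_pos.mp hkpos |> fun h => h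
  · have hk' : ((k.toNat : ℕ) : ℤ) = k := Int.toNat_of_nonneg hkpos.le
    have h1 : IsCoprime k (q : ℤ) :=
      isCoprime_of_modEq (hkz_q.trans hz1) isCoprime_one_left
    rw [← hk'] at h1
    exact Nat.isCoprime_iff_coprime.mp h1
  · have hk' : ((k.toNat : ℕ) : ℤ) = k := Int.toNat_of_nonneg hkpos.le
    rw [hk']
    have hzc' : z ≡ c [ZMOD b] := by
      rw [Int.modEq_iff_dvd] at hzc ⊢
      exact Int.natAbs_dvd.mp hzc
    exact hkz_b.trans hzc'

/-- **Jacobi reciprocity kernel of Lemma X.** If the prime `r` is `1 mod 8` and `1 mod k`, then `k` is a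
square modulo `r`. -/
theorem isSquare_natCast_of_modEq_one {r k : ℕ} (hr : r.Prime) (hr8 : r % 8 = 1) (hk : 0 < k)
    (hkr : (r : ℤ) ≡ 1 [ZMOD k]) : IsSquare ((k : ℕ) : ZMod r) := by
  have : Fact r.Prime := ⟨hr⟩
  have hrodd : Odd r := by
    rw [Nat.odd_iff]; omega
  have hr4 : r % 4 = 1 := by omega
  -- k < r
  have hkdvd : k ∣ r - 1 := by
    have h := (Int.modEq_iff_dvd.mp hkr.symm)
    have h1 : ((r - 1 : ℕ) : ℤ) = (r : ℤ) - 1 := by
      have := hr.one_le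
      push_cast [Nat.cast_sub this]; ring
    rw [← h1] at h
    exact_mod_cast h
  have hklt : k < r := by
    have h1 : 0 < r - 1 := by have := hr.two_le; omega
    have := Nat.le_of_dvd h1 hkdvd
    omega
  have hk0 : ((k : ℤ) : ZMod r) ≠ 0 := by
    rw [Ne, ZMod.intCast_zmod_eq_zero_iff_dvd]
    intro h
    have h' : r ∣ k := by exact_mod_cast h
    have := Nat.le_of_dvd hk h'
    omega
  obtain ⟨e, k', hk'odd, hkk'⟩ := Nat.exists_eq_two_pow_mul_odd hk.ne'
  have hJ2 : J(2 | r) = 1 := by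
    rw [jacobiSym.at_two hrodd, ZMod.χ₈_nat_eq_if_mod_eight]
    have : r % 2 ≠ 0 := by omega
    simp [this, hr8]
  have hk'dvd : (k' : ℤ) ∣ (r : ℤ) - 1 := by
    have h := (Int.modEq_iff_dvd.mp hkr.symm)
    refine dvd_trans ?_ h
    rw [hkk']; push_cast
    exact Dvd.intro_left _ rfl
  have hJk' : J((k' : ℤ) | r) = 1 := by
    rw [jacobiSym.quadratic_reciprocity_one_mod_four' hk'odd hr4, jacobiSym.mod_left]
    have : (r : ℤ) % k' = 1 % k' := by
      have : (r : ℤ) ≡ 1 [ZMOD k'] := (Int.modEq_iff_dvd.mpr (by simpa using hk'dvd)).symm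
      exact this
    rw [this, ← jacobiSym.mod_left, jacobiSym.one_left]
  have hJ : J((k : ℤ) | r) = 1 := by
    rw [hkk']; push_cast
    rw [jacobiSym.mul_left, jacobiSym.pow_left, hJ2, hJk']; simp
  have hL : legendreSym r (k : ℤ) = 1 := by
    rw [jacobiSym.legendreSym.to_jacobiSym]; exact hJ
  have := (legendreSym.eq_one_iff r hk0).mp hL
  simpa using this

/-- **The two primes of Lemma X (STEP 5 of note 834).** Given coprime `a`, `b` with `a ≡ 1 mod k`
(and `a ≡ 1 mod 8` or `k * b` odd), there are primes `r ≡ a mod k * b`, `r ≡ 1 mod 8`, and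
`y ≡ 2 mod p` with `r ∣ y ^ 2 - k`; both can be taken arbitrarily large (`B < r < y`). -/
theorem exists_primes_lemmaX {p : ℕ} (hp : p.Prime) (hp2 : p ≠ 2) {a b : ℤ} {k : ℕ} (hk : 0 < k)
    (hb0 : b ≠ 0) (hab : IsCoprime a b) (hak : a ≡ 1 [ZMOD k])
    (h8 : a ≡ 1 [ZMOD 8] ∨ Odd ((k : ℤ) * b)) (B : ℕ) :
    ∃ r y : ℕ, r.Prime ∧ y.Prime ∧ B < r ∧ r < y ∧ r ≠ p ∧ r % 8 = 1 ∧
      (r : ℤ) ≡ a [ZMOD k * b] ∧ (y : ℤ) ≡ 2 [ZMOD p] ∧ (r : ℤ) ∣ (y : ℤ) ^ 2 - k := by
  set n : ℕ := k * b.natAbs with hn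
  have hn0 : n ≠ 0 := Nat.mul_ne_zero hk.ne' (Int.natAbs_ne_zero.mpr hb0)
  have hnabs : ((k : ℤ) * b).natAbs = n := by
    rw [Int.natAbs_mul, Int.natAbs_natCast]
  have hak' : IsCoprime a (k : ℤ) := isCoprime_of_modEq hak isCoprime_one_left
  have han : IsCoprime a (n : ℤ) := by
    have h1 : IsCoprime a ((k : ℤ) * b) := IsCoprime.mul_right hak' hab
    rw [← hnabs]
    rcases Int.natAbs_eq ((k : ℤ) * b) with h | h
    · rw [← h]; exact h1
    · have : (((k : ℤ) * b).natAbs : ℤ) = -((k : ℤ) * b) := by linarith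
      rw [this]; exact h1.neg_right
  -- the first prime
  have key : ∃ r : ℕ, max B p < r ∧ r.Prime ∧ (r : ℤ) ≡ 1 [ZMOD 8] ∧ (r : ℤ) ≡ a [ZMOD n] := by
    rcases h8 with h8 | h8
    · have hcop : IsCoprime a ((8 * n : ℕ) : ℤ) := by
        push_cast
        refine IsCoprime.mul_right ?_ han
        exact isCoprime_of_modEq h8 isCoprime_one_left
      obtain ⟨r, hrB, hr, hra⟩ := Nat.forall_exists_prime_gt_and_zmodEq (max B p) (q := 8 * n)
        (a := a) (Nat.mul_ne_zero (by norm_num) hn0) hcop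
      have hra' : (r : ℤ) ≡ a [ZMOD (8 : ℤ) * n] := by exact_mod_cast hra
      exact ⟨r, hrB, hr, (Int.ModEq.of_mul_right _ hra').trans h8, Int.ModEq.of_mul_left _ hra'⟩
    · have hnodd : Odd n := by
        have : Odd (((k : ℤ) * b).natAbs) := Int.natAbs_odd.mpr h8
        rwa [hnabs] at this
      have hcop8 : Nat.Coprime 8 n := by
        have : Nat.Coprime (2 ^ 3) n := Nat.Coprime.pow_left 3 (Nat.coprime_two_left.mpr hnodd)
        simpa using this
      obtain ⟨r, hrB, hr, hr1, hra⟩ := exists_prime_gt_modEq_modEq (m := 8) (n := n) (by norm_num)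
        hn0 hcop8 (x := 1) (y := a) isCoprime_one_left han (max B p)
      exact ⟨r, hrB, hr, by exact_mod_cast hr1, hra⟩
  obtain ⟨r, hrB, hr, hr1, hra⟩ := key
  have : Fact r.Prime := ⟨hr⟩
  have hrB' : B < r := lt_of_le_of_lt (le_max_left _ _) hrB
  have hrp : r ≠ p := by
    have : p < r := lt_of_le_of_lt (le_max_right _ _) hrB
    omega
  have hr8 : r % 8 = 1 := by
    have := hr1
    rw [Int.ModEq] at this
    omega
  have hra' : (r : ℤ) ≡ a [ZMOD k * b] := by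
    rw [Int.modEq_iff_dvd] at hra ⊢
    rw [← hnabs] at hra
    exact Int.natAbs_dvd.mp hra
  have hrk : (r : ℤ) ≡ 1 [ZMOD k] := (Int.ModEq.of_mul_right _ hra').trans hak
  obtain ⟨s, hs⟩ := isSquare_natCast_of_modEq_one hr hr8 hk hrk
  -- s ≠ 0
  have hkr0 : ((k : ℕ) : ZMod r) ≠ 0 := by
    intro h
    rw [ZMod.natCast_eq_zero_iff] at h
    have hkdvd : (k : ℤ) ∣ (r : ℤ) - 1 := by
      have := Int.modEq_iff_dvd.mp hrk.symm
      simpa using this
    have h1 : (r : ℤ) ∣ (r : ℤ) - 1 := dvd_trans (by exact_mod_cast h) hkdvd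
    have h2 : (r : ℤ) ∣ 1 := by
      have := dvd_sub (dvd_refl (r : ℤ)) h1
      simpa using this
    have h3 : r ∣ 1 := by exact_mod_cast h2
    have := hr.two_le
    have := Nat.le_of_dvd one_pos h3
    omega
  have hs0 : s ≠ 0 := by
    rintro rfl
    apply hkr0; rw [hs]; simp
  have hsval : ((s.val : ℕ) : ZMod r) = s := ZMod.natCast_zmod_val s
  have hscop : IsCoprime ((s.val : ℕ) : ℤ) (r : ℤ) := by
    rw [Nat.isCoprime_iff_coprime]
    apply Nat.Coprime.symm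
    rw [Nat.Prime.coprime_iff_not_dvd hr]
    intro h
    apply hs0
    rw [← hsval, ZMod.natCast_eq_zero_iff]
    exact h
  have h2p : IsCoprime (2 : ℤ) (p : ℤ) := by
    have : Nat.Coprime 2 p := (Nat.coprime_primes Nat.prime_two hp).mpr (Ne.symm hp2)
    exact_mod_cast Nat.isCoprime_iff_coprime.mpr this
  obtain ⟨y, hyr, hy, hys, hy2⟩ := exists_prime_gt_modEq_modEq (m := r) (n := p) hr.ne_zero
    hp.ne_zero ((Nat.coprime_primes hr hp).mpr hrp) hscop h2p r
  refine ⟨r, y, hr, hy, hrB', hyr, hrp, hr8, hra', hy2, ?_⟩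
  rw [← ZMod.intCast_zmod_eq_zero_iff_dvd]
  have hy' : (((y : ℕ) : ℤ) : ZMod r) = s := by
    have := (ZMod.intCast_eq_intCast_iff _ _ _).mpr hys
    rw [this]; simp
  push_cast at hy' ⊢
  rw [hy', hs]; ring

/-- **The prime of STEP 7 of note 834.** -/
theorem exists_prime_step7 {p : ℕ} (hp : p.Prime) (hp2 : p ≠ 2) {M : ℕ} {a b : ℤ}
    (ha0 : a ≠ 0) (hab : IsCoprime a b) (hMb : (M : ℤ) ∣ b) (hpa : ¬ (p : ℤ) ∣ a) (B : ℕ) :
    ∃ π : ℕ, π.Prime ∧ B < π ∧ (π : ℤ) ≡ 2 [ZMOD p] ∧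
      ∃ s : ℤ, (M : ℤ) * π = b + (M * s) * a := by
  obtain ⟨b', rfl⟩ := hMb
  have hab' : IsCoprime b' a := (IsCoprime.of_mul_right_right hab).symm
  have hab'' : IsCoprime b' ((a.natAbs : ℕ) : ℤ) := by
    rcases Int.natAbs_eq a with h | h
    · rw [← h]; exact hab'
    · have : ((a.natAbs : ℕ) : ℤ) = -a := by linarith
      rw [this]; exact hab'.neg_right
  have hcop : Nat.Coprime a.natAbs p := by
    apply Nat.Coprime.symm
    rw [Nat.Prime.coprime_iff_not_dvd hp]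
    intro h
    exact hpa (Int.natCast_dvd.mpr h)
  have h2p : IsCoprime (2 : ℤ) (p : ℤ) := by
    have : Nat.Coprime 2 p := (Nat.coprime_primes Nat.prime_two hp).mpr (Ne.symm hp2)
    exact_mod_cast Nat.isCoprime_iff_coprime.mpr this
  obtain ⟨π, hπB, hπ, hπb, hπ2⟩ := exists_prime_gt_modEq_modEq (m := a.natAbs) (n := p)
    (Int.natAbs_ne_zero.mpr ha0) hp.ne_zero hcop hab'' h2p B
  refine ⟨π, hπ, hπB, hπ2, ?_⟩
  have h1 : a ∣ (π : ℤ) - b' := by
    have := Int.modEq_iff_dvd.mp hπb.symm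
    exact Int.natAbs_dvd.mp this
  obtain ⟨s, hs⟩ := h1
  refine ⟨s, ?_⟩
  have : (π : ℤ) = b' + a * s := by linarith
  rw [this]; ring

theorem pow_pred_modEq_one {M π : ℕ} (hπ : π.Prime) (hMπ : Nat.Coprime M π) {a : ℤ}
    (haM : a ≡ 1 [ZMOD M]) (hπa : ¬ (π : ℤ) ∣ a) :
    a ^ (π - 1) ≡ 1 [ZMOD (M : ℤ) * π] := by
  have h1 : a ^ (π - 1) ≡ 1 [ZMOD M] := by
    have := haM.pow (π - 1)
    simpa using this
  have h2 : a ^ (π - 1) ≡ 1 [ZMOD π] := by
    apply Int.ModEq.pow_card_sub_one_eq_one hπ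
    have : IsCoprime (π : ℤ) a := (Prime.coprime_iff_not_dvd (Nat.prime_iff_prime_int.mp hπ)).mpr hπa
    exact this.symm
  exact (Int.modEq_and_modEq_iff_modEq_mul (by simpa using hMπ)).mp ⟨h1, h2⟩

end Fermat.Agent.S41.CSP.NT
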