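import Fermat.Agent.S41.CSP.SymbolCalc
import Fermat.Agent.S41.CSP.DirichletNT

/-!
# P-S41 (B4b): the number-theoretic kernels `KernelX`, `Kernel7` of `SymbolCalc` hold

`kernelX` (under `q = 2 ∨ 8 ∣ M`) and `kernel7` discharge the two hypotheses of
`SymbolCalc.sym_eq_zero` (helper77) from `DirichletNT` (Dirichlet + Jacobi reciprocity);
`sym_eq_zero'` is the resulting hypothesis-free form.
-/

set_option autoImplicit false

namespace Fermat.Agent.S41.CSP.NT

open Fermat.Agent.S41.CSP.SymbolCalc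

/-- The kernel of STEP 5 (Lemma X) holds when `q = 2` or `8 ∣ M`. -/
theorem kernelX {M q p : ℕ} (hp : p.Prime) (hp2 : p ≠ 2) (h8 : q = 2 ∨ 8 ∣ M) :
    KernelX M q p := by
  intro a b k Bd hk hkq hab hb0 hMb hMa hka hbq
  have hak : a ≡ 1 [ZMOD k] := (Int.modEq_iff_dvd.mpr hka).symm
  have h8' : a ≡ 1 [ZMOD 8] ∨ Odd ((k : ℤ) * b) := by
    rcases h8 with rfl | h8
    · right
      have hkodd : Odd (k : ℤ) := by
        have : Odd k := Nat.Coprime.odd_of_right hkq
        exact_mod_cast this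
      have hbodd : Odd b := by
        have h2 : IsCoprime b (2 : ℤ) := by simpa using hbq
        rw [Int.isCoprime_iff_gcd_eq_one] at h2
        rw [← Int.natAbs_odd, Nat.odd_iff]
        have : Nat.gcd b.natAbs 2 = 1 := by simpa [Int.gcd] using h2
        rcases Nat.mod_two_eq_zero_or_one b.natAbs with h | h
        · exfalso
          have : 2 ∣ Nat.gcd b.natAbs 2 := Nat.dvd_gcd (Nat.dvd_of_mod_eq_zero h) dvd_rfl
          omega
        · exact h
      exact hkodd.mul hbodd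
    · left
      have : (8 : ℤ) ∣ a - 1 := dvd_trans (by exact_mod_cast h8) hMa
      exact (Int.modEq_iff_dvd.mpr this).symm
  obtain ⟨r, y, hr, hy, hBr, hry, hrp, -, hra, hy2, hdvd⟩ :=
    exists_primes_lemmaX hp hp2 hk hb0 hab hak h8' Bd
  exact ⟨r, y, hr, hy, hBr, lt_trans hBr hry, hrp, Int.modEq_iff_dvd.mp hra.symm,
    Int.modEq_iff_dvd.mp hy2.symm, hdvd⟩

/-- The kernel of STEP 7 holds. -/
theorem kernel7 {M p : ℕ} (hp : p.Prime) (hp2 : p ≠ 2) : Kernel7 M p := by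
  intro a b Bd hab hMb _ hpa
  have ha0 : a ≠ 0 := by
    rintro rfl
    exact hpa (dvd_zero _)
  obtain ⟨π, hπ, hBπ, hπ2, s, hs⟩ := exists_prime_step7 hp hp2 ha0 hab hMb hpa Bd
  refine ⟨π, hπ, hBπ, Int.modEq_iff_dvd.mp hπ2.symm, ⟨M * s, ?_⟩⟩
  rw [hs]; ring

/-- **STEPS 5–7 of note 834, kernel-free form.** A row symbol with values in a group of exponent
`p` (odd prime) vanishes on all admissible integer rows `(a, b)` with `b` prime to `q`, as soon
as `q = 2` or `8 ∣ M`. -/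
theorem sym_eq_zero' {M q p : ℕ} {B : Type*} [AddCommGroup B] {sym : ℤ → ℤ → B}
    (hs : IsRowSymbol M q p sym) (hp : p.Prime) (hp2 : p ≠ 2) (hq : q.Prime)
    (hMq : M.Coprime q) (hM : 0 < M) (h8 : q = 2 ∨ 8 ∣ M) (hB : ∀ x : B, p • x = 0)
    {a b : ℤ} (hab : Adm M a b) (hbq : IsCoprime b (q : ℤ)) : sym a b = 0 :=
  sym_eq_zero hs (kernelX hp hp2 h8) (kernel7 hp hp2) hp hp2 hq hMq hM hB hab hbq

end Fermat.Agent.S41.CSP.NT
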