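import Mathlib
import Fermat.Agent.S41.Ihara.Assembly
import Fermat.Agent.S41.CSP.Sym

/-!
# P-S41 (B4b), STEP 4' of note 834: prime squares (helper95)

Setting of helper19's proof of the abelian congruence subgroup property for `SL₂(ℤ[1/q])`:
`R = ℤ[1/q] ⊆ ℚ`, `Del_M = {g ∈ SL(2, ℚ) | IsLevel M q g}`, `κ : Del_M → B` additive and killing the
trace-`2` elements, `B` of exponent `p`, and `c = c_{y²}` the conjugation by `diag(y², 1)`,
`c g = [[a, y² b], [c / y², d]]`.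

STEP 4 (squares, supplied as the hypothesis `hstep4`): `κ (c g) = κ g` for `g ∈ Del_{y² M}`.

STEP 4' (this file, `kappa_conj_eq_of_prime`): for a prime `y ∤ M q` with `y ≢ 0, 1 mod p`,
`κ (c g) = κ g` for every `g ∈ Del_M` whose lower left entry lies in `y² R`.

The file is written hypothesis-style over `Ihara.IsLevel` only, so that it does not depend on the
final shape of the `Sym.lean` interface.  By-products: the ideals `n • ℤ[1/q]` of `ℤ[1/q]` inside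
`ℚ` (`InLvl`), `IsLevel` in terms of them, closure of `IsLevel` under products, the Chinese
remainder statement `IsLevel (n * M) ↔ IsLevel M ∧ IsLevel n` and Euler's theorem in
`ℤ[1/q] / n`.
-/

set_option autoImplicit false

namespace Fermat.Agent.S41.CSP.PrimeSquares

open Matrix
open Fermat.Agent.S41.Ihara Fermat.Agent.S41.CSP
open scoped MatrixGroups

/-! ### The ideals `n • ℤ[1/q]` inside `ℚ` -/

/-- `x ∈ n • ℤ[1/q]`. -/
def InLvl (n q : ℕ) (x : ℚ) : Prop := ∃ k : ℕ, ∃ m : ℤ, x * (q : ℚ) ^ k = n * m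

section InLvl

variable {n q : ℕ} {x y : ℚ}

theorem inLvl_one_iff : InLvl 1 q x ↔ IsZInv q x := by
  unfold InLvl IsZInv
  simp only [Nat.cast_one, one_mul]

theorem InLvl.zero : InLvl n q 0 := ⟨0, 0, by simp⟩

theorem InLvl.add (hx : InLvl n q x) (hy : InLvl n q y) : InLvl n q (x + y) := by
  obtain ⟨k, m, hm⟩ := hx
  obtain ⟨k', m', hm'⟩ := hy
  refine ⟨k + k', m * (q : ℤ) ^ k' + m' * (q : ℤ) ^ k, ?_⟩
  push_cast
  rw [pow_add, add_mul, ← mul_assoc, hm, mul_comm ((q : ℚ) ^ k) ((q : ℚ) ^ k'), ← mul_assoc, hm']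
  ring

theorem InLvl.neg (hx : InLvl n q x) : InLvl n q (-x) := by
  obtain ⟨k, m, hm⟩ := hx
  refine ⟨k, -m, ?_⟩
  push_cast
  rw [neg_mul, hm, mul_neg]

theorem InLvl.sub (hx : InLvl n q x) (hy : InLvl n q y) : InLvl n q (x - y) := by
  rw [sub_eq_add_neg]
  exact hx.add hy.neg

/-- `n • ℤ[1/q]` is stable under multiplication on the left by `ℤ[1/q]`
(the element of the ideal is the first argument). -/
theorem InLvl.mul_left (hy : InLvl n q y) (hx : InLvl 1 q x) : InLvl n q (x * y) := by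
  obtain ⟨k, m, hm⟩ := hx
  obtain ⟨k', m', hm'⟩ := hy
  rw [Nat.cast_one, one_mul] at hm
  refine ⟨k + k', m * m', ?_⟩
  push_cast
  rw [pow_add, mul_mul_mul_comm, hm, hm']
  ring

/-- `n • ℤ[1/q]` is stable under multiplication on the right by `ℤ[1/q]`. -/
theorem InLvl.mul_right (hx : InLvl n q x) (hy : InLvl 1 q y) : InLvl n q (x * y) := by
  rw [mul_comm]
  exact hx.mul_left hy

theorem InLvl.mono {n' : ℕ} (h : n ∣ n') (hx : InLvl n' q x) : InLvl n q x := by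
  obtain ⟨k, m, hm⟩ := hx
  obtain ⟨e, rfl⟩ := h
  refine ⟨k, e * m, ?_⟩
  rw [hm]
  push_cast
  ring

theorem InLvl.one (hx : InLvl n q x) : InLvl 1 q x := hx.mono (one_dvd n)

theorem InLvl.intCast (m : ℤ) : InLvl 1 q (m : ℚ) := ⟨0, m, by simp⟩

theorem InLvl.natCast (m : ℕ) : InLvl 1 q (m : ℚ) := ⟨0, m, by simp⟩

theorem InLvl.one_one : InLvl 1 q 1 := ⟨0, 1, by simp⟩

theorem InLvl.self_mul (hx : InLvl 1 q x) : InLvl n q ((n : ℚ) * x) := by
  obtain ⟨k, m, hm⟩ := hx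
  rw [Nat.cast_one, one_mul] at hm
  exact ⟨k, m, by rw [mul_assoc, hm]⟩

theorem InLvl.pow (hx : InLvl 1 q x) (j : ℕ) : InLvl 1 q (x ^ j) := by
  induction j with
  | zero => rw [pow_zero]; exact InLvl.one_one
  | succ j ih => rw [pow_succ]; exact ih.mul_right hx

/-- Chinese remainder theorem: `M • ℤ[1/q] ∩ n • ℤ[1/q] = (n M) • ℤ[1/q]` for coprime `M`, `n`. -/
theorem InLvl.mul_of_coprime {M : ℕ} (hc : Nat.Coprime M n) (hM : InLvl M q x)
    (hn : InLvl n q x) : InLvl (n * M) q x := by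
  obtain ⟨k, m, hm⟩ := hM
  obtain ⟨k', m', hm'⟩ := hn
  have h1 : (M : ℤ) * (m * (q : ℤ) ^ k') = (n : ℤ) * (m' * (q : ℤ) ^ k) := by
    have : ((M : ℤ) * (m * (q : ℤ) ^ k') : ℚ) = ((n : ℤ) * (m' * (q : ℤ) ^ k) : ℚ) := by
      push_cast
      rw [← mul_assoc, ← hm, ← mul_assoc, ← hm']
      ring
    exact_mod_cast this
  have h2 : (M : ℤ) ∣ m' * (q : ℤ) ^ k := by
    have hcop : IsCoprime (M : ℤ) (n : ℤ) := Nat.isCoprime_iff_coprime.mpr hc
    exact hcop.dvd_of_dvd_mul_left (Dvd.intro _ h1)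
  obtain ⟨e, he⟩ := h2
  refine ⟨k' + k, e, ?_⟩
  rw [pow_add, ← mul_assoc, hm']
  have : ((m' * (q : ℤ) ^ k : ℤ) : ℚ) = ((M : ℤ) * e : ℤ) := by rw [he]
  push_cast at this
  rw [mul_assoc, this]
  push_cast
  ring

theorem InLvl.div_of_mul {M : ℕ} (hn : n ≠ 0) (hx : InLvl (n * M) q x) :
    InLvl M q (x / n) := by
  obtain ⟨k, m, hm⟩ := hx
  refine ⟨k, m, ?_⟩
  have hn' : (n : ℚ) ≠ 0 := Nat.cast_ne_zero.mpr hn
  rw [div_mul_eq_mul_div, hm]
  push_cast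
  field_simp

/-- Euler's theorem for integers. -/
theorem int_pow_totient_sub_one {m : ℤ} {n : ℕ} (h : IsCoprime m (n : ℤ)) :
    (n : ℤ) ∣ m ^ Nat.totient n - 1 := by
  obtain ⟨u, v, huv⟩ := h
  have h1 : (u : ZMod n) * (m : ZMod n) = 1 := by
    have := congrArg (Int.cast : ℤ → ZMod n) huv
    push_cast at this
    rwa [ZMod.natCast_self, mul_zero, add_zero] at this
  have h2 := ZMod.pow_totient (Units.mkOfMulEqOne (m : ZMod n) (u : ZMod n)
    (by rw [mul_comm]; exact h1))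
  have h3 : (m : ZMod n) ^ Nat.totient n = 1 := by
    have := congrArg Units.val h2
    rwa [Units.val_pow_eq_pow_val, Units.val_one] at this
  rw [← ZMod.intCast_zmod_eq_zero_iff_dvd]
  push_cast
  rw [h3, sub_self]

/-- **Euler's theorem in `ℤ[1/q] / n`**: a unit `a` modulo `n` satisfies `a ^ φ(n) ≡ 1`. -/
theorem InLvl.pow_totient_sub_one {a d : ℚ} (hnq : Nat.Coprime n q) (ha : InLvl 1 q a)
    (hd : InLvl 1 q d) (had : InLvl n q (a * d - 1)) :
    InLvl n q (a ^ Nat.totient n - 1) := by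
  obtain ⟨k, m, hm⟩ := ha
  obtain ⟨k', m', hm'⟩ := hd
  obtain ⟨K, e, he⟩ := had
  rw [Nat.cast_one, one_mul] at hm hm'
  -- `m` is prime to `n`
  have h1 : m * (m' * (q : ℤ) ^ K) - (n : ℤ) * (e * (q : ℤ) ^ (k + k')) = (q : ℤ) ^ (K + k + k') := by
    have : ((m * (m' * (q : ℤ) ^ K) - (n : ℤ) * (e * (q : ℤ) ^ (k + k')) : ℤ) : ℚ) =
        (((q : ℤ) ^ (K + k + k') : ℤ) : ℚ) := by
      push_cast
      rw [← hm, ← hm', ← mul_assoc (n : ℚ), ← he]
      ring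
    exact_mod_cast this
  have hqn : IsCoprime ((q : ℤ) ^ (K + k + k')) (n : ℤ) :=
    (Nat.isCoprime_iff_coprime.mpr hnq.symm).pow_left
  have hmn : IsCoprime m (n : ℤ) := by
    obtain ⟨u, v, huv⟩ := hqn
    refine ⟨u * (m' * (q : ℤ) ^ K), v - u * (e * (q : ℤ) ^ (k + k')), ?_⟩
    rw [← huv, ← h1]
    ring
  have hqn' : IsCoprime ((q : ℤ) ^ k) (n : ℤ) :=
    (Nat.isCoprime_iff_coprime.mpr hnq.symm).pow_left
  obtain ⟨f1, hf1⟩ := int_pow_totient_sub_one hmn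
  obtain ⟨f2, hf2⟩ := int_pow_totient_sub_one hqn'
  refine ⟨k * Nat.totient n, f1 - f2, ?_⟩
  have hf1' : ((m ^ Nat.totient n - 1 : ℤ) : ℚ) = ((n : ℤ) * f1 : ℤ) := by rw [hf1]
  have hf2' : ((((q : ℤ) ^ k) ^ Nat.totient n - 1 : ℤ) : ℚ) = ((n : ℤ) * f2 : ℤ) := by rw [hf2]
  push_cast at hf1' hf2'
  rw [sub_mul, one_mul, pow_mul, ← mul_pow, hm]
  push_cast
  linarith

end InLvl

/-! ### `IsLevel` in terms of `InLvl` -/

section Level

variable {M q : ℕ}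

theorem isLevel_iff {g : SL(2, ℚ)} :
    IsLevel M q g ↔ InLvl M q (g 0 0 - 1) ∧ InLvl M q (g 0 1) ∧ InLvl M q (g 1 0) ∧
      InLvl M q (g 1 1 - 1) := by
  constructor
  · rintro ⟨k, m00, m01, m10, m11, h00, h01, h10, h11⟩
    exact ⟨⟨k, m00, h00⟩, ⟨k, m01, h01⟩, ⟨k, m10, h10⟩, ⟨k, m11, h11⟩⟩
  · rintro ⟨⟨k0, m00, h00⟩, ⟨k1, m01, h01⟩, ⟨k2, m10, h10⟩, ⟨k3, m11, h11⟩⟩
    refine ⟨k0 + k1 + k2 + k3, m00 * (q : ℤ) ^ (k1 + k2 + k3), m01 * (q : ℤ) ^ (k0 + k2 + k3),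
      m10 * (q : ℤ) ^ (k0 + k1 + k3), m11 * (q : ℤ) ^ (k0 + k1 + k2), ?_, ?_, ?_, ?_⟩
    · have : k0 + k1 + k2 + k3 = k0 + (k1 + k2 + k3) := by ring
      rw [this, pow_add, ← mul_assoc, h00]
      push_cast
      ring
    · have : k0 + k1 + k2 + k3 = k1 + (k0 + k2 + k3) := by ring
      rw [this, pow_add, ← mul_assoc, h01]
      push_cast
      ring
    · have : k0 + k1 + k2 + k3 = k2 + (k0 + k1 + k3) := by ring
      rw [this, pow_add, ← mul_assoc, h10]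
      push_cast
      ring
    · have : k0 + k1 + k2 + k3 = k3 + (k0 + k1 + k2) := by ring
      rw [this, pow_add, ← mul_assoc, h11]
      push_cast
      ring

theorem det_eq (g : SL(2, ℚ)) : g 0 0 * g 1 1 - g 0 1 * g 1 0 = 1 := by
  have := g.det_coe
  rwa [Matrix.det_fin_two] at this

theorem mulEntry (g h : SL(2, ℚ)) (i j : Fin 2) :
    (g * h) i j = g i 0 * h 0 j + g i 1 * h 1 j := by
  rw [Matrix.SpecialLinearGroup.coe_mul, Matrix.mul_apply, Fin.sum_univ_two]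

theorem entry00_of_isLevel {g : SL(2, ℚ)} (h : IsLevel M q g) : InLvl 1 q (g 0 0) := by
  have := (isLevel_iff.mp h).1.one.add (InLvl.one_one (q := q))
  rwa [sub_add_cancel] at this

theorem entry11_of_isLevel {g : SL(2, ℚ)} (h : IsLevel M q g) : InLvl 1 q (g 1 1) := by
  have := (isLevel_iff.mp h).2.2.2.one.add (InLvl.one_one (q := q))
  rwa [sub_add_cancel] at this

theorem entry01_of_isLevel {g : SL(2, ℚ)} (h : IsLevel M q g) : InLvl 1 q (g 0 1) :=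
  (isLevel_iff.mp h).2.1.one

theorem entry10_of_isLevel {g : SL(2, ℚ)} (h : IsLevel M q g) : InLvl 1 q (g 1 0) :=
  (isLevel_iff.mp h).2.2.1.one

theorem isLevel_one : IsLevel M q (1 : SL(2, ℚ)) := by
  rw [isLevel_iff]
  simp [InLvl.zero]

/-- `Del_M` is closed under products. -/
theorem isLevel_mul {g h : SL(2, ℚ)} (hg : IsLevel M q g) (hh : IsLevel M q h) :
    IsLevel M q (g * h) := by
  obtain ⟨g00, g01, g10, g11⟩ := isLevel_iff.mp hg
  obtain ⟨h00, h01, h10, h11⟩ := isLevel_iff.mp hh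
  have G00 := entry00_of_isLevel hg
  have G11 := entry11_of_isLevel hg
  have H00 := entry00_of_isLevel hh
  have H01 := entry01_of_isLevel hh
  have H10 := entry10_of_isLevel hh
  have H11 := entry11_of_isLevel hh
  rw [isLevel_iff]
  refine ⟨?_, ?_, ?_, ?_⟩
  · have e : (g * h) 0 0 - 1 = (g 0 0 - 1) * h 0 0 + (h 0 0 - 1) + g 0 1 * h 1 0 := by
      rw [mulEntry]; ring
    rw [e]
    exact ((g00.mul_right H00).add h00).add (g01.mul_right H10)
  · have e : (g * h) 0 1 = g 0 0 * h 0 1 + g 0 1 * h 1 1 := by rw [mulEntry]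
    rw [e]
    exact (h01.mul_left G00).add (g01.mul_right H11)
  · have e : (g * h) 1 0 = g 1 0 * h 0 0 + g 1 1 * h 1 0 := by rw [mulEntry]
    rw [e]
    exact (g10.mul_right H00).add (h10.mul_left G11)
  · have e : (g * h) 1 1 - 1 = g 1 0 * h 0 1 + (g 1 1 - 1) * h 1 1 + (h 1 1 - 1) := by
      rw [mulEntry]; ring
    rw [e]
    exact ((g10.mul_right H01).add (g11.mul_right H11)).add h11

theorem isLevel_pow {g : SL(2, ℚ)} (hg : IsLevel M q g) (j : ℕ) : IsLevel M q (g ^ j) := by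
  induction j with
  | zero => rw [pow_zero]; exact isLevel_one
  | succ j ih => rw [pow_succ]; exact isLevel_mul ih hg

theorem isLevel_mono {M' : ℕ} (h : M ∣ M') {g : SL(2, ℚ)} (hg : IsLevel M' q g) :
    IsLevel M q g := by
  obtain ⟨g00, g01, g10, g11⟩ := isLevel_iff.mp hg
  exact isLevel_iff.mpr ⟨g00.mono h, g01.mono h, g10.mono h, g11.mono h⟩

/-- `Del_M ∩ Del_n = Del_{n M}` for coprime `M`, `n`. -/
theorem isLevel_mul_iff {n : ℕ} (hc : Nat.Coprime M n) {g : SL(2, ℚ)} :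
    IsLevel (n * M) q g ↔ IsLevel M q g ∧ IsLevel n q g := by
  constructor
  · intro h
    exact ⟨isLevel_mono (Dvd.intro_left n rfl) h, isLevel_mono (Dvd.intro M rfl) h⟩
  · rintro ⟨hM, hn⟩
    obtain ⟨g00, g01, g10, g11⟩ := isLevel_iff.mp hM
    obtain ⟨g00', g01', g10', g11'⟩ := isLevel_iff.mp hn
    exact isLevel_iff.mpr ⟨g00.mul_of_coprime hc g00', g01.mul_of_coprime hc g01',
      g10.mul_of_coprime hc g10', g11.mul_of_coprime hc g11'⟩

theorem isLevel_upperT {t : ℚ} (ht : InLvl M q t) : IsLevel M q (upperT t : SL(2, ℚ)) := by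
  rw [isLevel_iff]
  simp [InLvl.zero, ht]

end Level

/-! ### Matrices which are diagonal modulo `n` -/

section Diag

variable {M q n : ℕ}

/-- `g ∈ Del_M` is diagonal modulo `n`. -/
def IsDiagMod (M q n : ℕ) (g : SL(2, ℚ)) : Prop :=
  IsLevel M q g ∧ InLvl n q (g 0 1) ∧ InLvl n q (g 1 0)

theorem IsDiagMod.mul {g h : SL(2, ℚ)} (hg : IsDiagMod M q n g) (hh : IsDiagMod M q n h) :
    IsDiagMod M q n (g * h) := by
  refine ⟨isLevel_mul hg.1 hh.1, ?_, ?_⟩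
  · rw [mulEntry]
    exact (hh.2.1.mul_left (entry00_of_isLevel hg.1)).add
      (hg.2.1.mul_right (entry11_of_isLevel hh.1))
  · rw [mulEntry]
    exact (hg.2.2.mul_right (entry00_of_isLevel hh.1)).add
      (hh.2.2.mul_left (entry11_of_isLevel hg.1))

theorem isDiagMod_one : IsDiagMod M q n (1 : SL(2, ℚ)) :=
  ⟨isLevel_one, by simp [InLvl.zero], by simp [InLvl.zero]⟩

/-- The diagonal entries of a power of a matrix which is diagonal modulo `n`. -/
theorem IsDiagMod.pow {g : SL(2, ℚ)} (hg : IsDiagMod M q n g) (j : ℕ) :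
    IsDiagMod M q n (g ^ j) ∧ InLvl n q ((g ^ j) 0 0 - g 0 0 ^ j) ∧
      InLvl n q ((g ^ j) 1 1 - g 1 1 ^ j) := by
  induction j with
  | zero =>
    refine ⟨by rw [pow_zero]; exact isDiagMod_one, ?_, ?_⟩ <;> simp [InLvl.zero]
  | succ j ih =>
    obtain ⟨h1, h2, h3⟩ := ih
    refine ⟨by rw [pow_succ]; exact h1.mul hg, ?_, ?_⟩
    · have e : (g ^ (j + 1)) 0 0 - g 0 0 ^ (j + 1) =
          ((g ^ j) 0 0 - g 0 0 ^ j) * g 0 0 + (g ^ j) 0 1 * g 1 0 := by
        rw [pow_succ, mulEntry, pow_succ]; ring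
      rw [e]
      exact (h2.mul_right (entry00_of_isLevel hg.1)).add
        (hg.2.2.mul_left (entry01_of_isLevel h1.1))
    · have e : (g ^ (j + 1)) 1 1 - g 1 1 ^ (j + 1) =
          (g ^ j) 1 0 * g 0 1 + ((g ^ j) 1 1 - g 1 1 ^ j) * g 1 1 := by
        rw [pow_succ, mulEntry, pow_succ]; ring
      rw [e]
      exact (hg.2.1.mul_left (entry10_of_isLevel h1.1)).add
        (h3.mul_right (entry11_of_isLevel hg.1))

/-- A matrix of `Del_M` which is diagonal modulo `n` has its `φ(n)`-th power in `Del_{n M}`. -/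
theorem IsDiagMod.pow_totient_isLevel {g : SL(2, ℚ)} (hMn : Nat.Coprime M n)
    (hnq : Nat.Coprime n q) (hg : IsDiagMod M q n g) :
    IsLevel (n * M) q (g ^ Nat.totient n) := by
  obtain ⟨h1, h2, h3⟩ := hg.pow (Nat.totient n)
  rw [isLevel_mul_iff hMn]
  refine ⟨h1.1, ?_⟩
  have hdet := det_eq g
  have G00 := entry00_of_isLevel hg.1
  have G11 := entry11_of_isLevel hg.1
  have had : InLvl n q (g 0 0 * g 1 1 - 1) := by
    have e : g 0 0 * g 1 1 - 1 = g 0 1 * g 1 0 := by linarith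
    rw [e]
    exact hg.2.1.mul_right (entry10_of_isLevel hg.1)
  have had' : InLvl n q (g 1 1 * g 0 0 - 1) := by rwa [mul_comm]
  have e00 := InLvl.pow_totient_sub_one hnq G00 G11 had
  have e11 := InLvl.pow_totient_sub_one hnq G11 G00 had'
  rw [isLevel_iff]
  refine ⟨?_, h1.2.1, h1.2.2, ?_⟩
  · have := h2.add e00
    rwa [sub_add_sub_cancel] at this
  · have := h3.add e11
    rwa [sub_add_sub_cancel] at this

end Diag

/-! ### STEP 4' -/

section Step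

variable {B : Type*} [AddCommGroup B] {M q p y : ℕ}

/-- **STEP 4' (prime squares)** of the proof of the abelian congruence subgroup property for
`SL₂(ℤ[1/q])`.  Hypothesis-style: `κ` is additive on `Del_M = {g | IsLevel M q g}` and kills its
elements of trace `2`; `c` is the conjugation by `diag(y², 1)`; STEP 4 (`hstep4`) says that
`κ ∘ c = κ` on `Del_{y² M}`.  Then `κ (c g) = κ g` for every `g ∈ Del_M` whose lower left entry
lies in `y² ℤ[1/q]`. -/
theorem kappa_conj_eq_of_prime (hy : y.Prime) (hyMq : ¬ y ∣ M * q) (hp : p.Prime)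
    (hpy : ¬ p ∣ y) (hpy1 : ¬ p ∣ y - 1) (hB : ∀ x : B, p • x = 0)
    (κ : SL(2, ℚ) → B)
    (hmul : ∀ g h : SL(2, ℚ), IsLevel M q g → IsLevel M q h → κ (g * h) = κ g + κ h)
    (hunip : ∀ g : SL(2, ℚ), IsLevel M q g → g 0 0 + g 1 1 = 2 → κ g = 0)
    (c : SL(2, ℚ) →* SL(2, ℚ))
    (hc00 : ∀ g : SL(2, ℚ), (c g) 0 0 = g 0 0)
    (hc01 : ∀ g : SL(2, ℚ), (c g) 0 1 = (y : ℚ) ^ 2 * g 0 1)
    (hc10 : ∀ g : SL(2, ℚ), (c g) 1 0 = g 1 0 / (y : ℚ) ^ 2)
    (hc11 : ∀ g : SL(2, ℚ), (c g) 1 1 = g 1 1)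
    (hstep4 : ∀ g : SL(2, ℚ), IsLevel (y ^ 2 * M) q g → κ (c g) = κ g)
    (g : SL(2, ℚ)) (hg : IsLevel M q g) (hg10 : InLvl (y ^ 2) q (g 1 0)) :
    κ (c g) = κ g := by
  -- arithmetic preliminaries
  have hyM : ¬ y ∣ M := fun h => hyMq (Dvd.dvd.mul_right h q)
  have hyq : ¬ y ∣ q := fun h => hyMq (Dvd.dvd.mul_left h M)
  have hMy : Nat.Coprime M (y ^ 2) :=
    Nat.Coprime.pow_right 2 ((Nat.Prime.coprime_iff_not_dvd hy).mpr hyM).symm
  have hyq' : Nat.Coprime (y ^ 2) q :=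
    Nat.Coprime.pow_left 2 ((Nat.Prime.coprime_iff_not_dvd hy).mpr hyq)
  have hy0 : y ^ 2 ≠ 0 := pow_ne_zero 2 hy.ne_zero
  have htot : Nat.totient (y ^ 2) = y * (y - 1) := by
    rw [Nat.totient_prime_pow hy (by norm_num : 0 < 2)]
    norm_num
  have hpn : Nat.Coprime (y * (y - 1)) p :=
    (Nat.Coprime.mul_left ((Nat.Prime.coprime_iff_not_dvd hp).mpr hpy).symm
      ((Nat.Prime.coprime_iff_not_dvd hp).mpr hpy1).symm)
  have hy2R : InLvl 1 q ((y : ℚ) ^ 2) := by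
    have := InLvl.natCast (q := q) (y ^ 2)
    rwa [Nat.cast_pow] at this
  -- the subgroup `H` and the defect `D`
  set H : SL(2, ℚ) → Prop := fun h => IsLevel M q h ∧ InLvl (y ^ 2) q (h 1 0) with hH
  have hH1 : H (1 : SL(2, ℚ)) := ⟨isLevel_one, by simp [InLvl.zero]⟩
  have hHmul : ∀ a b : SL(2, ℚ), H a → H b → H (a * b) := by
    rintro a b ⟨ha, ha10⟩ ⟨hb, hb10⟩
    refine ⟨isLevel_mul ha hb, ?_⟩
    rw [mulEntry]
    exact (ha10.mul_right (entry00_of_isLevel hb)).add (hb10.mul_left (entry11_of_isLevel ha))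
  have hcH : ∀ a : SL(2, ℚ), H a → IsLevel M q (c a) := by
    rintro a ⟨ha, ha10⟩
    obtain ⟨a00, a01, a10, a11⟩ := isLevel_iff.mp ha
    rw [isLevel_iff, hc00, hc01, hc10, hc11]
    refine ⟨a00, a01.mul_left hy2R, ?_, a11⟩
    have := (a10.mul_of_coprime hMy ha10).div_of_mul hy0
    rwa [Nat.cast_pow] at this
  set D : SL(2, ℚ) → B := fun h => κ (c h) - κ h with hD
  have hDmul : ∀ a b : SL(2, ℚ), H a → H b → D (a * b) = D a + D b := by
    intro a b ha hb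
    simp only [hD]
    rw [map_mul, hmul _ _ (hcH a ha) (hcH b hb), hmul _ _ ha.1 hb.1]
    abel
  have hHpow : ∀ (a : SL(2, ℚ)) (j : ℕ), H a → H (a ^ j) := by
    intro a j ha
    induction j with
    | zero => rw [pow_zero]; exact hH1
    | succ j ih => rw [pow_succ]; exact hHmul _ _ ih ha
  have hDpow : ∀ (a : SL(2, ℚ)) (j : ℕ), H a → D (a ^ j) = j • D a := by
    intro a j ha
    induction j with
    | zero =>
      have h2 := hDmul 1 1 hH1 hH1
      rw [mul_one] at h2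
      rw [pow_zero, zero_smul]
      exact left_eq_add.mp h2
    | succ j ih => rw [pow_succ, hDmul _ _ (hHpow a j ha) ha, ih, succ_nsmul]
  -- `D` kills the upper unipotent matrices of level `M`
  have hDup : ∀ t : ℚ, InLvl M q t → D (upperT t) = 0 := by
    intro t ht
    have h1 : IsLevel M q (upperT t : SL(2, ℚ)) := isLevel_upperT ht
    have h2 : H (upperT t) := ⟨h1, by simp [InLvl.zero]⟩
    have h3 : (upperT t : SL(2, ℚ)) 0 0 + (upperT t : SL(2, ℚ)) 1 1 = 2 := by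
      simp; norm_num
    simp only [hD]
    rw [hunip _ (hcH _ h2) (by rw [hc00, hc11]; exact h3), hunip _ h1 h3, sub_zero]
  -- the matrices which are diagonal modulo `y²`
  have hdiag : ∀ h : SL(2, ℚ), IsDiagMod M q (y ^ 2) h → D h = 0 := by
    intro h hh
    have h1 : IsLevel (y ^ 2 * M) q (h ^ Nat.totient (y ^ 2)) :=
      hh.pow_totient_isLevel hMy hyq'
    have hhH : H h := ⟨hh.1, hh.2.2⟩
    have h2 : D (h ^ Nat.totient (y ^ 2)) = 0 := by
      simp only [hD]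
      rw [hstep4 _ h1, sub_self]
    rw [hDpow h _ hhH, htot] at h2
    -- `p • D h = 0` and `(y (y - 1)) • D h = 0` with `gcd = 1`
    have h3 : ((y * (y - 1) : ℕ) : ℤ) • D h = 0 := by
      rw [natCast_zsmul]; exact h2
    have h4 : ((p : ℕ) : ℤ) • D h = 0 := by
      rw [natCast_zsmul]; exact hB _
    obtain ⟨u, v, huv⟩ := Nat.isCoprime_iff_coprime.mpr hpn
    have : (1 : ℤ) • D h = 0 := by
      rw [← huv, add_smul, mul_smul, mul_smul, h3, h4, smul_zero, smul_zero, add_zero]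
    rwa [one_smul] at this
  -- reduction of `g` to a matrix which is diagonal modulo `y²`
  obtain ⟨u, v, huv⟩ : IsCoprime (M : ℤ) ((y ^ 2 : ℕ) : ℤ) := Nat.isCoprime_iff_coprime.mpr hMy
  have huvQ : (u : ℚ) * M + v * (y : ℚ) ^ 2 = 1 := by
    have : ((u * (M : ℤ) + v * ((y ^ 2 : ℕ) : ℤ) : ℤ) : ℚ) = ((1 : ℤ) : ℚ) := by rw [huv]
    push_cast at this
    exact this
  have G00 := entry00_of_isLevel hg
  have G01 := entry01_of_isLevel hg
  have G11 := entry11_of_isLevel hg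
  set t : ℚ := (M : ℚ) * (-(u : ℚ) * g 1 1 * g 0 1) with ht
  have htM : InLvl M q t := by
    have h1 : InLvl 1 q (-(u : ℚ)) := (InLvl.intCast u).neg
    exact InLvl.self_mul ((h1.mul_right G11).mul_right G01)
  have hgH : H g := ⟨hg, hg10⟩
  have hupH : H (upperT t) := ⟨isLevel_upperT htM, by simp [InLvl.zero]⟩
  have hg'diag : IsDiagMod M q (y ^ 2) (g * upperT t) := by
    refine ⟨isLevel_mul hg (isLevel_upperT htM), ?_, ?_⟩
    · have hdet := det_eq g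
      have e : (g * upperT t) 0 1 =
          g 0 1 * ((v * (y : ℚ) ^ 2) * (g 0 0 * g 1 1)) - g 0 1 * g 0 1 * g 1 0 := by
        rw [mulEntry]
        simp only [coe_upperT, Matrix.of_apply, Matrix.cons_val', Matrix.cons_val_one,
          Matrix.cons_val_zero, Matrix.cons_val_fin_one]
        have h1 : g 0 0 * g 1 1 = 1 + g 0 1 * g 1 0 := by linarith
        have h2 : (u : ℚ) * M = 1 - v * (y : ℚ) ^ 2 := by linarith
        have h3 : g 0 0 * t + g 0 1 * 1 = g 0 1 * (1 - ((u : ℚ) * M) * (g 0 0 * g 1 1)) := by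
          rw [ht]; ring
        rw [h3, h2, h1]
        ring
      rw [e]
      have hy2 : InLvl (y ^ 2) q ((v : ℚ) * (y : ℚ) ^ 2) := by
        have := InLvl.self_mul (n := y ^ 2) (InLvl.intCast (q := q) v)
        rwa [Nat.cast_pow, mul_comm] at this
      refine InLvl.sub ?_ ?_
      · exact (hy2.mul_right (G00.mul_right G11)).mul_left G01
      · exact hg10.mul_left (G01.mul_right G01)
    · have e : (g * upperT t) 1 0 = g 1 0 := by
        rw [mulEntry]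
        simp
      rw [e]
      exact hg10
  have h5 := hDmul g (upperT t) hgH hupH
  rw [hdiag _ hg'diag, hDup t htM, add_zero] at h5
  exact sub_eq_zero.mp h5.symm

end Step

/-! ### STEP 4' in the interface of `CSP/Sym.lean` -/

section SymInterface

variable {M q : ℕ}

theorem inLvl_iff_mem_Lv (hM : M ≠ 0) {x : ℚ} : InLvl M q x ↔ x ∈ Lv q M := by
  have hM' : (M : ℚ) ≠ 0 := Nat.cast_ne_zero.mpr hM
  constructor
  · rintro ⟨k, m, hm⟩
    refine ⟨x / M, ⟨k, m, ?_⟩, ?_⟩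
    · rw [div_mul_eq_mul_div, hm]
      field_simp
    · field_simp
  · rintro ⟨r, ⟨k, m, hm⟩, rfl⟩
    exact ⟨k, m, by rw [mul_assoc, hm]⟩

theorem isLevel_iff_mem_Del (hM : M ≠ 0) {g : SL(2, ℚ)} : IsLevel M q g ↔ g ∈ Del q M := by
  rw [isLevel_iff, mem_Del_iff, inLvl_iff_mem_Lv hM, inLvl_iff_mem_Lv hM, inLvl_iff_mem_Lv hM,
    inLvl_iff_mem_Lv hM]

variable {B : Type*} [AddCommGroup B] {p y : ℕ} {κ : SL(2, ℚ) → B}

/-- **STEP 4' (prime squares)** in the interface of `CSP/Sym.lean`: if `κ` is a symbol of level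
`M` with values in a group of exponent `p`, `y ∤ M q` is a prime with `y ≢ 0, 1 mod p`, and
`κ ∘ cnat (y²) = κ` on `Γ(y² M)[1/q]` (STEP 4), then `κ (cnat (y²) g) = κ g` for every
`g ∈ Γ(M)[1/q]` whose lower left entry lies in `y² ℤ[1/q]`. -/
theorem cnat_sq_eq_of_prime [NeZero y] (hκ : IsSym q M κ) (hy : y.Prime) (hyMq : ¬ y ∣ M * q)
    (hp : p.Prime) (hpy : ¬ p ∣ y) (hpy1 : ¬ p ∣ y - 1) (hB : ∀ x : B, p • x = 0)
    (hstep4 : ∀ g ∈ Del q (y ^ 2 * M), κ (cnat (y ^ 2) g) = κ g)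
    {g : SL(2, ℚ)} (hg : g ∈ Del q M) (hg10 : g 1 0 ∈ Lv q (y ^ 2)) :
    κ (cnat (y ^ 2) g) = κ g := by
  have hM : M ≠ 0 := by
    rintro rfl
    exact hyMq (by simp)
  have hy2 : y ^ 2 ≠ 0 := pow_ne_zero 2 hy.ne_zero
  have hyM : y ^ 2 * M ≠ 0 := mul_ne_zero hy2 hM
  refine kappa_conj_eq_of_prime hy hyMq hp hpy hpy1 hB κ
    (fun a b ha hb => hκ.mul a ((isLevel_iff_mem_Del hM).mp ha) b ((isLevel_iff_mem_Del hM).mp hb))
    (fun a ha ht => hκ.unip a ((isLevel_iff_mem_Del hM).mp ha) ht)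
    (cnat (y ^ 2)) (fun a => cnat_00 _ a) (fun a => ?_) (fun a => ?_) (fun a => cnat_11 _ a)
    (fun a ha => hstep4 a ((isLevel_iff_mem_Del hyM).mp ha)) g ((isLevel_iff_mem_Del hM).mpr hg)
    ((inLvl_iff_mem_Lv hy2).mpr hg10)
  · rw [cnat_01, Nat.cast_pow]
  · rw [cnat_10, Nat.cast_pow]

/-- Completion of an admissible integer row `(a, b)` (with `y ∤ a`) to a matrix of `Γ(M)[1/q]`
whose lower left entry is divisible by `y²`. -/
theorem exists_mem_Del_row {a b : ℤ} (ha : (M : ℤ) ∣ a - 1) (hb : (M : ℤ) ∣ b)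
    (hab : IsCoprime a b) (hy : y.Prime) (hya : ¬ (y : ℤ) ∣ a) :
    ∃ g : SL(2, ℚ), g ∈ Del q M ∧ g 0 0 = a ∧ g 0 1 = b ∧ g 1 0 ∈ Lv q (y ^ 2) ∧
      g 1 0 ∈ Lv q (y ^ 2 * M) := by
  -- `a` is prime to `b * (M * y²)`
  have haM : IsCoprime a (M : ℤ) := by
    obtain ⟨k, hk⟩ := ha
    exact ⟨1, -k, by linear_combination hk⟩
  have hay : IsCoprime a ((y : ℤ) ^ 2) := by
    have hyp : Prime (y : ℤ) := Nat.prime_iff_prime_int.mp hy
    exact ((Irreducible.coprime_iff_not_dvd hyp.irreducible).mpr hya).symm.pow_right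
  have hcop : IsCoprime a (b * ((M : ℤ) * (y : ℤ) ^ 2)) :=
    IsCoprime.mul_right hab (IsCoprime.mul_right haM hay)
  obtain ⟨u, v, huv⟩ := hcop
  -- the matrix `[[a, b], [-v M y², u]]`
  have hdet : (a : ℚ) * u - b * (-(v : ℚ) * ((M : ℚ) * (y : ℚ) ^ 2)) = 1 := by
    have : ((u * a + v * (b * ((M : ℤ) * (y : ℤ) ^ 2)) : ℤ) : ℚ) = ((1 : ℤ) : ℚ) := by rw [huv]
    push_cast at this
    linear_combination this
  refine ⟨⟨!![(a : ℚ), b; -(v : ℚ) * ((M : ℚ) * (y : ℚ) ^ 2), u], by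
    rw [Matrix.det_fin_two_of]; exact hdet⟩, ?_, rfl, rfl, ?_, ?_⟩
  · obtain ⟨ka, hka⟩ := ha
    obtain ⟨kb, hkb⟩ := hb
    refine ⟨⟨ka, intCast_mem _ _, ?_⟩, ⟨kb, intCast_mem _ _, ?_⟩,
      ⟨-(v : ℚ) * (y : ℚ) ^ 2, ?_, ?_⟩, ⟨u * (-(ka : ℚ)) + -(v : ℚ) * (kb * ((M : ℚ) * (y : ℚ) ^ 2)), ?_, ?_⟩⟩
    · show (a : ℚ) - 1 = M * ka
      exact_mod_cast hka
    · show (b : ℚ) = M * kb
      exact_mod_cast hkb
    · exact (Rq q).mul_mem ((Rq q).neg_mem (intCast_mem _ _))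
        ((Rq q).pow_mem (natCast_mem _ _) 2)
    · show -(v : ℚ) * ((M : ℚ) * (y : ℚ) ^ 2) = M * (-(v : ℚ) * (y : ℚ) ^ 2)
      ring
    · exact (Rq q).add_mem ((Rq q).mul_mem (intCast_mem _ _) ((Rq q).neg_mem (intCast_mem _ _)))
        ((Rq q).mul_mem ((Rq q).neg_mem (intCast_mem _ _))
          ((Rq q).mul_mem (intCast_mem _ _)
            ((Rq q).mul_mem (natCast_mem _ _) ((Rq q).pow_mem (natCast_mem _ _) 2))))
    · show (u : ℚ) - 1 = M * (u * (-(ka : ℚ)) + -(v : ℚ) * (kb * ((M : ℚ) * (y : ℚ) ^ 2)))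
      have h1 : (a : ℚ) - 1 = M * ka := by exact_mod_cast hka
      have h2 : (b : ℚ) = M * kb := by exact_mod_cast hkb
      have h3 : (a : ℚ) = 1 + M * ka := by linarith
      rw [h2, h3] at hdet
      linear_combination hdet
  · refine ⟨-(v : ℚ) * M, (Rq q).mul_mem ((Rq q).neg_mem (intCast_mem _ _)) (natCast_mem _ _), ?_⟩
    show -(v : ℚ) * ((M : ℚ) * (y : ℚ) ^ 2) = ((y ^ 2 : ℕ) : ℚ) * (-(v : ℚ) * M)
    push_cast
    ring
  · refine ⟨-(v : ℚ), (Rq q).neg_mem (intCast_mem _ _), ?_⟩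
    show -(v : ℚ) * ((M : ℚ) * (y : ℚ) ^ 2) = ((y ^ 2 * M : ℕ) : ℚ) * (-(v : ℚ))
    push_cast
    ring

/-- **STEP 4', row form**: for an admissible integer row `(a, b)` of level `M` and a prime
`y ∤ M q a` with `y ≢ 0, 1 mod p` there is `g ∈ Γ(M)[1/q]` with first row `(a, b)` such that
`cnat (y²) g ∈ Γ(M)[1/q]` has first row `(a, y² b)` and `κ (cnat (y²) g) = κ g`. -/
theorem exists_row_sq [NeZero y] (hκ : IsSym q M κ) (hy : y.Prime) (hyMq : ¬ y ∣ M * q)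
    (hp : p.Prime) (hpy : ¬ p ∣ y) (hpy1 : ¬ p ∣ y - 1) (hB : ∀ x : B, p • x = 0)
    (hstep4 : ∀ g ∈ Del q (y ^ 2 * M), κ (cnat (y ^ 2) g) = κ g)
    {a b : ℤ} (ha : (M : ℤ) ∣ a - 1) (hb : (M : ℤ) ∣ b) (hab : IsCoprime a b)
    (hya : ¬ (y : ℤ) ∣ a) :
    ∃ g : SL(2, ℚ), g ∈ Del q M ∧ g 0 0 = a ∧ g 0 1 = b ∧ cnat (y ^ 2) g ∈ Del q M ∧
      (cnat (y ^ 2) g) 0 0 = a ∧ (cnat (y ^ 2) g) 0 1 = ((y : ℤ) ^ 2 * b : ℤ) ∧
      κ (cnat (y ^ 2) g) = κ g := by
  obtain ⟨g, hg, h00, h01, h10, h10'⟩ := exists_mem_Del_row (q := q) ha hb hab hy hya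
  refine ⟨g, hg, h00, h01, cnat_mem_Del' hg h10', ?_, ?_,
    cnat_sq_eq_of_prime hκ hy hyMq hp hpy hpy1 hB hstep4 hg h10⟩
  · rw [cnat_00, h00]
  · rw [cnat_01, h01]
    push_cast
    ring

end SymInterface

end Fermat.Agent.S41.CSP.PrimeSquares
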