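import Mathlib

/-!
# P-S41 (B4b) CSP: abstract symbol calculus = STEPS 5, 6, 7 of note 834 (helper77)

Everything here is about a function `sym : ℤ → ℤ → B` on integer pairs (the "row symbol"
`[a, b] := κ(g)`, `g ∈ Γ(M)[1/q]` with first row `(a, b)`), `B` an abelian group killed by an odd
prime `p`.  No matrices appear.

* `Adm M a b` : `M ∣ a - 1`, `M ∣ b`, `IsCoprime a b` (first rows of `Γ_ℤ(M)`).
* `IsRowSymbol M q p sym` : the five properties `ms1a`, `ms1b`, `sq` (= STEP 4'), `mul`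
  (additivity of `κ` on `Γ_ℤ(M)`), `one`.
* `KernelX M q p`, `Kernel7 M p` : the two prime-existence statements (Dirichlet + quadratic
  reciprocity) consumed by STEPS 5 and 7; they are proved separately (DirichletNT).
* `lemmaX` (STEP 5): `sym a (k * b) = sym a b` if `a ≡ 1 mod k`.
* `sym_mul` (STEP 6): `sym (a * a₁) b = sym a b + sym a₁ b`.
* `sym_eq_zero` (STEP 7): `sym a b = 0` for every admissible pair with `b ≠ 0` prime to `q`.
-/

set_option autoImplicit false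

namespace Fermat.Agent.S41.CSP.SymbolCalc

/-- Admissible integer pairs at level `M`: the first rows of the matrices of `Γ_ℤ(M)`. -/
def Adm (M : ℕ) (a b : ℤ) : Prop :=
  (M : ℤ) ∣ a - 1 ∧ (M : ℤ) ∣ b ∧ IsCoprime a b

theorem adm_iff_modEq {M : ℕ} {a b : ℤ} :
    Adm M a b ↔ a ≡ 1 [ZMOD (M : ℤ)] ∧ (M : ℤ) ∣ b ∧ IsCoprime a b := by
  unfold Adm
  rw [Int.modEq_iff_dvd, ← dvd_neg, neg_sub]

namespace Adm

variable {M : ℕ} {a a₁ b : ℤ}

theorem one_left (hb : (M : ℤ) ∣ b) : Adm M 1 b :=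
  ⟨by simp, hb, isCoprime_one_left⟩

theorem add_mul (h : Adm M a b) (t : ℤ) : Adm M (a + t * b) b := by
  obtain ⟨h1, h2, h3⟩ := h
  refine ⟨?_, h2, ?_⟩
  · have : a + t * b - 1 = (a - 1) + t * b := by ring
    rw [this]
    exact dvd_add h1 (Dvd.dvd.mul_left h2 t)
  · exact IsCoprime.add_mul_right_left h3 t

theorem mul (h : Adm M a b) (h₁ : Adm M a₁ b) : Adm M (a * a₁) b := by
  obtain ⟨h1, h2, h3⟩ := h
  obtain ⟨k1, _, k3⟩ := h₁
  refine ⟨?_, h2, IsCoprime.mul_left h3 k3⟩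
  have : a * a₁ - 1 = (a - 1) * a₁ + (a₁ - 1) := by ring
  rw [this]
  exact dvd_add (Dvd.dvd.mul_right h1 _) k1

theorem pow (h : Adm M a b) (n : ℕ) : Adm M (a ^ n) b := by
  induction n with
  | zero => simpa using one_left h.2.1
  | succ n ih => simpa [pow_succ] using ih.mul h

theorem mul_right (h : Adm M a b) {k : ℤ} (hk : IsCoprime a k) : Adm M a (k * b) :=
  ⟨h.1, Dvd.dvd.mul_left h.2.1 k, IsCoprime.mul_right hk h.2.2⟩

/-- An admissible pair is the first row of a matrix `[[a, b], [c, d]] ∈ Γ_ℤ(M)`. -/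
theorem completion (h : Adm M a b) :
    ∃ c d : ℤ, a * d - b * c = 1 ∧ (M : ℤ) ∣ c ∧ (M : ℤ) ∣ d - 1 := by
  obtain ⟨h1, h2, u, v, huv⟩ := h
  refine ⟨v * (a - 1), u + v * b, ?_, Dvd.dvd.mul_left h1 v, ?_⟩
  · linear_combination huv
  · have : u + v * b - 1 = -(u * (a - 1)) := by linear_combination huv
    rw [this]
    exact dvd_neg.mpr (Dvd.dvd.mul_left h1 u)

end Adm

/-- The properties of the row symbol `[a, b]` of note 834 (integer pairs only). -/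
structure IsRowSymbol (M q p : ℕ) {B : Type*} [AddCommGroup B] (sym : ℤ → ℤ → B) : Prop where
  /-- MS1a: `[a, b + s a] = [a, b]` for `s ∈ Mℤ` (right multiplication by `e12(s)`). -/
  ms1a : ∀ a b s : ℤ, Adm M a b → (M : ℤ) ∣ s → sym a (b + s * a) = sym a b
  /-- MS1b: `[a + t b, b] = [a, b]` for all `t` (centrality, STEP 3). -/
  ms1b : ∀ a b t : ℤ, Adm M a b → sym (a + t * b) b = sym a b
  /-- STEP 4': `[a, y² b] = [a, b]` for a prime `y ∤ M q a`, `y ≢ 0, 1 mod p`. -/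
  sq : ∀ (y : ℕ) (a b : ℤ), y.Prime → ¬ y ∣ M * q → ¬ p ∣ y → ¬ p ∣ y - 1 →
    Adm M a b → ¬ (y : ℤ) ∣ a → sym a ((y : ℤ) ^ 2 * b) = sym a b
  /-- additivity of `κ` on `Γ_ℤ(M)`: first row of `g' g`. -/
  mul : ∀ a b c d a' b' c' d' : ℤ, a * d - b * c = 1 → a' * d' - b' * c' = 1 →
    (M : ℤ) ∣ a - 1 → (M : ℤ) ∣ b → (M : ℤ) ∣ c → (M : ℤ) ∣ d - 1 →
    (M : ℤ) ∣ a' - 1 → (M : ℤ) ∣ b' → (M : ℤ) ∣ c' → (M : ℤ) ∣ d' - 1 →
    sym (a' * a + b' * c) (a' * b + b' * d) = sym a' b' + sym a b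
  /-- `[1, b] = κ(e12(b)) = 0`. -/
  one : ∀ b : ℤ, (M : ℤ) ∣ b → sym 1 b = 0

/-- Number-theoretic kernel of STEP 5 (Dirichlet twice + Jacobi reciprocity). -/
def KernelX (M q p : ℕ) : Prop :=
  ∀ (a b : ℤ) (k : ℕ) (Bd : ℕ), 0 < k → Nat.Coprime k q → IsCoprime a b → b ≠ 0 →
    (M : ℤ) ∣ b → (M : ℤ) ∣ a - 1 → (k : ℤ) ∣ a - 1 → IsCoprime b (q : ℤ) →
    ∃ a'' y : ℕ, a''.Prime ∧ y.Prime ∧ Bd < a'' ∧ Bd < y ∧ a'' ≠ p ∧
      ((k : ℤ) * b) ∣ (a'' : ℤ) - a ∧ (p : ℤ) ∣ (y : ℤ) - 2 ∧ (a'' : ℤ) ∣ (y : ℤ) ^ 2 - k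

/-- Number-theoretic kernel of STEP 7 (Dirichlet). -/
def Kernel7 (M p : ℕ) : Prop :=
  ∀ (a b : ℤ) (Bd : ℕ), IsCoprime a b → (M : ℤ) ∣ b → (M : ℤ) ∣ a - 1 → ¬ (p : ℤ) ∣ a →
    ∃ π : ℕ, π.Prime ∧ Bd < π ∧ (p : ℤ) ∣ (π : ℤ) - 2 ∧ a ∣ (M : ℤ) * π - b

section calc_

variable {M q p : ℕ} {B : Type*} [AddCommGroup B] {sym : ℤ → ℤ → B}

/-- **STEP 5 (Lemma X)** of note 834. -/
theorem lemmaX (hs : IsRowSymbol M q p sym) (hX : KernelX M q p) (hp : p.Prime) (hp2 : p ≠ 2)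
    (hq : q.Prime) (hM : 0 < M) {a b : ℤ} {k : ℕ} (hab : Adm M a b) (hb0 : b ≠ 0) (hbq : IsCoprime b (q : ℤ))
    (hk : 0 < k) (hkq : Nat.Coprime k q) (hak : (k : ℤ) ∣ a - 1) :
    sym a ((k : ℤ) * b) = sym a b := by
  obtain ⟨a'', y, ha''p, hyp, hBa, hBy, -, hmod, hy2, hdiv⟩ :=
    hX a b k (M * q + k) hk hkq hab.2.2 hb0 hab.2.1 hab.1 hak hbq
  -- `a'' = a + t (k b)`
  obtain ⟨t, ht⟩ := hmod
  have ha'' : (a'' : ℤ) = a + t * ((k : ℤ) * b) := by linarith [ht, mul_comm t ((k:ℤ) * b)]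
  have hcop_ak : IsCoprime a (k : ℤ) := by
    obtain ⟨w, hw⟩ := hak
    exact ⟨1, -w, by linarith [hw, mul_comm (k:ℤ) w]⟩
  have hadm_kb : Adm M a ((k : ℤ) * b) := hab.mul_right hcop_ak
  have hadm''_kb : Adm M (a'' : ℤ) ((k : ℤ) * b) := by
    rw [ha'']; exact hadm_kb.add_mul t
  have hadm''_b : Adm M (a'' : ℤ) b := by
    have : (a'' : ℤ) = a + (t * k) * b := by rw [ha'']; ring
    rw [this]; exact hab.add_mul _
  -- chain of equalities
  have e1 : sym (a'' : ℤ) ((k : ℤ) * b) = sym a ((k : ℤ) * b) := by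
    rw [ha'']; exact hs.ms1b a _ t hadm_kb
  have e4 : sym (a'' : ℤ) b = sym a b := by
    have : (a'' : ℤ) = a + (t * k) * b := by rw [ha'']; ring
    rw [this]; exact hs.ms1b a b _ hab
  -- MS1a
  obtain ⟨w, hw⟩ := hdiv
  have e2 : sym (a'' : ℤ) ((y : ℤ) ^ 2 * b) = sym (a'' : ℤ) ((k : ℤ) * b) := by
    have : (y : ℤ) ^ 2 * b = (k : ℤ) * b + (w * b) * (a'' : ℤ) := by
      have : (y : ℤ) ^ 2 = k + a'' * w := by linarith
      rw [this]; ring
    rw [this]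
    exact hs.ms1a _ _ _ hadm''_kb (Dvd.dvd.mul_left hab.2.1 w)
  -- STEP 4'
  have hyMq : ¬ y ∣ M * q := by
    intro h
    have hpos : 0 < M * q := Nat.mul_pos hM hq.pos
    have := Nat.le_of_dvd hpos h
    omega
  have hpy : ¬ p ∣ y := by
    intro h
    have h1 : (p : ℤ) ∣ (y : ℤ) := Int.natCast_dvd_natCast.mpr h
    have h2 : (p : ℤ) ∣ 2 := by
      have := dvd_sub h1 hy2
      simpa using this
    have h3 : p ∣ 2 := by exact_mod_cast h2
    have := (Nat.prime_dvd_prime_iff_eq hp Nat.prime_two).mp h3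
    exact hp2 this
  have hpy1 : ¬ p ∣ y - 1 := by
    intro h
    have hy1 : 1 ≤ y := hyp.one_lt.le
    have h1 : (p : ℤ) ∣ ((y - 1 : ℕ) : ℤ) := Int.natCast_dvd_natCast.mpr h
    rw [Nat.cast_sub hy1] at h1
    have h2 : (p : ℤ) ∣ 1 := by
      have := dvd_sub h1 hy2
      have e : ((y : ℤ) - (1 : ℕ)) - ((y : ℤ) - 2) = 1 := by push_cast; ring
      rwa [e] at this
    have h3 : p ∣ 1 := by exact_mod_cast h2
    exact hp.one_lt.ne' (Nat.dvd_one.mp h3)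
  have hya : ¬ (y : ℤ) ∣ (a'' : ℤ) := by
    intro h
    have h1 : y ∣ a'' := Int.natCast_dvd_natCast.mp h
    have h2 : y = a'' := (Nat.prime_dvd_prime_iff_eq hyp ha''p).mp h1
    -- then `a'' ∣ k`
    have h3 : (a'' : ℤ) ∣ (k : ℤ) := by
      have h4 : (a'' : ℤ) ∣ (y : ℤ) ^ 2 := by
        rw [h2]; exact Dvd.intro_left _ (by ring : (a'':ℤ) * (a'':ℤ) = (a'':ℤ)^2)
      have := dvd_sub h4 (Dvd.intro w hw.symm)
      simpa using this
    have h5 : a'' ∣ k := Int.natCast_dvd_natCast.mp h3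
    have := Nat.le_of_dvd hk h5
    omega
  have e3 : sym (a'' : ℤ) ((y : ℤ) ^ 2 * b) = sym (a'' : ℤ) b :=
    hs.sq y _ _ hyp hyMq hpy hpy1 hadm''_b hya
  rw [← e1, ← e2, e3, e4]

/-- Auxiliary: a positive integer prime to `q` in a given residue class modulo `b`, `b` prime to
`q`. -/
theorem exists_pos_coprime_modEq (hq : q.Prime) {b : ℤ} (hb0 : b ≠ 0)
    (hbq : IsCoprime b (q : ℤ)) (r : ℤ) :
    ∃ k : ℕ, 0 < k ∧ Nat.Coprime k q ∧ b ∣ (k : ℤ) - r := by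
  -- solve `r + j b ≡ 1 mod q`
  obtain ⟨u, v, huv⟩ := hbq
  -- `j₀ = (1 - r) u`, then `r + j₀ b = r + (1 - r) (1 - v q) ≡ 1 mod q`
  set j₀ : ℤ := (1 - r) * u with hj₀
  -- add a large multiple of `q * b * b` to make it positive
  set n : ℤ := |r + j₀ * b| + 1 with hn
  have hbb : 0 < b * b := mul_self_pos.mpr hb0
  have hqpos : (0 : ℤ) < q := by exact_mod_cast hq.pos
  set K : ℤ := r + j₀ * b + n * q * (b * b) with hK
  have hKpos : 0 < K := by
    have h1 : (1 : ℤ) ≤ q * (b * b) := by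
      have := mul_pos hqpos hbb
      linarith
    have h2 : n ≤ n * (q * (b * b)) := by
      have hn0 : 0 ≤ n := by positivity
      nlinarith
    have h3 : -(|r + j₀ * b|) ≤ r + j₀ * b := neg_abs_le _
    have : K = r + j₀ * b + n * (q * (b * b)) := by rw [hK]; ring
    rw [this]
    linarith
  have hKq : (q : ℤ) ∣ K - 1 := by
    refine ⟨-(1 - r) * v + n * (b * b), ?_⟩
    have : K - 1 = (1 - r) * (u * b + v * q - 1) - (1 - r) * v * q + n * q * (b * b) := by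
      rw [hK, hj₀]; ring
    rw [this, huv]; ring
  refine ⟨K.toNat, ?_, ?_, ?_⟩
  · exact Int.pos_iff_toNat_pos.mp hKpos
  · have hcast : ((K.toNat : ℕ) : ℤ) = K := Int.toNat_of_nonneg hKpos.le
    rw [Nat.coprime_comm, hq.coprime_iff_not_dvd]
    intro h
    have h1 : (q : ℤ) ∣ K := by rw [← hcast]; exact Int.natCast_dvd_natCast.mpr h
    have h2 : (q : ℤ) ∣ 1 := by
      have := dvd_sub h1 hKq
      simpa using this
    have h3 : q ∣ 1 := by exact_mod_cast h2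
    exact hq.one_lt.ne' (Nat.dvd_one.mp h3)
  · have hcast : ((K.toNat : ℕ) : ℤ) = K := Int.toNat_of_nonneg hKpos.le
    rw [hcast]
    refine ⟨j₀ + n * q * b, ?_⟩
    rw [hK]; ring

/-- **STEP 6 (multiplicativity)** of note 834. -/
theorem sym_mul (hs : IsRowSymbol M q p sym) (hX : KernelX M q p) (hp : p.Prime) (hp2 : p ≠ 2)
    (hq : q.Prime) (hM : 0 < M) {a a₁ b : ℤ} (hab : Adm M a b) (ha₁b : Adm M a₁ b) (hb0 : b ≠ 0)
    (hbq : IsCoprime b (q : ℤ)) :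
    sym (a * a₁) b = sym a b + sym a₁ b := by
  obtain ⟨c, d, hdet, hMc, hMd⟩ := hab.completion
  obtain ⟨k, hk0, hkq, hkmod⟩ := exists_pos_coprime_modEq hq hb0 hbq ((1 - a₁) * a)
  obtain ⟨j, hj⟩ := hkmod
  have hk_eq : (k : ℤ) = (1 - a₁) * a + b * j := by linarith
  have hMk : (M : ℤ) ∣ (k : ℤ) := by
    rw [hk_eq]
    have h1 : (M : ℤ) ∣ (1 - a₁) := by
      have := ha₁b.1
      rw [← dvd_neg, neg_sub] at this
      exact this
    exact dvd_add (Dvd.dvd.mul_right h1 a) (Dvd.dvd.mul_right hab.2.1 j)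
  set a' : ℤ := 1 - k * d with ha'
  -- `a' = a₁ + t b`
  have ha'_eq : a' = a₁ + (-(1 - a₁) * c - j * d) * b := by
    rw [ha', hk_eq]
    linear_combination (-(1 - a₁)) * hdet
  have hadm'_b : Adm M a' b := by rw [ha'_eq]; exact ha₁b.add_mul _
  have hcop'k : IsCoprime a' (k : ℤ) := ⟨1, d, by rw [ha']; ring⟩
  have hadm'_kb : Adm M a' ((k : ℤ) * b) := hadm'_b.mul_right hcop'k
  obtain ⟨c', d', hdet', hMc', hMd'⟩ := hadm'_kb.completion
  have hmul := hs.mul a b c d a' ((k : ℤ) * b) c' d' hdet hdet' hab.1 hab.2.1 hMc hMd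
    hadm'_kb.1 hadm'_kb.2.1 hMc' hMd'
  have e1 : a' * a + (k : ℤ) * b * c = a - k := by
    rw [ha']; linear_combination (-(k : ℤ)) * hdet
  have e2 : a' * b + (k : ℤ) * b * d = b := by rw [ha']; ring
  rw [e1, e2] at hmul
  have hX1 : sym a' ((k : ℤ) * b) = sym a' b :=
    lemmaX hs hX hp hp2 hq hM hadm'_b hb0 hbq hk0 hkq ⟨-d, by rw [ha']; ring⟩
  have e3 : sym a' b = sym a₁ b := by
    rw [ha'_eq]; exact hs.ms1b a₁ b _ ha₁b
  have e4 : sym (a - k) b = sym (a * a₁) b := by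
    have : a - k = a * a₁ + (-j) * b := by rw [hk_eq]; ring
    rw [this]; exact hs.ms1b _ b _ (hab.mul ha₁b)
  rw [← e4, hmul, hX1, e3, add_comm]

theorem sym_pow (hs : IsRowSymbol M q p sym) (hX : KernelX M q p) (hp : p.Prime) (hp2 : p ≠ 2)
    (hq : q.Prime) (hM : 0 < M) {a b : ℤ} (hab : Adm M a b) (hb0 : b ≠ 0)
    (hbq : IsCoprime b (q : ℤ)) (n : ℕ) :
    sym (a ^ n) b = n • sym a b := by
  induction n with
  | zero => simpa using hs.one b hab.2.1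
  | succ n ih =>
    rw [pow_succ, sym_mul hs hX hp hp2 hq hM (hab.pow n) hab hb0 hbq, ih, succ_nsmul]

/-- **STEP 7 (END)** of note 834: the row symbol vanishes on all admissible pairs `(a, b)` with
`b ≠ 0` prime to `q`. -/
theorem sym_eq_zero (hs : IsRowSymbol M q p sym) (hX : KernelX M q p) (h7 : Kernel7 M p)
    (hp : p.Prime) (hp2 : p ≠ 2) (hq : q.Prime) (hMq : Nat.Coprime M q) (hM : 0 < M)
    (hB : ∀ x : B, p • x = 0) {a b : ℤ} (hab : Adm M a b) (hbq : IsCoprime b (q : ℤ)) :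
    sym a b = 0 := by
  -- wlog `p ∤ a`
  wlog hpa : ¬ (p : ℤ) ∣ a generalizing a with H
  · rw [not_not] at hpa
    have hpb : ¬ (p : ℤ) ∣ a + 1 * b := by
      intro h
      have h1 : (p : ℤ) ∣ b := by
        have := dvd_sub h hpa
        simpa using this
      have h2 : IsUnit (p : ℤ) := hab.2.2.isUnit_of_dvd' hpa h1
      have h3 : (p : ℤ) = 1 ∨ (p : ℤ) = -1 := Int.isUnit_iff.mp h2
      have hp1 := hp.one_lt
      omega
    rw [← hs.ms1b a b 1 hab]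
    exact H (hab.add_mul 1) hpb
  have ha0 : a ≠ 0 := by
    rintro rfl
    exact hpa (dvd_zero _)
  obtain ⟨π, hπ, hBπ, hπ2, hdiv⟩ :=
    h7 a b (M * q + a.natAbs) hab.2.2 hab.2.1 hab.1 hpa
  set b' : ℤ := (M : ℤ) * π with hb'
  have hMb' : (M : ℤ) ∣ b' := Dvd.intro _ rfl
  have hb'0 : b' ≠ 0 := by
    rw [hb']
    have h1 : (M : ℤ) ≠ 0 := by exact_mod_cast hM.ne'
    have h2 : (π : ℤ) ≠ 0 := by exact_mod_cast hπ.ne_zero
    exact mul_ne_zero h1 h2
  -- `M` and `a` are coprime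
  have hcopMa : IsCoprime a (M : ℤ) := by
    obtain ⟨w, hw⟩ := hab.1
    exact ⟨1, -w, by linarith [hw, mul_comm (M:ℤ) w]⟩
  -- `π ∤ a`
  have hπa : IsCoprime a (π : ℤ) := by
    rw [isCoprime_comm]
    refine (Int.isCoprime_iff_gcd_eq_one).mpr ?_
    have : Nat.Coprime π a.natAbs := by
      rw [hπ.coprime_iff_not_dvd]
      intro h
      have hpos : 0 < a.natAbs := Int.natAbs_pos.mpr ha0
      have := Nat.le_of_dvd hpos h
      omega
    simpa [Int.gcd] using this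
  have hadm' : Adm M a b' := ⟨hab.1, hMb', by rw [hb']; exact IsCoprime.mul_right hcopMa hπa⟩
  -- MS1a : `sym a b' = sym a b`
  obtain ⟨s, hs'⟩ := hdiv
  have hMs : (M : ℤ) ∣ s := by
    -- `M ∣ a s` and `gcd(M, a) = 1`
    have h1 : (M : ℤ) ∣ a * s := by
      rw [← hs']
      exact dvd_sub (Dvd.intro _ rfl) hab.2.1
    exact (isCoprime_comm.mp hcopMa).dvd_of_dvd_mul_left h1
  have e1 : sym a b' = sym a b := by
    have : b' = b + s * a := by rw [hb']; linarith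
    rw [this]; exact hs.ms1a a b s hab hMs
  -- `b'` prime to `q`
  have hb'q : IsCoprime b' (q : ℤ) := by
    rw [hb']
    refine IsCoprime.mul_left ?_ ?_
    · exact_mod_cast (Nat.isCoprime_iff_coprime.mpr hMq)
    · have : Nat.Coprime π q := by
        rw [Nat.coprime_primes hπ hq]
        rintro rfl
        have : π ≤ M * π := Nat.le_mul_of_pos_left _ hM
        omega
      exact_mod_cast (Nat.isCoprime_iff_coprime.mpr this)
  -- `(π - 1) • sym a b' = 0`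
  have e2 : (π - 1) • sym a b' = 0 := by
    rw [← sym_pow hs hX hp hp2 hq hM hadm' hb'0 hb'q]
    -- `a ^ (π - 1) = 1 + t b'`
    have hfermat : (π : ℤ) ∣ a ^ (π - 1) - 1 := by
      have := Int.ModEq.pow_card_sub_one_eq_one hπ hπa
      exact (Int.modEq_iff_dvd.mp this.symm)
    have hM1 : (M : ℤ) ∣ a ^ (π - 1) - 1 := (hab.pow (π - 1)).1
    have hcopMπ : IsCoprime (M : ℤ) (π : ℤ) := by
      have : Nat.Coprime M π := by
        rw [Nat.coprime_comm, hπ.coprime_iff_not_dvd]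
        intro h
        have := Nat.le_of_dvd hM h
        have hq1 := hq.one_lt
        have : M ≤ M * q := Nat.le_mul_of_pos_right _ hq.pos
        omega
      exact_mod_cast (Nat.isCoprime_iff_coprime.mpr this)
    obtain ⟨t, ht⟩ := hcopMπ.mul_dvd hM1 hfermat
    have : a ^ (π - 1) = 1 + t * b' := by rw [hb']; linarith
    rw [this, hs.ms1b 1 b' t (Adm.one_left hMb')]
    exact hs.one b' hMb'
  -- `gcd(π - 1, p) = 1`
  have hcop : Nat.Coprime (π - 1) p := by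
    rw [Nat.coprime_comm, hp.coprime_iff_not_dvd]
    intro h
    have hπ1 : 1 ≤ π := hπ.one_lt.le
    have h1 : (p : ℤ) ∣ ((π - 1 : ℕ) : ℤ) := Int.natCast_dvd_natCast.mpr h
    rw [Nat.cast_sub hπ1] at h1
    have h2 : (p : ℤ) ∣ 1 := by
      have := dvd_sub h1 hπ2
      have e : ((π : ℤ) - (1 : ℕ)) - ((π : ℤ) - 2) = 1 := by push_cast; ring
      rwa [e] at this
    have h3 : p ∣ 1 := by exact_mod_cast h2
    exact hp.one_lt.ne' (Nat.dvd_one.mp h3)
  rw [← e1]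
  -- Bezout
  have hbez := Nat.gcd_eq_gcd_ab (π - 1) p
  rw [hcop.gcd_eq_one] at hbez
  have : sym a b' = ((1 : ℕ) : ℤ) • sym a b' := by simp
  rw [this, hbez, add_smul, mul_comm ((π - 1 : ℕ) : ℤ), mul_comm (p : ℤ), mul_smul, mul_smul,
    natCast_zsmul, natCast_zsmul, e2, hB]
  simp

end calc_

end Fermat.Agent.S41.CSP.SymbolCalc
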