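import Mathlib
import Fermat.Agent.S41.CSP.Sym
import Fermat.Agent.S41.CSP.SymbolCalc

/-!
# P-S41 (B4b) CSP: the row symbol of a symbol `κ` on `Γ(M)[1/q]` (glue, helper77)

`rowSym q M κ a b := κ g` for any `g ∈ Γ(M)[1/q]` with first row `(a, b)` (`a b : ℤ`).

* `rowSym_eq` : well defined;
* `isRowSymbol` : `rowSym` satisfies `SymbolCalc.IsRowSymbol`, given centrality (STEP 3, only for
  conjugation by lower elementary matrices) and the prime-square invariance (STEP 4');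
* `exists_int_row` : every `g ∈ Γ(M)[1/q]` with `g 0 1 ≠ 0` is, up to operations that do not change
  `κ`, a matrix with an admissible integer first row `(a, b)`, `b` prime to `q`;
* `kappa_eq_zero` : `κ = 0` on `Γ(M)[1/q]` (the THEOREM of note 834, modulo its inputs).
-/

set_option autoImplicit false

namespace Fermat.Agent.S41.CSP.RowSymbol

open Matrix
open scoped MatrixGroups
open Fermat.Agent.S41.CSP
open Fermat.Agent.S41.CSP.SymbolCalc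
open Fermat.Agent.S41.Ihara.Amalgam (mkSL castQ castQ_apply mkSL_00 mkSL_01 mkSL_10 mkSL_11
  ext4 det_eq_one inv_apply_00 inv_apply_01 inv_apply_10 inv_apply_11)

/-! ### Integer matrices -/

/-- The integer matrix `[[a, b], [c, d]]` of determinant one, inside `SL(2, ℚ)`. -/
noncomputable def zmat (a b c d : ℤ) (h : a * d - b * c = 1) : SL(2, ℚ) :=
  castQ (mkSL a b c d h)

@[simp] theorem zmat_00 (a b c d : ℤ) (h : a * d - b * c = 1) : (zmat a b c d h) 0 0 = a := by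
  simp [zmat]
@[simp] theorem zmat_01 (a b c d : ℤ) (h : a * d - b * c = 1) : (zmat a b c d h) 0 1 = b := by
  simp [zmat]
@[simp] theorem zmat_10 (a b c d : ℤ) (h : a * d - b * c = 1) : (zmat a b c d h) 1 0 = c := by
  simp [zmat]
@[simp] theorem zmat_11 (a b c d : ℤ) (h : a * d - b * c = 1) : (zmat a b c d h) 1 1 = d := by
  simp [zmat]

theorem intCast_mem_Lv_of_dvd {q M : ℕ} {m : ℤ} (h : (M : ℤ) ∣ m) : (m : ℚ) ∈ Lv q M := by
  obtain ⟨c, rfl⟩ := h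
  exact ⟨c, intCast_mem _ _, by push_cast; ring⟩

theorem zmat_mem_Del {q M : ℕ} {a b c d : ℤ} (h : a * d - b * c = 1) (ha : (M : ℤ) ∣ a - 1)
    (hb : (M : ℤ) ∣ b) (hc : (M : ℤ) ∣ c) (hd : (M : ℤ) ∣ d - 1) : zmat a b c d h ∈ Del q M := by
  refine ⟨?_, ?_, ?_, ?_⟩
  · rw [zmat_00]; have := intCast_mem_Lv_of_dvd (q := q) ha; push_cast at this; exact this
  · rw [zmat_01]; exact intCast_mem_Lv_of_dvd hb
  · rw [zmat_10]; exact intCast_mem_Lv_of_dvd hc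
  · rw [zmat_11]; have := intCast_mem_Lv_of_dvd (q := q) hd; push_cast at this; exact this

/-! ### The row symbol -/

section rowSym

variable {q M p : ℕ} {B : Type*} [AddCommGroup B] {κ : SL(2, ℚ) → B}

open Classical in
/-- The row symbol `[a, b]` of `κ`. -/
noncomputable def rowSym (q M : ℕ) (κ : SL(2, ℚ) → B) (a b : ℤ) : B :=
  if h : ∃ g ∈ Del q M, g 0 0 = (a : ℚ) ∧ g 0 1 = (b : ℚ) then κ h.choose else 0

theorem rowSym_eq (hκ : IsSym q M κ) {g : SL(2, ℚ)} (hg : g ∈ Del q M) {a b : ℤ}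
    (h0 : g 0 0 = (a : ℚ)) (h1 : g 0 1 = (b : ℚ)) : rowSym q M κ a b = κ g := by
  have hex : ∃ g ∈ Del q M, g 0 0 = (a : ℚ) ∧ g 0 1 = (b : ℚ) := ⟨g, hg, h0, h1⟩
  unfold rowSym
  rw [dif_pos hex]
  obtain ⟨h1', h2', h3'⟩ := hex.choose_spec
  exact hκ.eq_of_row_eq h1' hg (by rw [h2', h0]) (by rw [h3', h1])

/-- Centrality (STEP 3), in the only form used here. -/
def CentralLower (q M : ℕ) (κ : SL(2, ℚ) → B) : Prop :=
  ∀ t ∈ Rq q, ∀ g ∈ Del q M, κ (lowerT t * g * (lowerT t)⁻¹) = κ g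

omit [AddCommGroup B] in
theorem centralLower_of_central
    (h : ∀ x ∈ GR q, ∀ g ∈ Del q M, κ (x * g * x⁻¹) = κ g) : CentralLower q M κ :=
  fun _ ht g hg => h _ (lowerT_mem_GR ht) g hg

/-- Prime-square invariance (STEP 4'). -/
def PrimeSquareInv (q M p : ℕ) (κ : SL(2, ℚ) → B) : Prop :=
  ∀ (y : ℕ) (hy : y.Prime), ¬ y ∣ M * q → ¬ p ∣ y → ¬ p ∣ y - 1 →
    ∀ g ∈ Del q M, g 1 0 ∈ Lv q (y ^ 2 * M) →
      κ (@cnat (y ^ 2) ⟨pow_ne_zero 2 hy.ne_zero⟩ g) = κ g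

/-- First row of `lowerT (-t) * g * (lowerT (-t))⁻¹`. -/
theorem conj_lower_00 (t : ℚ) (g : SL(2, ℚ)) :
    (lowerT (-t) * g * (lowerT (-t))⁻¹) 0 0 = g 0 0 + t * g 0 1 := by
  rw [mul_ap, mul_ap, mul_ap, inv_apply_00, inv_apply_10]
  simp only [lowerT_00, lowerT_01, lowerT_10, lowerT_11]
  ring

theorem conj_lower_01 (t : ℚ) (g : SL(2, ℚ)) :
    (lowerT (-t) * g * (lowerT (-t))⁻¹) 0 1 = g 0 1 := by
  rw [mul_ap, mul_ap, mul_ap, inv_apply_01, inv_apply_11]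
  simp only [lowerT_00, lowerT_01]
  ring

theorem isRowSymbol (hκ : IsSym q M κ) (hc : CentralLower q M κ) (hsq : PrimeSquareInv q M p κ) :
    IsRowSymbol M q p (rowSym q M κ) where
  ms1a a b s hab hs := by
    obtain ⟨c, d, hdet, hMc, hMd⟩ := hab.completion
    have hg := zmat_mem_Del (q := q) hdet hab.1 hab.2.1 hMc hMd
    have hu : (upperT (s : ℚ) : SL(2, ℚ)) ∈ Del q M := upperT_mem_Del (intCast_mem_Lv_of_dvd hs)
    rw [rowSym_eq hκ hg (zmat_00 ..) (zmat_01 ..),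
      rowSym_eq hκ ((Del q M).mul_mem hg hu) (a := a) (b := b + s * a) ?_ ?_]
    · exact hκ.mul_unip hu (tr2_upperT _) hg
    · rw [mul_ap]; simp
    · rw [mul_ap]; simp; ring
  ms1b a b t hab := by
    obtain ⟨c, d, hdet, hMc, hMd⟩ := hab.completion
    have hg := zmat_mem_Del (q := q) hdet hab.1 hab.2.1 hMc hMd
    have hx : (lowerT (-(t : ℚ)) : SL(2, ℚ)) ∈ GR q :=
      lowerT_mem_GR ((Rq q).neg_mem (intCast_mem _ t))
    rw [rowSym_eq hκ hg (zmat_00 ..) (zmat_01 ..),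
      rowSym_eq hκ (conj_mem_Del hx hg) (a := a + t * b) (b := b) ?_ ?_]
    · exact hc _ ((Rq q).neg_mem (intCast_mem _ t)) _ hg
    · rw [conj_lower_00]; simp
    · rw [conj_lower_01]; simp
  sq y a b hy hyMq hpy hpy1 hab hya := by
    have : NeZero (y ^ 2) := ⟨pow_ne_zero 2 hy.ne_zero⟩
    -- completion with `M y² ∣ c`
    have hcop : IsCoprime a ((y : ℤ) ^ 2) := by
      refine IsCoprime.pow_right ?_
      rw [isCoprime_comm]
      exact (Nat.prime_iff_prime_int.mp hy).coprime_iff_not_dvd.mpr hya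
    obtain ⟨c₁, d, hdet, hMc, hMd⟩ := (hab.mul_right hcop).completion
    have hdet' : a * d - b * ((y : ℤ) ^ 2 * c₁) = 1 := by rw [← hdet]; ring
    have hMc' : (M : ℤ) ∣ (y : ℤ) ^ 2 * c₁ := Dvd.dvd.mul_left hMc _
    have hg := zmat_mem_Del (q := q) hdet' hab.1 hab.2.1 hMc' hMd
    have h10 : (zmat a b ((y : ℤ) ^ 2 * c₁) d hdet') 1 0 ∈ Lv q (y ^ 2 * M) := by
      rw [zmat_10]
      refine intCast_mem_Lv_of_dvd ?_
      push_cast
      exact mul_dvd_mul_left _ hMc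
    rw [rowSym_eq hκ hg (zmat_00 ..) (zmat_01 ..),
      rowSym_eq hκ (cnat_mem_Del' hg h10) (a := a) (b := (y : ℤ) ^ 2 * b) ?_ ?_]
    · exact hsq y hy hyMq hpy hpy1 _ hg h10
    · rw [cnat_00, zmat_00]
    · rw [cnat_01, zmat_01]; push_cast; ring
  mul a b c d a' b' c' d' hdet hdet' ha hb hc' hd ha' hb' hc'' hd' := by
    have hg := zmat_mem_Del (q := q) hdet ha hb hc' hd
    have hg' := zmat_mem_Del (q := q) hdet' ha' hb' hc'' hd'
    rw [rowSym_eq hκ hg (zmat_00 ..) (zmat_01 ..), rowSym_eq hκ hg' (zmat_00 ..) (zmat_01 ..),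
      rowSym_eq hκ ((Del q M).mul_mem hg' hg) (a := a' * a + b' * c) (b := a' * b + b' * d) ?_ ?_]
    · exact hκ.mul _ hg' _ hg
    · rw [mul_ap]; simp
    · rw [mul_ap]; simp
  one b hb := by
    have hu : (upperT (b : ℚ) : SL(2, ℚ)) ∈ Del q M := upperT_mem_Del (intCast_mem_Lv_of_dvd hb)
    rw [rowSym_eq hκ hu (a := 1) (b := b) (by simp) (by simp)]
    exact hκ.upperT (intCast_mem_Lv_of_dvd hb)

end rowSym

/-! ### Reduction to integer rows -/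

/-- Integers prime to `q` are dense in `ℤ[1/q]` modulo `n` prime to `q`. -/
theorem exists_int_coprime_sub_mem_Lv {q : ℕ} (hq : q.Prime) {n : ℕ} (hn : Nat.Coprime n q)
    {x : ℚ} (hx : x ∈ Rq q) : ∃ m : ℤ, x - m ∈ Lv q n ∧ IsCoprime m (q : ℤ) ∧ m ≠ 0 := by
  obtain ⟨m₀, hm₀⟩ := exists_int_sub_mem_Lv hq.ne_zero hn hx
  obtain ⟨u, v, huv⟩ := Nat.isCoprime_iff_coprime.mpr hn
  -- `m = m₀ + n (1 - m₀) u = 1 - (1 - m₀) v q`
  have hcop : IsCoprime (m₀ + (n : ℤ) * ((1 - m₀) * u)) (q : ℤ) :=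
    ⟨1, (1 - m₀) * v, by linear_combination (1 - m₀) * huv⟩
  refine ⟨m₀ + (n : ℤ) * ((1 - m₀) * u), ?_, hcop, ?_⟩
  · have e : x - ((m₀ + (n : ℤ) * ((1 - m₀) * u) : ℤ) : ℚ)
        = (x - m₀) - (n : ℚ) * (((1 - m₀) * u : ℤ) : ℚ) := by push_cast; ring
    rw [e]
    exact (Lv q n).sub_mem hm₀ (natCast_mul_mem_Lv (intCast_mem _ _))
  · intro h0
    rw [h0] at hcop
    have : IsUnit (q : ℤ) := isCoprime_zero_left.mp hcop
    have h1 : (q : ℤ) = 1 ∨ (q : ℤ) = -1 := Int.isUnit_iff.mp this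
    have := hq.one_lt
    omega

section reduce

variable {q M p : ℕ} {B : Type*} [AddCommGroup B] {κ : SL(2, ℚ) → B}

/-- If the first row of `g ∈ Γ(M)[1/q]` is `(a, 0)`, then `κ g = 0` (STEP 1). -/
theorem kappa_eq_zero_of_01_eq_zero (hκ : IsSym q M κ) {g : SL(2, ℚ)} (hg : g ∈ Del q M)
    (h01 : g 0 1 = 0) : κ g = 0 := by
  have hdet := det_eq_one g
  rw [h01, zero_mul, sub_zero] at hdet
  have hG := Del_le_GR q M hg
  have h00 : g 0 0 ≠ 0 := left_ne_zero_of_mul_eq_one hdet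
  have hinv : (g 0 0)⁻¹ = g 1 1 := inv_eq_of_mul_eq_one_right hdet
  have hu : IsU q (g 0 0) := ⟨h00, hG 0 0, by rw [hinv]; exact hG 1 1⟩
  exact hκ.eq_zero_of_unit_row hg hu hg.1 (Rq q).zero_mem (by rw [h01]; ring)

/-- Every `g ∈ Γ(M)[1/q]` with `g 0 1 ≠ 0` can be moved, without changing `κ`, to an element of
`Γ(M)[1/q]` with an admissible integer first row `(a, b)`, `b` prime to `q`. -/
theorem exists_int_row (hκ : IsSym q M κ) (hc : CentralLower q M κ) (hq : q.Prime)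
    (hMq : Nat.Coprime M q) (hM : 0 < M) {g : SL(2, ℚ)} (hg : g ∈ Del q M) (h01 : g 0 1 ≠ 0) :
    ∃ g' ∈ Del q M, ∃ a b : ℤ, κ g' = κ g ∧ g' 0 0 = (a : ℚ) ∧ g' 0 1 = (b : ℚ) ∧ Adm M a b ∧
      IsCoprime b (q : ℤ) := by
  have hG := Del_le_GR q M hg
  obtain ⟨u, n, hu, hn0, hnq, hb0⟩ := exists_unit_mul_nat hq (hG 0 1) h01
  have hu0 := hu.1
  have hnQ : (n : ℚ) ≠ 0 := Nat.cast_ne_zero.mpr hn0.ne'
  -- step (i): make the first entry an integer prime to `q`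
  obtain ⟨m₁, hm₁, hm₁q, hm₁0⟩ := exists_int_coprime_sub_mem_Lv hq hnq (hG 0 0)
  obtain ⟨r, hr, hre⟩ := hm₁
  -- `t = (m₁ - a₀) / b₀ = - r u⁻¹`
  set t : ℚ := -(r * u⁻¹) with ht
  have htR : t ∈ Rq q := (Rq q).neg_mem ((Rq q).mul_mem hr hu.inv_mem)
  have hx : (lowerT (-t) : SL(2, ℚ)) ∈ GR q := lowerT_mem_GR ((Rq q).neg_mem htR)
  set g₁ : SL(2, ℚ) := lowerT (-t) * g * (lowerT (-t))⁻¹ with hg₁
  have hg₁D : g₁ ∈ Del q M := conj_mem_Del hx hg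
  have hκ₁ : κ g₁ = κ g := hc _ ((Rq q).neg_mem htR) _ hg
  have h₁00 : g₁ 0 0 = (m₁ : ℚ) := by
    rw [hg₁, conj_lower_00, hb0, ht]
    field_simp
    linarith
  have h₁01 : g₁ 0 1 = g 0 1 := by rw [hg₁, conj_lower_01]
  -- step (ii): make the second entry an integer prime to `q`
  have hN₁q : Nat.Coprime (M * m₁.natAbs) q := by
    refine Nat.Coprime.mul_left hMq ?_
    have := Int.isCoprime_iff_gcd_eq_one.mp hm₁q
    simpa [Int.gcd] using this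
  obtain ⟨m₂, hm₂, hm₂q, -⟩ := exists_int_coprime_sub_mem_Lv hq hN₁q (hG 0 1)
  obtain ⟨r₂, hr₂, hre₂⟩ := hm₂
  have hm₁Q : (m₁ : ℚ) ≠ 0 := Int.cast_ne_zero.mpr hm₁0
  -- `s = (m₂ - b₀) / m₁`
  set s : ℚ := (m₂ - g 0 1) / m₁ with hs
  have hsL : s ∈ Lv q M := by
    have habs : ((m₁.natAbs : ℕ) : ℚ) = (m₁.sign : ℚ) * m₁ := by
      have h1 : ((m₁.natAbs : ℕ) : ℤ) = m₁.sign * m₁ := (Int.sign_mul_self_eq_natAbs m₁).symm
      have h2 : ((m₁.natAbs : ℕ) : ℚ) = (((m₁.natAbs : ℕ) : ℤ) : ℚ) := (Int.cast_natCast _).symm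
      rw [h2, h1, Int.cast_mul]
    refine ⟨-((m₁.sign : ℚ) * r₂), (Rq q).neg_mem ((Rq q).mul_mem (intCast_mem _ _) hr₂), ?_⟩
    rw [hs]
    have : (m₂ : ℚ) - g 0 1 = -(((M * m₁.natAbs : ℕ) : ℚ) * r₂) := by rw [← hre₂]; ring
    rw [this]
    push_cast
    rw [habs]
    field_simp
  have hus : (upperT s : SL(2, ℚ)) ∈ Del q M := upperT_mem_Del hsL
  set g₂ : SL(2, ℚ) := g₁ * upperT s with hg₂
  have hg₂D : g₂ ∈ Del q M := (Del q M).mul_mem hg₁D hus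
  have hκ₂ : κ g₂ = κ g₁ := hκ.mul_unip hus (tr2_upperT _) hg₁D
  have h₂00 : g₂ 0 0 = (m₁ : ℚ) := by
    rw [hg₂, mul_ap]; simp [h₁00]
  have h₂01 : g₂ 0 1 = (m₂ : ℚ) := by
    rw [hg₂, mul_ap]
    simp only [upperT_01, upperT_11, h₁00, h₁01, hs]
    field_simp
    ring
  -- admissibility
  have hA1 : (M : ℤ) ∣ m₁ - 1 := by
    rw [← intCast_mem_Lv_iff hMq]
    have := hg₂D.1
    rw [h₂00] at this
    push_cast
    exact this
  have hA2 : (M : ℤ) ∣ m₂ := by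
    rw [← intCast_mem_Lv_iff hMq]
    have := hg₂D.2.1
    rwa [h₂01] at this
  have hA3 : IsCoprime m₁ m₂ := by
    have hG₂ := Del_le_GR q M hg₂D
    obtain ⟨k₁, C, hC⟩ := hG₂ 1 0
    obtain ⟨k₂, D, hD⟩ := hG₂ 1 1
    have hdet := det_eq_one g₂
    rw [h₂00, h₂01] at hdet
    have hZ : m₁ * (D * (q : ℤ) ^ k₁) - m₂ * (C * (q : ℤ) ^ k₂) = (q : ℤ) ^ (k₁ + k₂) := by
      have : ((m₁ * (D * (q : ℤ) ^ k₁) - m₂ * (C * (q : ℤ) ^ k₂) : ℤ) : ℚ)
          = (((q : ℤ) ^ (k₁ + k₂) : ℤ) : ℚ) := by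
        push_cast
        rw [← hC, ← hD, pow_add]
        linear_combination ((q : ℚ) ^ k₁ * (q : ℚ) ^ k₂) * hdet
      exact_mod_cast this
    obtain ⟨x, y, hxy⟩ := (hm₂q.pow_right (n := k₁ + k₂))
    refine ⟨y * (D * (q : ℤ) ^ k₁), x - y * (C * (q : ℤ) ^ k₂), ?_⟩
    linear_combination hxy + y * hZ
  exact ⟨g₂, hg₂D, m₁, m₂, by rw [hκ₂, hκ₁], h₂00, h₂01, ⟨hA1, hA2, hA3⟩, hm₂q⟩

/-- **THEOREM of note 834** (modulo its inputs): a symbol `κ` on `Γ(M)[1/q]` with values in an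
abelian group killed by the odd prime `p`, which is central (STEP 3) and invariant under prime
squares (STEP 4'), vanishes on `Γ(M)[1/q]`. -/
theorem kappa_eq_zero (hκ : IsSym q M κ) (hc : CentralLower q M κ) (hsq : PrimeSquareInv q M p κ)
    (hX : KernelX M q p) (h7 : Kernel7 M p) (hp : p.Prime) (hp2 : p ≠ 2) (hq : q.Prime)
    (hMq : Nat.Coprime M q) (hM : 0 < M) (hB : ∀ x : B, p • x = 0) :
    ∀ g ∈ Del q M, κ g = 0 := by
  intro g hg
  by_cases h01 : g 0 1 = 0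
  · exact kappa_eq_zero_of_01_eq_zero hκ hg h01
  · obtain ⟨g', hg', a, b, hκ', h0, h1, hadm, hbq⟩ := exists_int_row hκ hc hq hMq hM hg h01
    rw [← hκ', ← rowSym_eq hκ hg' h0 h1]
    exact sym_eq_zero (isRowSymbol hκ hc hsq) hX h7 hp hp2 hq hMq hM hB hadm hbq

end reduce

end Fermat.Agent.S41.CSP.RowSymbol
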