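import Mathlib
import Fermat.Agent.S41.CSP.RowSymbol
import Fermat.Agent.S41.CSP.PrimeSquares
import Fermat.Agent.S41.CSP.Kernels
import Fermat.Agent.S41.CSP.Central
import Fermat.Agent.S41.CSP.Sat

/-!
# P-S41 (B4b) CSP: bridges and assembly (helper77)

* `mem_Lv_iff_inLvl`, `mem_Del_iff_isLevel` : the `Sym.lean` model (`Lv q n`, `Del q M`) versus the
  `Ihara/Assembly.lean` + `PrimeSquares.lean` model (`InLvl n q`, `IsLevel M q`);
* `cnat_cnat` : `cnat y ∘ cnat y = cnat (y ^ 2)`;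
* `satProp` : the saturation property (`Central.SatProp`) from `Sat.lean`;
* `primeSquareInv_of_step4` : STEP 4' (`RowSymbol.PrimeSquareInv`) from STEP 4 in the planned
  shape `κ (cnat m (cnat m g)) = κ g` for `g ∈ Del q (m * (m * M))`, via helper95's
  `PrimeSquares.kappa_conj_eq_of_prime`;
* `csp_main` : the THEOREM of note 834: `κ = 0` on `Γ(M)[1/q]`, given centrality for lower
  elementary matrices (STEP 3) and STEP 4 for `κ`;
* `csp_main_isLevel` : the same in the `IsLevel` model.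
-/

set_option autoImplicit false

namespace Fermat.Agent.S41.CSP.Bridge

open Matrix
open scoped MatrixGroups
open Fermat.Agent.S41.CSP
open Fermat.Agent.S41.CSP.RowSymbol
open Fermat.Agent.S41.CSP.SymbolCalc
open Fermat.Agent.S41.Ihara (IsLevel IsZInv)
open Fermat.Agent.S41.CSP.PrimeSquares (InLvl isLevel_iff)
open Fermat.Agent.S41.Ihara.Amalgam (ext4)

/-! ### The two models of `M • ℤ[1/q]` and of `Γ(M)[1/q]` -/

theorem mem_Rq_iff_isZInv {q : ℕ} {x : ℚ} : x ∈ Rq q ↔ IsZInv q x := Iff.rfl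

theorem mem_Lv_iff_inLvl {q n : ℕ} (hq : q ≠ 0) {x : ℚ} : x ∈ Lv q n ↔ InLvl n q x := by
  have hq0 : (q : ℚ) ≠ 0 := Nat.cast_ne_zero.mpr hq
  constructor
  · rintro ⟨r, ⟨k, m, hm⟩, rfl⟩
    exact ⟨k, m, by rw [mul_assoc, hm]⟩
  · rintro ⟨k, m, hm⟩
    have hqk : (q : ℚ) ^ k ≠ 0 := pow_ne_zero k hq0
    refine ⟨m / (q : ℚ) ^ k, ⟨k, m, by field_simp⟩, ?_⟩
    field_simp
    linarith

theorem mem_Del_iff_isLevel {q M : ℕ} (hq : q ≠ 0) {g : SL(2, ℚ)} :
    g ∈ Del q M ↔ IsLevel M q g := by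
  rw [isLevel_iff, mem_Del_iff, mem_Lv_iff_inLvl hq, mem_Lv_iff_inLvl hq, mem_Lv_iff_inLvl hq,
    mem_Lv_iff_inLvl hq]

/-! ### `cnat y ∘ cnat y = cnat (y ^ 2)` -/

theorem cnat_cnat (y : ℕ) [NeZero y] [NeZero (y ^ 2)] (g : SL(2, ℚ)) :
    cnat y (cnat y g) = cnat (y ^ 2) g := by
  have hy : (y : ℚ) ≠ 0 := Nat.cast_ne_zero.mpr (NeZero.ne y)
  apply ext4
  · simp
  · simp only [cnat_01]; push_cast; ring
  · simp only [cnat_10]; push_cast; field_simp
  · simp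

theorem Del_sq_eq {q M y : ℕ} : Del q (y * (y * M)) = Del q (y ^ 2 * M) := by
  have : y * (y * M) = y ^ 2 * M := by ring
  rw [this]

/-! ### Saturation -/

theorem satProp {q : ℕ} (hq : q.Prime) : SatProp q := by
  intro b0 hb0 hc
  have hb0' : (b0 : ℤ) ≠ 0 := by exact_mod_cast hb0.ne'
  have hc' : Nat.Coprime q (b0 : ℤ).natAbs := by
    rw [Int.natAbs_natCast]; exact hc.symm
  obtain ⟨E, hE⟩ := exists_pow_congr_int hq.two_le (b0 : ℤ) hb0' hc'
  refine ⟨E, fun e he x => ?_⟩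
  obtain ⟨j, hj⟩ := hE e he x
  refine ⟨j, ?_⟩
  rw [Int.modEq_iff_dvd, ← dvd_neg, neg_sub]
  push_cast
  exact hj

/-! ### STEP 4' from STEP 4 -/

section Step

variable {q M p : ℕ} {B : Type*} [AddCommGroup B] {κ : SL(2, ℚ) → B}

/-- STEP 4 for `κ` at level `M`, in the planned shape of `IsSym.cnat_sq`. -/
def SquareInv (q M : ℕ) (κ : SL(2, ℚ) → B) : Prop :=
  ∀ (m : ℕ) [NeZero m], Nat.Coprime m q → ∀ g ∈ Del q (m * (m * M)),
    κ (cnat m (cnat m g)) = κ g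

theorem primeSquareInv_of_step4 (hκ : IsSym q M κ) (hq : q.Prime) (hp : p.Prime)
    (hB : ∀ x : B, p • x = 0) (h4 : SquareInv q M κ) : PrimeSquareInv q M p κ := by
  intro y hy hyMq hpy hpy1 g hg h10
  have hq0 : q ≠ 0 := hq.ne_zero
  have hy0 : NeZero y := ⟨hy.ne_zero⟩
  have hy2 : NeZero (y ^ 2) := ⟨pow_ne_zero 2 hy.ne_zero⟩
  have hyq : Nat.Coprime y q := by
    rw [hy.coprime_iff_not_dvd]
    exact fun h => hyMq (Dvd.dvd.mul_left h M)
  refine PrimeSquares.kappa_conj_eq_of_prime (M := M) (q := q) (p := p) (y := y) hy hyMq hp hpy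
    hpy1 hB κ ?_ ?_ (cnat (y ^ 2)) ?_ ?_ ?_ ?_ ?_ g ((mem_Del_iff_isLevel hq0).mp hg) ?_
  · intro g h hg hh
    exact hκ.mul g ((mem_Del_iff_isLevel hq0).mpr hg) h ((mem_Del_iff_isLevel hq0).mpr hh)
  · intro g hg ht
    exact hκ.unip g ((mem_Del_iff_isLevel hq0).mpr hg) ht
  · intro g; rfl
  · intro g; simp only [cnat_01]; push_cast; ring
  · intro g; simp only [cnat_10]; push_cast; ring
  · intro g; rfl
  · intro g hg
    have hg' : g ∈ Del q (y * (y * M)) := by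
      rw [Del_sq_eq]; exact (mem_Del_iff_isLevel hq0).mpr hg
    rw [← cnat_cnat y g]
    exact h4 y hyq g hg'
  · -- `g 1 0 ∈ y² ℤ[1/q]`
    rw [← mem_Lv_iff_inLvl hq0]
    exact Lv_mono (Dvd.intro _ rfl) h10

/-- **THEOREM of note 834**: a symbol `κ` on `Γ(M)[1/q]` (`q = 2` or `8 ∣ M`) with values in an
abelian group killed by the odd prime `p` vanishes on `Γ(M)[1/q]`, given STEP 3 (centrality for the
lower elementary matrices) and STEP 4 (squares) for `κ`. -/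
theorem csp_main (hκ : IsSym q M κ) (hc : CentralLower q M κ) (h4 : SquareInv q M κ)
    (hp : p.Prime) (hp2 : p ≠ 2) (hq : q.Prime) (hMq : Nat.Coprime M q) (hM : 0 < M)
    (h8 : q = 2 ∨ 8 ∣ M) (hB : ∀ x : B, p • x = 0) : ∀ g ∈ Del q M, κ g = 0 :=
  kappa_eq_zero hκ hc (primeSquareInv_of_step4 hκ hq hp hB h4) (NT.kernelX hp hp2 h8)
    (NT.kernel7 hp hp2) hp hp2 hq hMq hM hB

/-- `csp_main` in the `IsLevel` model of `Ihara/Assembly.lean`. -/
theorem csp_main_isLevel (hκ : IsSym q M κ) (hc : CentralLower q M κ) (h4 : SquareInv q M κ)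
    (hp : p.Prime) (hp2 : p ≠ 2) (hq : q.Prime) (hMq : Nat.Coprime M q) (hM : 0 < M)
    (h8 : q = 2 ∨ 8 ∣ M) (hB : ∀ x : B, p • x = 0) :
    ∀ g : SL(2, ℚ), IsLevel M q g → κ g = 0 :=
  fun g hg => csp_main hκ hc h4 hp hp2 hq hMq hM h8 hB g ((mem_Del_iff_isLevel hq.ne_zero).mpr hg)

/-- Symbols in the `IsLevel` model. -/
theorem isSym_of_isLevel (hq : q ≠ 0)
    (hmul : ∀ g h : SL(2, ℚ), IsLevel M q g → IsLevel M q h → κ (g * h) = κ g + κ h)
    (hunip : ∀ g : SL(2, ℚ), IsLevel M q g → g 0 0 + g 1 1 = 2 → κ g = 0) : IsSym q M κ :=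
  ⟨fun g hg h hh => hmul g h ((mem_Del_iff_isLevel hq).mp hg) ((mem_Del_iff_isLevel hq).mp hh),
    fun g hg ht => hunip g ((mem_Del_iff_isLevel hq).mp hg) ht⟩

end Step

end Fermat.Agent.S41.CSP.Bridge
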