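import Mathlib
import Fermat.Agent.S41.CSP.Sym
import Fermat.Agent.S41.CSP.Central

/-!
# P-S41 (B4b): centrality, STEP 3 of note 834 completed (helper32)

The core of STEP 3 is the statement `CoreHyp q M B`: every symbol `κ'` of level `M`
is invariant under conjugation by `lowerT 1` (`coreHyp`, from `Central.lean`).
From it we derive, for a symbol `κ`:

* `Cen q M κ` : the subgroup of those `x ∈ SL₂(ℤ[1/q])` with `κ (x g x⁻¹) = κ g` on `Γ(M)[1/q]`;
* `lowerT t`, `upperT t` (`t ∈ ℤ[1/q]`), `wMat`, `castQ γ`, `conjD q (castQ γ)` (`γ ∈ SL(2, ℤ)`) lie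
  in `Cen q M κ`, and in fact `GR q ≤ Cen q M κ` (`GR_le_Cen`);
* the row relations MS1a (`IsSym.eq_of_row_add'`, no centrality needed) and MS1b
  (`IsSym.eq_of_row_add`).

The statements `*_of_core` carry `CoreHyp` as a hypothesis; the final statements
`IsSym.conj_lowerT`, `IsSym.conj_upperT`, `IsSym.conj_wMat`, `IsSym.conj_GR`,
`IsSym.eq_of_row_add` are hypothesis-free.
-/

set_option autoImplicit false

namespace Fermat.Agent.S41.CSP

open Matrix
open scoped MatrixGroups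
open Fermat.Agent.S41.Ihara.Amalgam (ext4 inv_apply_00 inv_apply_01 inv_apply_10
  inv_apply_11 det_eq_one castQ castQ_apply conjD conjD_00 conjD_01 conjD_10 conjD_11
  GA GB GammaS GammaEntry GammaS_eq_GammaEntry)

/-! ### The matrix `w` -/

/-- `w = [[0, 1], [-1, 0]]`. -/
def wMat : SL(2, ℚ) := ⟨!![0, 1; -1, 0], by simp [Matrix.det_fin_two_of]⟩

@[simp] theorem wMat_00 : wMat 0 0 = 0 := rfl
@[simp] theorem wMat_01 : wMat 0 1 = 1 := rfl
@[simp] theorem wMat_10 : wMat 1 0 = -1 := rfl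
@[simp] theorem wMat_11 : wMat 1 1 = 0 := rfl

theorem wMat_eq : wMat = upperT 1 * lowerT (-1) * upperT 1 := by
  apply ext4 <;>
    simp only [mul_ap, wMat_00, wMat_01, wMat_10, wMat_11, upperT_00, upperT_01, upperT_10,
      upperT_11, lowerT_00, lowerT_01, lowerT_10, lowerT_11] <;> ring

theorem wMat_mem_GR (q : ℕ) : wMat ∈ GR q := by
  intro i j
  fin_cases i <;> fin_cases j
  · exact (Rq q).zero_mem
  · exact (Rq q).one_mem
  · exact (Rq q).neg_mem (Rq q).one_mem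
  · exact (Rq q).zero_mem

theorem wMat_conj_lowerT (t : ℚ) : wMat * lowerT t * wMat⁻¹ = upperT (-t) := by
  apply ext4 <;>
    simp only [mul_ap, inv_apply_00, inv_apply_01, inv_apply_10, inv_apply_11, wMat_00, wMat_01,
      wMat_10, wMat_11, upperT_00, upperT_01, upperT_10, upperT_11, lowerT_00, lowerT_01,
      lowerT_10, lowerT_11] <;> ring

theorem lowerT_intCast (m : ℤ) : (lowerT (m : ℚ) : SL(2, ℚ)) = lowerT 1 ^ m := by
  have h := map_zpow (lowerTHom (A := ℚ)) (Multiplicative.ofAdd (1 : ℚ)) m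
  rw [← ofAdd_zsmul] at h
  have e : (m • (1 : ℚ)) = (m : ℚ) := by simp
  rw [e] at h
  exact h

theorem upperT_intCast (m : ℤ) : (upperT (m : ℚ) : SL(2, ℚ)) = upperT 1 ^ m := by
  have h := map_zpow (upperTHom (A := ℚ)) (Multiplicative.ofAdd (1 : ℚ)) m
  rw [← ofAdd_zsmul] at h
  have e : (m • (1 : ℚ)) = (m : ℚ) := by simp
  rw [e] at h
  exact h

theorem conjD_upperT (m : ℕ) [NeZero m] (t : ℚ) : conjD m (upperT t) = upperT (t / m) := by
  apply ext4 <;> simp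

theorem conjD_lowerT (m : ℕ) [NeZero m] (t : ℚ) : conjD m (lowerT t) = lowerT (m * t) := by
  apply ext4 <;> simp

/-! ### The centraliser of a symbol -/

section Cen

variable {q M : ℕ} {B : Type*}

/-- The `x ∈ SL₂(ℤ[1/q])` such that `κ (x g x⁻¹) = κ g` for all `g ∈ Γ(M)[1/q]`. -/
def Cen (q M : ℕ) {B : Type*} (κ : SL(2, ℚ) → B) : Subgroup SL(2, ℚ) where
  carrier := {x | x ∈ GR q ∧ ∀ g ∈ Del q M, κ (x * g * x⁻¹) = κ g}
  mul_mem' := by
    rintro x y ⟨hx, hx'⟩ ⟨hy, hy'⟩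
    refine ⟨(GR q).mul_mem hx hy, fun g hg => ?_⟩
    have e : x * y * g * (x * y)⁻¹ = x * (y * g * y⁻¹) * x⁻¹ := by group
    rw [e, hx' _ (conj_mem_Del hy hg), hy' g hg]
  one_mem' := ⟨(GR q).one_mem, fun g _ => by simp⟩
  inv_mem' := by
    rintro x ⟨hx, hx'⟩
    refine ⟨(GR q).inv_mem hx, fun g hg => ?_⟩
    have h := hx' (x⁻¹ * g * x) (conj_mem_Del' hx hg)
    have e : x * (x⁻¹ * g * x) * x⁻¹ = g := by group
    rw [e] at h
    rw [inv_inv]
    exact h.symm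

theorem mem_Cen_iff {κ : SL(2, ℚ) → B} {x : SL(2, ℚ)} :
    x ∈ Cen q M κ ↔ x ∈ GR q ∧ ∀ g ∈ Del q M, κ (x * g * x⁻¹) = κ g := Iff.rfl

theorem Cen_le_GR (κ : SL(2, ℚ) → B) : Cen q M κ ≤ GR q := fun _ hx => hx.1

/-- Transport of the centraliser along conjugation of the symbol. -/
theorem conj_mem_Cen {κ : SL(2, ℚ) → B} {y x : SL(2, ℚ)} (hy : y ∈ GR q)
    (hx : x ∈ Cen q M (fun g => κ (y * g * y⁻¹))) : y * x * y⁻¹ ∈ Cen q M κ := by
  obtain ⟨hx1, hx2⟩ := hx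
  refine ⟨(GR q).mul_mem ((GR q).mul_mem hy hx1) ((GR q).inv_mem hy), fun g hg => ?_⟩
  have h := hx2 (y⁻¹ * g * y) (conj_mem_Del' hy hg)
  have e1 : y * (x * (y⁻¹ * g * y) * x⁻¹) * y⁻¹ = y * x * y⁻¹ * g * (y * x * y⁻¹)⁻¹ := by group
  have e2 : y * (y⁻¹ * g * y) * y⁻¹ = g := by group
  simp only [e1, e2] at h
  exact h

end Cen

namespace IsSym

variable {q M : ℕ} {B : Type*} [AddCommGroup B] {κ : SL(2, ℚ) → B}

/-- `κ ∘ (conjugation by x)` is again a symbol, for `x ∈ SL₂(ℤ[1/q])`. -/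
theorem conjBy (hκ : IsSym q M κ) {x : SL(2, ℚ)} (hx : x ∈ GR q) :
    IsSym q M (fun g => κ (x * g * x⁻¹)) where
  mul g hg h hh := by
    show κ (x * (g * h) * x⁻¹) = κ (x * g * x⁻¹) + κ (x * h * x⁻¹)
    have e : x * (g * h) * x⁻¹ = (x * g * x⁻¹) * (x * h * x⁻¹) := by group
    rw [e]
    exact hκ.mul _ (conj_mem_Del hx hg) _ (conj_mem_Del hx hh)
  unip g hg ht := hκ.conj_unip hx hg ht

/-- `Γ(M)[1/q]` centralises every symbol of level `M` (the target is abelian). -/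
theorem Del_le_Cen (hκ : IsSym q M κ) : Del q M ≤ Cen q M κ := by
  intro z hz
  refine ⟨Del_le_GR q M hz, fun g hg => ?_⟩
  rw [hκ.mul _ ((Del q M).mul_mem hz hg) _ ((Del q M).inv_mem hz), hκ.mul z hz g hg, hκ.inv hz]
  abel

/-- **MS1a.** `[a, b + s a] = [a, b]` for `s ∈ M ℤ[1/q]`. -/
theorem eq_of_row_add' (hκ : IsSym q M κ) {g g' : SL(2, ℚ)} (hg : g ∈ Del q M)
    (hg' : g' ∈ Del q M) {s : ℚ} (hs : s ∈ Lv q M) (h0 : g' 0 0 = g 0 0)
    (h1 : g' 0 1 = g 0 1 + s * g 0 0) : κ g' = κ g := by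
  have hu : (CSP.upperT s : SL(2, ℚ)) ∈ Del q M := upperT_mem_Del hs
  rw [← hκ.mul_unip hu (tr2_upperT s) hg]
  refine hκ.eq_of_row_eq hg' ((Del q M).mul_mem hg hu) ?_ ?_
  · rw [h0, mul_ap]; simp
  · rw [h1, mul_ap]; simp; ring

end IsSym

/-! ### Consequences of the core of STEP 3 -/

/-- The core of STEP 3 (to be supplied by `Central.lean`): every symbol of level `M` with values
in `B` is invariant under conjugation by `lowerT 1`. -/
def CoreHyp (q M : ℕ) (B : Type*) [AddCommGroup B] : Prop :=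
  ∀ κ' : SL(2, ℚ) → B, IsSym q M κ' → ∀ g ∈ Del q M, κ' (lowerT 1 * g * (lowerT 1)⁻¹) = κ' g

section Core

variable {q M : ℕ} {B : Type*} [AddCommGroup B] {κ : SL(2, ℚ) → B}

theorem lowerT_one_mem_Cen_of_core (hcore : CoreHyp q M B) (hκ : IsSym q M κ) :
    (lowerT 1 : SL(2, ℚ)) ∈ Cen q M κ :=
  ⟨lowerT_mem_GR (Rq q).one_mem, hcore κ hκ⟩

theorem lowerT_mem_Cen_of_core (hcore : CoreHyp q M B) (hκ : IsSym q M κ) (hq : q.Prime)
    (hMq : M.Coprime q) {t : ℚ} (ht : t ∈ Rq q) : (lowerT t : SL(2, ℚ)) ∈ Cen q M κ := by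
  obtain ⟨m, hm⟩ := exists_int_sub_mem_Lv hq.ne_zero hMq ht
  have e : (lowerT t : SL(2, ℚ)) = lowerT (t - m) * lowerT (m : ℚ) := by
    rw [← lowerT_add]
    congr 1
    ring
  rw [e, lowerT_intCast]
  exact (Cen q M κ).mul_mem (hκ.Del_le_Cen (lowerT_mem_Del hm))
    ((Cen q M κ).zpow_mem (lowerT_one_mem_Cen_of_core hcore hκ) m)

theorem upperT_mem_Cen_of_core (hcore : CoreHyp q M B) (hκ : IsSym q M κ) (hq : q.Prime)
    (hMq : M.Coprime q) {t : ℚ} (ht : t ∈ Rq q) : (upperT t : SL(2, ℚ)) ∈ Cen q M κ := by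
  have hw := wMat_mem_GR q
  have h1 := lowerT_mem_Cen_of_core hcore (hκ.conjBy hw) hq hMq (t := -t) ((Rq q).neg_mem ht)
  have h2 := conj_mem_Cen hw h1
  rwa [wMat_conj_lowerT, neg_neg] at h2

theorem wMat_mem_Cen_of_core (hcore : CoreHyp q M B) (hκ : IsSym q M κ) (hq : q.Prime)
    (hMq : M.Coprime q) : wMat ∈ Cen q M κ := by
  rw [wMat_eq]
  exact (Cen q M κ).mul_mem ((Cen q M κ).mul_mem
    (upperT_mem_Cen_of_core hcore hκ hq hMq (Rq q).one_mem)
    (lowerT_mem_Cen_of_core hcore hκ hq hMq ((Rq q).neg_mem (Rq q).one_mem)))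
    (upperT_mem_Cen_of_core hcore hκ hq hMq (Rq q).one_mem)

theorem castQ_S_eq : castQ ModularGroup.S = wMat⁻¹ := by
  apply ext4 <;>
    simp only [castQ_apply, inv_apply_00, inv_apply_01, inv_apply_10, inv_apply_11, wMat_00,
      wMat_01, wMat_10, wMat_11, ModularGroup.coe_S] <;> simp

theorem castQ_T_eq : castQ ModularGroup.T = upperT 1 := by
  apply ext4 <;>
    simp only [castQ_apply, upperT_00, upperT_01, upperT_10, upperT_11, ModularGroup.coe_T] <;>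
    simp

/-- Every integral matrix centralises the symbol. -/
theorem castQ_mem_Cen_of_core (hcore : CoreHyp q M B) (hκ : IsSym q M κ) (hq : q.Prime)
    (hMq : M.Coprime q) (γ : SL(2, ℤ)) : castQ γ ∈ Cen q M κ := by
  have h : γ ∈ Subgroup.closure {ModularGroup.S, ModularGroup.T} := by
    rw [SpecialLinearGroup.SL2Z_generators]
    trivial
  have hle : Subgroup.closure {ModularGroup.S, ModularGroup.T} ≤ (Cen q M κ).comap castQ := by
    rw [Subgroup.closure_le]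
    rintro x (rfl | rfl)
    · show castQ ModularGroup.S ∈ Cen q M κ
      rw [castQ_S_eq]
      exact (Cen q M κ).inv_mem (wMat_mem_Cen_of_core hcore hκ hq hMq)
    · show castQ ModularGroup.T ∈ Cen q M κ
      rw [castQ_T_eq]
      exact upperT_mem_Cen_of_core hcore hκ hq hMq (Rq q).one_mem
  exact hle h

/-- Every `diag(1,q)`-conjugate of an integral matrix centralises the symbol. -/
theorem conjD_castQ_mem_Cen_of_core (hcore : CoreHyp q M B) (hκ : IsSym q M κ) (hq : q.Prime)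
    (hMq : M.Coprime q) [NeZero q] (γ : SL(2, ℤ)) : conjD q (castQ γ) ∈ Cen q M κ := by
  have hqinv : ((q : ℚ))⁻¹ ∈ Rq q := inv_q_mem_Rq hq.ne_zero
  have hU : ∀ t : ℚ, t ∈ Rq q → conjD q (upperT t) ∈ Cen q M κ := by
    intro t ht
    rw [conjD_upperT]
    refine upperT_mem_Cen_of_core hcore hκ hq hMq ?_
    rw [div_eq_mul_inv]
    exact (Rq q).mul_mem ht hqinv
  have hL : ∀ t : ℚ, t ∈ Rq q → conjD q (lowerT t) ∈ Cen q M κ := by
    intro t ht
    rw [conjD_lowerT]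
    exact lowerT_mem_Cen_of_core hcore hκ hq hMq ((Rq q).mul_mem (natCast_mem _ q) ht)
  have h : γ ∈ Subgroup.closure {ModularGroup.S, ModularGroup.T} := by
    rw [SpecialLinearGroup.SL2Z_generators]
    trivial
  have hle : Subgroup.closure {ModularGroup.S, ModularGroup.T} ≤
      (Cen q M κ).comap ((conjD q).comp castQ) := by
    rw [Subgroup.closure_le]
    rintro x (rfl | rfl)
    · show conjD q (castQ ModularGroup.S) ∈ Cen q M κ
      rw [castQ_S_eq, map_inv, wMat_eq, map_mul, map_mul]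
      exact (Cen q M κ).inv_mem ((Cen q M κ).mul_mem ((Cen q M κ).mul_mem
        (hU 1 (Rq q).one_mem) (hL (-1) ((Rq q).neg_mem (Rq q).one_mem))) (hU 1 (Rq q).one_mem))
    · show conjD q (castQ ModularGroup.T) ∈ Cen q M κ
      rw [castQ_T_eq]
      exact hU 1 (Rq q).one_mem
  exact hle h

/-- `SL₂(ℤ[1/q])` is contained in the entry model `GammaEntry 1 q` of `Ihara/Amalgam.lean`. -/
theorem GR_le_GammaEntry (q : ℕ) : GR q ≤ GammaEntry 1 q := by
  intro g hg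
  obtain ⟨k00, m00, h00⟩ := hg 0 0
  obtain ⟨k01, m01, h01⟩ := hg 0 1
  obtain ⟨k10, m10, h10⟩ := hg 1 0
  obtain ⟨k11, m11, h11⟩ := hg 1 1
  refine ⟨k00 + k01 + k10 + k11, m00 * (q : ℤ) ^ (k01 + k10 + k11),
    m01 * (q : ℤ) ^ (k00 + k10 + k11), m10 * (q : ℤ) ^ (k00 + k01 + k11),
    m11 * (q : ℤ) ^ (k00 + k01 + k10), ?_, ?_, ?_, ?_, ?_⟩
  · simp
  · push_cast; rw [← h00]; ring
  · push_cast; rw [← h01]; ring
  · push_cast; rw [← h10]; ring
  · push_cast; rw [← h11]; ring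

/-- **Centrality**: all of `SL₂(ℤ[1/q])` centralises the symbol. -/
theorem GR_le_Cen_of_core (hcore : CoreHyp q M B) (hκ : IsSym q M κ) [hq : Fact q.Prime]
    (hMq : M.Coprime q) : GR q ≤ Cen q M κ := by
  intro x hx
  have h1 : x ∈ GammaS 1 q := by
    rw [GammaS_eq_GammaEntry (Nat.coprime_one_left q)]
    exact GR_le_GammaEntry q hx
  have hle : GammaS 1 q ≤ Cen q M κ := by
    refine sup_le ?_ ?_
    · rintro _ ⟨γ, -, rfl⟩
      exact castQ_mem_Cen_of_core hcore hκ hq.out hMq γ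
    · rintro _ ⟨_, ⟨γ, -, rfl⟩, rfl⟩
      exact conjD_castQ_mem_Cen_of_core hcore hκ hq.out hMq γ
  exact hle h1

end Core

namespace IsSym

variable {q M : ℕ} {B : Type*} [AddCommGroup B] {κ : SL(2, ℚ) → B}

theorem conj_lowerT_of_core (hcore : CoreHyp q M B) (hκ : IsSym q M κ) (hq : q.Prime)
    (hMq : M.Coprime q) {g : SL(2, ℚ)} (hg : g ∈ Del q M) {t : ℚ} (ht : t ∈ Rq q) :
    κ (CSP.lowerT t * g * (CSP.lowerT t)⁻¹) = κ g :=
  (lowerT_mem_Cen_of_core hcore hκ hq hMq ht).2 g hg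

theorem conj_upperT_of_core (hcore : CoreHyp q M B) (hκ : IsSym q M κ) (hq : q.Prime)
    (hMq : M.Coprime q) {g : SL(2, ℚ)} (hg : g ∈ Del q M) {t : ℚ} (ht : t ∈ Rq q) :
    κ (CSP.upperT t * g * (CSP.upperT t)⁻¹) = κ g :=
  (upperT_mem_Cen_of_core hcore hκ hq hMq ht).2 g hg

theorem conj_wMat_of_core (hcore : CoreHyp q M B) (hκ : IsSym q M κ) (hq : q.Prime)
    (hMq : M.Coprime q) {g : SL(2, ℚ)} (hg : g ∈ Del q M) :
    κ (wMat * g * wMat⁻¹) = κ g :=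
  (wMat_mem_Cen_of_core hcore hκ hq hMq).2 g hg

theorem conj_wMat_inv_of_core (hcore : CoreHyp q M B) (hκ : IsSym q M κ) (hq : q.Prime)
    (hMq : M.Coprime q) {g : SL(2, ℚ)} (hg : g ∈ Del q M) :
    κ (wMat⁻¹ * g * wMat) = κ g := by
  have h := ((Cen q M κ).inv_mem (wMat_mem_Cen_of_core hcore hκ hq hMq)).2 g hg
  rwa [inv_inv] at h

/-- Conjugation by any element of `SL₂(ℤ[1/q])` does not change the symbol. -/
theorem conj_GR_of_core (hcore : CoreHyp q M B) (hκ : IsSym q M κ) [Fact q.Prime]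
    (hMq : M.Coprime q) {x g : SL(2, ℚ)} (hx : x ∈ GR q) (hg : g ∈ Del q M) :
    κ (x * g * x⁻¹) = κ g :=
  (GR_le_Cen_of_core hcore hκ hMq hx).2 g hg

/-- **MS1b.** `[a + t b, b] = [a, b]` for every `t ∈ ℤ[1/q]`. -/
theorem eq_of_row_add_of_core (hcore : CoreHyp q M B) (hκ : IsSym q M κ) (hq : q.Prime)
    (hMq : M.Coprime q) {g g' : SL(2, ℚ)} (hg : g ∈ Del q M) (hg' : g' ∈ Del q M) {t : ℚ}
    (ht : t ∈ Rq q) (h0 : g' 0 0 = g 0 0 + t * g 0 1) (h1 : g' 0 1 = g 0 1) : κ g' = κ g := by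
  have hx := lowerT_mem_Cen_of_core hcore hκ hq hMq (t := -t) ((Rq q).neg_mem ht)
  rw [← hx.2 g hg]
  refine hκ.eq_of_row_eq hg' (conj_mem_Del hx.1 hg) ?_ ?_
  · simp only [mul_ap, inv_apply_00, inv_apply_10, lowerT_00, lowerT_01, lowerT_10, lowerT_11]
    rw [h0]; ring
  · simp only [mul_ap, inv_apply_01, inv_apply_11, lowerT_00, lowerT_01]
    rw [h1]; ring

end IsSym

/-! ### The hypothesis-free statements -/

/-- The core of STEP 3 holds. -/
theorem coreHyp {q M : ℕ} (hq : q.Prime) (hMq : M.Coprime q) (B : Type*) [AddCommGroup B] :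
    CoreHyp q M B :=
  fun _ hκ' _ hg => hκ'.conj_lowerT_one hq hMq hg

theorem GR_le_Cen {q M : ℕ} {B : Type*} [AddCommGroup B] {κ : SL(2, ℚ) → B} (hκ : IsSym q M κ)
    [hq : Fact q.Prime] (hMq : M.Coprime q) : GR q ≤ Cen q M κ :=
  GR_le_Cen_of_core (coreHyp hq.out hMq B) hκ hMq

namespace IsSym

variable {q M : ℕ} {B : Type*} [AddCommGroup B] {κ : SL(2, ℚ) → B}

theorem conj_lowerT (hκ : IsSym q M κ) (hq : q.Prime) (hMq : M.Coprime q) {g : SL(2, ℚ)}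
    (hg : g ∈ Del q M) {t : ℚ} (ht : t ∈ Rq q) :
    κ (CSP.lowerT t * g * (CSP.lowerT t)⁻¹) = κ g :=
  conj_lowerT_of_core (coreHyp hq hMq B) hκ hq hMq hg ht

theorem conj_upperT (hκ : IsSym q M κ) (hq : q.Prime) (hMq : M.Coprime q) {g : SL(2, ℚ)}
    (hg : g ∈ Del q M) {t : ℚ} (ht : t ∈ Rq q) :
    κ (CSP.upperT t * g * (CSP.upperT t)⁻¹) = κ g :=
  conj_upperT_of_core (coreHyp hq hMq B) hκ hq hMq hg ht

theorem conj_wMat (hκ : IsSym q M κ) (hq : q.Prime) (hMq : M.Coprime q) {g : SL(2, ℚ)}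
    (hg : g ∈ Del q M) : κ (wMat * g * wMat⁻¹) = κ g :=
  conj_wMat_of_core (coreHyp hq hMq B) hκ hq hMq hg

theorem conj_wMat_inv (hκ : IsSym q M κ) (hq : q.Prime) (hMq : M.Coprime q) {g : SL(2, ℚ)}
    (hg : g ∈ Del q M) : κ (wMat⁻¹ * g * wMat) = κ g :=
  conj_wMat_inv_of_core (coreHyp hq hMq B) hκ hq hMq hg

/-- **STEP 3 (centrality).** Conjugation by any element of `SL₂(ℤ[1/q])` does not change a
symbol of level `M` on `Γ(M)[1/q]`. -/
theorem conj_GR (hκ : IsSym q M κ) [hq : Fact q.Prime] (hMq : M.Coprime q) {x g : SL(2, ℚ)}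
    (hx : x ∈ GR q) (hg : g ∈ Del q M) : κ (x * g * x⁻¹) = κ g :=
  conj_GR_of_core (coreHyp hq.out hMq B) hκ hMq hx hg

/-- **MS1b.** `[a + t b, b] = [a, b]` for every `t ∈ ℤ[1/q]`. -/
theorem eq_of_row_add (hκ : IsSym q M κ) (hq : q.Prime) (hMq : M.Coprime q) {g g' : SL(2, ℚ)}
    (hg : g ∈ Del q M) (hg' : g' ∈ Del q M) {t : ℚ} (ht : t ∈ Rq q)
    (h0 : g' 0 0 = g 0 0 + t * g 0 1) (h1 : g' 0 1 = g 0 1) : κ g' = κ g :=
  eq_of_row_add_of_core (coreHyp hq hMq B) hκ hq hMq hg hg' ht h0 h1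

end IsSym

end Fermat.Agent.S41.CSP
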