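import Mathlib
import Fermat.Agent.S41.CSP.CentralCor
import Fermat.Agent.S41.CSP.Unipotent
import Fermat.Agent.S41.Ihara.SymBridge

/-!
# P-S41 (B4b): centrality for characters of `Γ₀(N)[1/q]` (helper32)

Glue between the pure statement `IsSym.conj_GR` (`CentralCor.lean`) and the Ihara character
(via `Ihara.symOf`, `Ihara/SymBridge.lean`): a character `F` of `GammaS N q = Γ₀(N)[1/q]` which
kills the elements of trace `2` is invariant, on the principal congruence subgroup of level `N`,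
under conjugation by every element of `SL₂(ℤ[1/q]) = GR q`.

* `conj_invariant` : the centrality statement for `F`;
* `conj_invariant_castQ`, `conj_invariant_conjD_castQ` : the special cases `x = castQ t` and
  `x = conjD q (castQ t)`, `t ∈ SL(2, ℤ)`;
* `iharaChar_conj_invariant` : the same with the hypothesis of `Ihara/Assembly.lean` (`F ∘ j1`
  kills the parabolic / elliptic elements), via (E) (`Unipotent.lean`).
-/

set_option autoImplicit false

namespace Fermat.Agent.S41.CSP

open Matrix CongruenceSubgroup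
open scoped MatrixGroups
open Fermat.Agent.S41.Ihara
open Fermat.Agent.S41.Ihara.Amalgam
open Fermat.Agent.Gateway.A2

section

variable {N q : ℕ} [hq : Fact q.Prime] {B : Type*} [AddCommGroup B]

/-- **Centrality for characters of `Γ₀(N)[1/q]`.** -/
theorem conj_invariant (F : ↥(GammaS N q) →* Multiplicative B) (hNq : Nat.Coprime N q)
    (htr : ∀ g : ↥(GammaS N q), (g : SL(2, ℚ)) 0 0 + (g : SL(2, ℚ)) 1 1 = 2 → F g = 1)
    {x : SL(2, ℚ)} (hx : x ∈ GR q)
    (g g' : ↥(GammaS N q)) (hg : IsLevel N q (g : SL(2, ℚ)))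
    (hg' : (g' : SL(2, ℚ)) = x * (g : SL(2, ℚ)) * x⁻¹) : F g' = F g := by
  have hκ : IsSym q N (symOf F) := isSym_symOf hNq F htr
  have hgD : (g : SL(2, ℚ)) ∈ Del q N := (CSP.mem_Del_iff_isLevel hq.out.ne_zero).mpr hg
  have h := hκ.conj_GR hNq hx hgD
  rw [← hg', symOf_apply, symOf_apply] at h
  exact Multiplicative.toAdd.injective h

/-- Centrality, conjugation by an integral matrix. -/
theorem conj_invariant_castQ (F : ↥(GammaS N q) →* Multiplicative B) (hNq : Nat.Coprime N q)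
    (htr : ∀ g : ↥(GammaS N q), (g : SL(2, ℚ)) 0 0 + (g : SL(2, ℚ)) 1 1 = 2 → F g = 1)
    (t : SL(2, ℤ)) (g g' : ↥(GammaS N q)) (hg : IsLevel N q (g : SL(2, ℚ)))
    (hg' : (g' : SL(2, ℚ)) = castQ t * (g : SL(2, ℚ)) * (castQ t)⁻¹) : F g' = F g :=
  conj_invariant F hNq htr (castQ_mem_GR q t) g g' hg hg'

/-- Centrality, conjugation by a `diag(1, q)`-conjugate of an integral matrix. -/
theorem conj_invariant_conjD_castQ (F : ↥(GammaS N q) →* Multiplicative B)
    (hNq : Nat.Coprime N q)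
    (htr : ∀ g : ↥(GammaS N q), (g : SL(2, ℚ)) 0 0 + (g : SL(2, ℚ)) 1 1 = 2 → F g = 1)
    (t : SL(2, ℤ)) (g g' : ↥(GammaS N q)) (hg : IsLevel N q (g : SL(2, ℚ)))
    (hg' : (g' : SL(2, ℚ)) = conjD q (castQ t) * (g : SL(2, ℚ)) * (conjD q (castQ t))⁻¹) :
    F g' = F g :=
  conj_invariant F hNq htr (conjD_castQ_mem_GR q t) g g' hg hg'

/-- Centrality for the Ihara character: hypothesis as in `Ihara/Assembly.lean`. -/
theorem iharaChar_conj_invariant (F : ↥(GammaS N q) →* Multiplicative B)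
    (hF : ∀ γ : Gamma0 N, IsPE (γ : SL(2, ℤ)) → F (j1 N q γ) = 1) (hNq : Nat.Coprime N q)
    {x : SL(2, ℚ)} (hx : x ∈ GR q)
    (g g' : ↥(GammaS N q)) (hg : IsLevel N q (g : SL(2, ℚ)))
    (hg' : (g' : SL(2, ℚ)) = x * (g : SL(2, ℚ)) * x⁻¹) : F g' = F g :=
  conj_invariant F hNq (fun g hg => iharaChar_trace_eq_two F hF hNq g hg) hx g g' hg hg'

end

end Fermat.Agent.S41.CSP
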