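import Mathlib
import Fermat.Agent.S41.CSP.Sym

/-!
# P-S41 (B4b), STEP 4 of note 834: invariance under conjugation by `diag(m², 1)` (helper48)

`cnat m ∘ cnat m` is conjugation by `diag(m², 1)`, i.e. by `diag(m, 1/m)`, and

  `diag(m, 1/m) = upperT m * lowerT (-(1/m)) * upperT (m - 1) * lowerT 1 * upperT (-1)`.

Conjugation by `upperT t` (`t ∈ ℤ[1/q]`) and by `lowerT 1` preserves a symbol `κ` of level `M`
(centrality, STEP 3), and conjugation by `lowerT (-(1/m)) = cnat m (lowerT (-1))` is handled by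
centrality for the symbol `κ ∘ cnat m` of level `m M`.

The core statement `cnat_sq_of_central` carries the three centrality inputs as hypotheses, in
the exact shape of `IsSym.conj_upperT` / `IsSym.conj_lowerT_one` (note 863), so that the final
`IsSym.cnat_sq` is a three-line consequence once `Central.lean` / `CentralCor.lean` have landed.
-/

set_option autoImplicit false

namespace Fermat.Agent.S41.CSP

open Matrix
open scoped MatrixGroups
open Fermat.Agent.S41.Ihara.Amalgam (ext4 inv_apply_00 inv_apply_01 inv_apply_10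
  inv_apply_11 det_eq_one conjD)

namespace Squares

/-- `diag(m, 1/m)` as a product of five elementary matrices. -/
theorem hU_natCast_eq (m : ℕ) (hm : (m : ℚ) ≠ 0) :
    hU (m : ℚ) hm =
      upperT (m : ℚ) * lowerT (-(1 / (m : ℚ))) * upperT ((m : ℚ) - 1) * lowerT 1 * upperT (-1) := by
  apply ext4 <;>
    simp only [mul_ap, hU_00, hU_01, hU_10, hU_11, upperT_00, upperT_01, upperT_10, upperT_11,
      lowerT_00, lowerT_01, lowerT_10, lowerT_11] <;> field_simp <;> ring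

/-- `cnat m ∘ cnat m` is conjugation by `diag(m, 1/m)`. -/
theorem cnat_cnat_eq_conj (m : ℕ) [NeZero m] (hm : (m : ℚ) ≠ 0) (g : SL(2, ℚ)) :
    cnat m (cnat m g) = hU (m : ℚ) hm * g * (hU (m : ℚ) hm)⁻¹ := by
  apply ext4 <;>
    simp only [mul_ap, inv_apply_00, inv_apply_01, inv_apply_10, inv_apply_11, hU_00, hU_01,
      hU_10, hU_11, cnat_00, cnat_01, cnat_10, cnat_11] <;> field_simp <;> ring

/-- `cnat m ∘ cnat m` as an iterated conjugation by elementary matrices. -/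
theorem cnat_cnat_eq (m : ℕ) [NeZero m] (g : SL(2, ℚ)) :
    cnat m (cnat m g) =
      upperT (m : ℚ) * ((lowerT (1 / (m : ℚ)))⁻¹ * (upperT ((m : ℚ) - 1) *
        (lowerT 1 * (upperT (-1) * g * (upperT (-1))⁻¹) * (lowerT 1)⁻¹) *
        (upperT ((m : ℚ) - 1))⁻¹) * lowerT (1 / (m : ℚ))) * (upperT (m : ℚ))⁻¹ := by
  have hm : (m : ℚ) ≠ 0 := Nat.cast_ne_zero.mpr (NeZero.ne m)
  rw [cnat_cnat_eq_conj m hm, hU_natCast_eq m hm, lowerT_neg]
  group

end Squares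

open Squares

variable {q M : ℕ} {B : Type*} {κ : SL(2, ℚ) → B}

/-- **STEP 4, hypothesis style.**  `hUp` is `IsSym.conj_upperT` for `κ` at level `M`, `hL1` is
`IsSym.conj_lowerT_one` for `κ` at level `M`, and `hL'` is `IsSym.conj_lowerT_one` for the symbol
`κ ∘ cnat m` at level `m * M`. -/
theorem cnat_sq_of_central (m : ℕ) [NeZero m]
    (hUp : ∀ t ∈ Rq q, ∀ g ∈ Del q M, κ (upperT t * g * (upperT t)⁻¹) = κ g)
    (hL1 : ∀ g ∈ Del q M, κ (lowerT 1 * g * (lowerT 1)⁻¹) = κ g)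
    (hL' : ∀ x ∈ Del q (m * M),
      κ (cnat m (lowerT 1 * x * (lowerT 1)⁻¹)) = κ (cnat m x))
    {g : SL(2, ℚ)} (hg : g ∈ Del q (m * (m * M))) : κ (cnat m (cnat m g)) = κ g := by
  have hm : (m : ℚ) ≠ 0 := Nat.cast_ne_zero.mpr (NeZero.ne m)
  have hdvd : M ∣ m * (m * M) := ⟨m * m, by ring⟩
  have hone : (1 : ℚ) ∈ Rq q := (Rq q).one_mem
  have hmR : (m : ℚ) ∈ Rq q := natCast_mem _ m
  have hm1R : (m : ℚ) - 1 ∈ Rq q := (Rq q).sub_mem hmR hone
  have hneg1R : (-1 : ℚ) ∈ Rq q := (Rq q).neg_mem hone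
  -- the successive conjugates
  have h1 : upperT (-1) * g * (upperT (-1))⁻¹ ∈ Del q (m * (m * M)) :=
    conj_mem_Del (upperT_mem_GR hneg1R) hg
  have h2 : lowerT 1 * (upperT (-1) * g * (upperT (-1))⁻¹) * (lowerT 1)⁻¹ ∈ Del q (m * (m * M)) :=
    conj_mem_Del (lowerT_mem_GR hone) h1
  have h3 : upperT ((m : ℚ) - 1) *
      (lowerT 1 * (upperT (-1) * g * (upperT (-1))⁻¹) * (lowerT 1)⁻¹) *
      (upperT ((m : ℚ) - 1))⁻¹ ∈ Del q (m * (m * M)) :=
    conj_mem_Del (upperT_mem_GR hm1R) h2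
  set g3 : SL(2, ℚ) := upperT ((m : ℚ) - 1) *
      (lowerT 1 * (upperT (-1) * g * (upperT (-1))⁻¹) * (lowerT 1)⁻¹) *
      (upperT ((m : ℚ) - 1))⁻¹ with hg3
  -- the conjugation by `lowerT (1/m)⁻¹`
  have hh : conjD m g3 ∈ Del q (m * M) := conjD_mem_Del h3
  have hx : (lowerT 1)⁻¹ * conjD m g3 * lowerT 1 ∈ Del q (m * M) :=
    conj_mem_Del' (lowerT_mem_GR hone) hh
  have key := hL' _ hx
  have e1 : lowerT 1 * ((lowerT 1)⁻¹ * conjD m g3 * lowerT 1) * (lowerT 1)⁻¹ = conjD m g3 := by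
    group
  rw [e1, cnat_conjD] at key
  have e2 : cnat m ((lowerT 1)⁻¹ * conjD m g3 * lowerT 1) =
      (lowerT (1 / (m : ℚ)))⁻¹ * g3 * lowerT (1 / (m : ℚ)) := by
    rw [map_mul, map_mul, map_inv, cnat_lowerT, cnat_conjD]
  rw [e2] at key
  have h4 : (lowerT (1 / (m : ℚ)))⁻¹ * g3 * lowerT (1 / (m : ℚ)) ∈ Del q M := by
    rw [← e2]
    exact cnat_mem_Del hx
  -- assemble
  rw [cnat_cnat_eq m g, ← hg3, hUp _ hmR _ h4, ← key, hg3,
    hUp _ hm1R _ (Del_mono hdvd h2), hL1 _ (Del_mono hdvd h1), hUp _ hneg1R _ (Del_mono hdvd hg)]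

/-- **STEP 4** from centrality (`conj_lowerT_one`) at the two levels `M` and `m * M`: `hcen` is
the statement of `IsSym.conj_lowerT_one` for all symbols of these two levels, `hUp` is
`IsSym.conj_upperT` for `κ`. -/
theorem IsSym.cnat_sq_of_conj_lowerT_one [AddCommGroup B] (hκ : IsSym q M κ) (m : ℕ) [NeZero m]
    (hUp : ∀ t ∈ Rq q, ∀ g ∈ Del q M, κ (CSP.upperT t * g * (CSP.upperT t)⁻¹) = κ g)
    (hcen : ∀ (M' : ℕ) (κ' : SL(2, ℚ) → B), IsSym q M' κ' → (M' = M ∨ M' = m * M) →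
      ∀ g ∈ Del q M', κ' (CSP.lowerT 1 * g * (CSP.lowerT 1)⁻¹) = κ' g)
    {g : SL(2, ℚ)} (hg : g ∈ Del q (m * (m * M))) : κ (cnat m (cnat m g)) = κ g :=
  cnat_sq_of_central m hUp (hcen M κ hκ (Or.inl rfl))
    (hcen (m * M) _ (hκ.comp_cnat m) (Or.inr rfl)) hg

end Fermat.Agent.S41.CSP
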