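import Mathlib
import Fermat.Agent.S41.CSP.Bridge
import Fermat.Agent.S41.CSP.CentralCor
import Fermat.Agent.S41.CSP.Squares

/-!
# P-S41 (B4b) CSP: the vanishing theorem of note 834, hypothesis-free (helper77)

`IsSym.eq_zero_on_Del` : let `q` be a prime, `M > 0` prime to `q` with `q = 2` or `8 ∣ M`, `p` an odd
prime and `B` an abelian group killed by `p`.  Every `κ : SL(2, ℚ) → B` which is additive on
`Γ(M)[1/q]` and kills its trace-`2` elements (`IsSym q M κ`) vanishes on `Γ(M)[1/q]`.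

`IsSym.eq_zero_of_isLevel` : the same in the `IsLevel` model of `Ihara/Assembly.lean`.
-/

set_option autoImplicit false

namespace Fermat.Agent.S41.CSP

open Matrix
open scoped MatrixGroups

variable {q M p : ℕ} {B : Type*} [AddCommGroup B] {κ : SL(2, ℚ) → B}

/-- STEP 3 in the shape consumed by `RowSymbol`. -/
theorem IsSym.centralLower (hκ : IsSym q M κ) (hq : q.Prime) (hMq : M.Coprime q) :
    RowSymbol.CentralLower q M κ :=
  fun _ ht _ hg => hκ.conj_lowerT hq hMq hg ht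

/-- STEP 4 in the shape consumed by `Bridge`. -/
theorem IsSym.squareInv (hκ : IsSym q M κ) (hq : q.Prime) (hMq : M.Coprime q) :
    Bridge.SquareInv q M κ := by
  intro m _ hmq g hg
  refine hκ.cnat_sq_of_conj_lowerT_one m (fun t ht g hg => hκ.conj_upperT hq hMq hg ht) ?_ hg
  intro M' κ' hκ' hM' g hg
  have hM'q : M'.Coprime q := by
    rcases hM' with rfl | rfl
    · exact hMq
    · exact Nat.Coprime.mul_left hmq hMq
  exact hκ'.conj_lowerT_one hq hM'q hg

/-- **The abelian mod-`p` congruence subgroup property of `SL₂(ℤ[1/q])`, symbol form** (THEOREM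
of note 834). -/
theorem IsSym.eq_zero_on_Del (hκ : IsSym q M κ) (hp : p.Prime) (hp2 : p ≠ 2) (hq : q.Prime)
    (hMq : M.Coprime q) (hM : 0 < M) (h8 : q = 2 ∨ 8 ∣ M) (hB : ∀ x : B, p • x = 0) :
    ∀ g ∈ Del q M, κ g = 0 :=
  Bridge.csp_main hκ (hκ.centralLower hq hMq) (hκ.squareInv hq hMq) hp hp2 hq hMq hM h8 hB

/-- The same in the `IsLevel` model. -/
theorem IsSym.eq_zero_of_isLevel (hκ : IsSym q M κ) (hp : p.Prime) (hp2 : p ≠ 2) (hq : q.Prime)
    (hMq : M.Coprime q) (hM : 0 < M) (h8 : q = 2 ∨ 8 ∣ M) (hB : ∀ x : B, p • x = 0) :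
    ∀ g : SL(2, ℚ), Fermat.Agent.S41.Ihara.IsLevel M q g → κ g = 0 :=
  Bridge.csp_main_isLevel hκ (hκ.centralLower hq hMq) (hκ.squareInv hq hMq) hp hp2 hq hMq hM h8 hB

end Fermat.Agent.S41.CSP
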