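import Mathlib
import Fermat.Agent.S41.CSP.Vanish
import Fermat.Agent.S41.CSP.Unipotent
import Fermat.Agent.S41.Ihara.SymBridge
import Fermat.Agent.S41.Assembly.Defs

/-!
# P-S41 (B4b/B4c), route B: Ihara's lemma at an explicit level (helper4)

Combining the Ihara character (`Ihara.exists_iharaChar`), (E) (`iharaChar_trace_eq_two`), the symbol
attached to a character (`Ihara.symOf`, `Ihara.isSym_symOf`) and the abelian mod-`p` congruence
subgroup property of `SL₂(ℤ[1/q])` in symbol form (`IsSym.eq_zero_on_Del`), we get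
**Ihara's lemma**: for `p` odd, `q ∤ N`, every pair `(φ₁, φ₂)` of parabolic classes of level `N`
with `𝔽_p`-coefficients in the kernel of `α = res₁ + res₂` vanishes on `Γ₀(N) ∩ Γ(M)`, where
`M = N` if `q = 2` and `M = 8 N` otherwise.

* `ihara_vanish` : general `p`-torsion coefficients `B`;
* `iharaLevel_main`, `exists_iharaLevel_main` : the shape `Assembly.IharaLevel N q p M`.
-/

set_option autoImplicit false

namespace Fermat.Agent.S41.CSP

open CongruenceSubgroup Matrix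
open Fermat.Agent.S41.Ihara
open Fermat.Agent.S41.Ihara.Amalgam
open Fermat.Agent.Gateway.A2
open scoped MatrixGroups

/-- The level of Ihara's lemma produced by the proof. -/
def iharaLevelOf (N q : ℕ) : ℕ := if q = 2 then N else 8 * N

theorem iharaLevelOf_pos {N q : ℕ} (hN : 0 < N) : 0 < iharaLevelOf N q := by
  unfold iharaLevelOf
  split_ifs <;> omega

theorem dvd_iharaLevelOf (N q : ℕ) : N ∣ iharaLevelOf N q := by
  unfold iharaLevelOf
  split_ifs
  · exact dvd_rfl
  · exact Dvd.intro_left 8 rfl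

theorem iharaLevelOf_coprime {N q : ℕ} (hq : q.Prime) (hNq : Nat.Coprime N q) :
    Nat.Coprime (iharaLevelOf N q) q := by
  unfold iharaLevelOf
  split_ifs with h2
  · exact hNq
  · refine Nat.Coprime.mul_left ?_ hNq
    have h8 : (8 : ℕ) = 2 ^ 3 := by norm_num
    rw [h8]
    refine Nat.Coprime.pow_left 3 ?_
    rw [Nat.coprime_primes Nat.prime_two hq]
    exact fun h => h2 h.symm

theorem iharaLevelOf_cond (N q : ℕ) : q = 2 ∨ 8 ∣ iharaLevelOf N q := by
  unfold iharaLevelOf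
  split_ifs with h2
  · exact Or.inl h2
  · exact Or.inr (Dvd.intro _ rfl)

section Main

variable {N q : ℕ} [hq : Fact q.Prime] {B : Type*} [AddCommGroup B]

/-- **Ihara's lemma** (route B): if `res₁ φ₁ + res₂ φ₂ = 0` for characters `φ₁ φ₂` of `Γ₀(N)`
killing parabolic and elliptic elements, with values in a group killed by the odd prime `p`,
then `φ₁` and `φ₂` vanish on `Γ₀(N) ∩ Γ(M)`, `M = iharaLevelOf N q`. -/
theorem ihara_vanish {p : ℕ} (hp : p.Prime) (hp2 : p ≠ 2) (hB : ∀ x : B, p • x = 0)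
    (hN : 0 < N) (hNq : Nat.Coprime N q)
    (φ₁ φ₂ : Additive (Gamma0 N) →+ B) (h₁ : φ₁ ∈ homPE ℤ (Gamma0 N) B)
    (h : res₁ N q B φ₁ + res₂ N q B φ₂ = 0) (gam : Gamma0 N)
    (hgam : (gam : SL(2, ℤ)) ∈ Gamma (iharaLevelOf N q)) :
    φ₁ (Additive.ofMul gam) = 0 ∧ φ₂ (Additive.ofMul gam) = 0 := by
  obtain ⟨F, hF1, hF2⟩ := exists_iharaChar hNq φ₁ φ₂ h
  have hF : ∀ γ : Gamma0 N, IsPE (γ : SL(2, ℤ)) → F (j1 N q γ) = 1 := by
    intro γ hγ
    rw [hF1, h₁ γ hγ]
    rfl
  have hκN : IsSym q N (symOf F) :=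
    isSym_symOf hNq F (fun z hz => iharaChar_trace_eq_two F hF hNq z hz)
  have hκ : IsSym q (iharaLevelOf N q) (symOf F) := hκN.mono (dvd_iharaLevelOf N q)
  have hvan := hκ.eq_zero_of_isLevel hp hp2 hq.out (iharaLevelOf_coprime hq.out hNq)
    (iharaLevelOf_pos hN) (iharaLevelOf_cond N q) hB
  constructor
  · have h1 := hvan _ (isLevel_castQ q hgam)
    rw [symOf_j1, hF1] at h1
    exact h1
  · have h2 := hvan _ (isLevel_conjD_castQ q hgam)
    rw [symOf_j2, hF2] at h2
    have h3 : -φ₂ (Additive.ofMul gam) = 0 := h2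
    exact neg_eq_zero.mp h3

end Main

section Level

open Fermat.Agent.S41.Assembly

/-- Ihara's lemma in the shape consumed by the final assembly. -/
theorem iharaLevel_main (N q p : ℕ) [NeZero N] [Fact q.Prime] [hp : Fact p.Prime] (hp2 : p ≠ 2)
    (hqN : ¬ q ∣ N) :
    IharaLevel N q p (iharaLevelOf N q) := by
  intro φ₁ hφ₁ φ₂ _ h gam hgam
  have hNq : Nat.Coprime N q :=
    ((Fact.out : q.Prime).coprime_iff_not_dvd.mpr hqN).symm
  have hB : ∀ x : ZMod p, p • x = 0 := by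
    intro x
    rw [nsmul_eq_mul, ZMod.natCast_self, zero_mul]
  exact ihara_vanish hp.out hp2 hB (Nat.pos_of_ne_zero (NeZero.ne N)) hNq φ₁ φ₂ hφ₁ h gam hgam

theorem exists_iharaLevel_main (N q p : ℕ) [NeZero N] [Fact q.Prime] [Fact p.Prime] (hp2 : p ≠ 2)
    (hqN : ¬ q ∣ N) :
    ∃ M : ℕ, 0 < M ∧ IharaLevel N q p M :=
  ⟨iharaLevelOf N q, iharaLevelOf_pos (Nat.pos_of_ne_zero (NeZero.ne N)),
    iharaLevel_main N q p hp2 hqN⟩

end Level

end Fermat.Agent.S41.CSP
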