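import Mathlib
import Fermat.Agent.S41.CSP.PrimeSquares
import Fermat.Agent.S41.CSP.RowSymbol

/-!
# P-S41 (B4b): the prime-square invariance `RowSymbol.PrimeSquareInv` from STEP 4 (helper95)

Adapter between `CSP/PrimeSquares.lean` (STEP 4' of note 834), the planned shape of STEP 4
(`IsSym.cnat_sq`: `κ (cnat m (cnat m g)) = κ g` for `g ∈ Γ(m² M)[1/q]`) and the input
`RowSymbol.PrimeSquareInv` of the row-symbol glue.
-/

set_option autoImplicit false

namespace Fermat.Agent.S41.CSP.PrimeSquares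

open Matrix
open Fermat.Agent.S41.CSP
open Fermat.Agent.S41.Ihara.Amalgam (ext4)
open scoped MatrixGroups

/-- Conjugation by `diag(m, 1)` twice is conjugation by `diag(m², 1)`. -/
theorem cnat_cnat (m : ℕ) [NeZero m] (g : SL(2, ℚ)) : cnat m (cnat m g) = cnat (m ^ 2) g := by
  have hm : (m : ℚ) ≠ 0 := Nat.cast_ne_zero.mpr (NeZero.ne m)
  apply ext4
  · simp only [cnat_00]
  · simp only [cnat_01]
    push_cast
    ring
  · simp only [cnat_10]
    push_cast
    field_simp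
  · simp only [cnat_11]

variable {M q p y : ℕ} {B : Type*} [AddCommGroup B] {κ : SL(2, ℚ) → B}

/-- **STEP 4'** in the `cnat y (cnat y g)` form (the planned shape of note 863), with STEP 4 at
`m = y` as a hypothesis. -/
theorem cnat_sq_prime [NeZero y] (hκ : IsSym q M κ) (hp : p.Prime) (hB : ∀ x : B, p • x = 0)
    (hy : y.Prime) (hyMq : ¬ y ∣ M * q) (hpy : ¬ p ∣ y) (hpy1 : ¬ p ∣ y - 1)
    (hsq : ∀ g ∈ Del q (y * (y * M)), κ (cnat y (cnat y g)) = κ g)
    {g : SL(2, ℚ)} (hg : g ∈ Del q M) (h10 : g 1 0 ∈ Lv q (y * (y * M))) :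
    κ (cnat y (cnat y g)) = κ g := by
  have e : y * (y * M) = y ^ 2 * M := by ring
  rw [cnat_cnat]
  refine cnat_sq_eq_of_prime hκ hy hyMq hp hpy hpy1 hB (fun h hh => ?_) hg
    (Lv_mono ⟨M, e⟩ h10)
  rw [← cnat_cnat]
  exact hsq h (by rw [e]; exact hh)

/-- The input `PrimeSquareInv` of the row-symbol glue, from STEP 4 in the planned shape of
`IsSym.cnat_sq`. -/
theorem primeSquareInv_of_cnat_sq (hκ : IsSym q M κ) (hp : p.Prime) (hB : ∀ x : B, p • x = 0)
    (hsq : ∀ (m : ℕ) [NeZero m], Nat.Coprime m q → ∀ g ∈ Del q (m * (m * M)),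
      κ (cnat m (cnat m g)) = κ g) :
    RowSymbol.PrimeSquareInv q M p κ := by
  intro y hy hyMq hpy hpy1 g hg h10
  have : NeZero y := ⟨hy.ne_zero⟩
  have hyq : Nat.Coprime y q :=
    (Nat.Prime.coprime_iff_not_dvd hy).mpr fun h => hyMq (Dvd.dvd.mul_left h M)
  have e : y * (y * M) = y ^ 2 * M := by ring
  have h := cnat_sq_prime hκ hp hB hy hyMq hpy hpy1 (hsq y hyq) hg (by rw [e]; exact h10)
  rw [cnat_cnat] at h
  exact h

end Fermat.Agent.S41.CSP.PrimeSquares
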