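import Mathlib
import Fermat.Agent.S41.CSP.PrimeSquaresInv
import Fermat.Agent.S41.CSP.Squares
import Fermat.Agent.S41.CSP.CentralCor
import Fermat.Agent.S41.CSP.Kernels

/-!
# P-S41 (B4b): STEPS 4 and 4' of note 834, hypothesis-free (helper95)

Assembly of `CSP/Squares.lean` (STEP 4, hypothesis style), `CSP/Central.lean`,
`CSP/CentralCor.lean` (STEP 3) and `CSP/PrimeSquares*.lean` (STEP 4'):

* `isSym_cnat_sq` : `κ (cnat m (cnat m g)) = κ g` for `g ∈ Γ(m² M)[1/q]`, `m` prime to `q`;
* `primeSquareInv` : the input `RowSymbol.PrimeSquareInv q M p κ` of the row-symbol glue;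
* `csp_kappa_eq_zero` : **the abelian congruence subgroup property modulo `p`** for
  `SL₂(ℤ[1/q])`: every symbol of level `M` (`8 ∣ M` or `q = 2`) with values in a group of odd
  prime exponent `p` vanishes on `Γ(M)[1/q]` (the THEOREM of note 834).
-/

set_option autoImplicit false

namespace Fermat.Agent.S41.CSP.PrimeSquares

open Matrix
open Fermat.Agent.S41.CSP
open scoped MatrixGroups

variable {M q p : ℕ} {B : Type*} [AddCommGroup B] {κ : SL(2, ℚ) → B}

/-- **STEP 4**, hypothesis-free: a symbol of level `M` is invariant under conjugation by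
`diag(m², 1)` on `Γ(m² M)[1/q]`. -/
theorem isSym_cnat_sq (hκ : IsSym q M κ) (hq : q.Prime) (hMq : Nat.Coprime M q) (m : ℕ)
    [NeZero m] (hmq : Nat.Coprime m q) {g : SL(2, ℚ)} (hg : g ∈ Del q (m * (m * M))) :
    κ (cnat m (cnat m g)) = κ g :=
  hκ.cnat_sq_of_conj_lowerT_one m (fun _ ht _ hg' => hκ.conj_upperT hq hMq hg' ht)
    (fun M' _ hκ' hM' _ hg' => hκ'.conj_lowerT_one hq (by
      rcases hM' with rfl | rfl
      · exact hMq
      · exact Nat.Coprime.mul_left hmq hMq) hg') hg

/-- **STEP 4'**, hypothesis-free, in the shape consumed by `RowSymbol.isRowSymbol` and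
`RowSymbol.kappa_eq_zero`. -/
theorem primeSquareInv (hκ : IsSym q M κ) (hq : q.Prime) (hMq : Nat.Coprime M q) (hp : p.Prime)
    (hB : ∀ x : B, p • x = 0) : RowSymbol.PrimeSquareInv q M p κ :=
  primeSquareInv_of_cnat_sq hκ hp hB fun m _ hmq _ hg => isSym_cnat_sq hκ hq hMq m hmq hg

/-- Centrality in the shape consumed by `RowSymbol.isRowSymbol` and `RowSymbol.kappa_eq_zero`. -/
theorem centralLower (hκ : IsSym q M κ) (hq : q.Prime) (hMq : Nat.Coprime M q) :
    RowSymbol.CentralLower q M κ :=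
  fun _ ht _ hg => hκ.conj_lowerT hq hMq hg ht

/-- **The abelian congruence subgroup property modulo `p` for `SL₂(ℤ[1/q])`** (THEOREM of
note 834): if `p` is an odd prime, `M > 0` is prime to the prime `q`, and `q = 2` or `8 ∣ M`, then
every `κ` which is additive on `Γ(M)[1/q]`, kills its elements of trace `2` and takes values in a
group of exponent `p`, vanishes on `Γ(M)[1/q]`. -/
theorem csp_kappa_eq_zero (hκ : IsSym q M κ) (hp : p.Prime) (hp2 : p ≠ 2) (hq : q.Prime)
    (hMq : Nat.Coprime M q) (hM : 0 < M) (h8 : q = 2 ∨ 8 ∣ M) (hB : ∀ x : B, p • x = 0) :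
    ∀ g ∈ Del q M, κ g = 0 :=
  RowSymbol.kappa_eq_zero hκ (centralLower hκ hq hMq) (primeSquareInv hκ hq hMq hp hB)
    (NT.kernelX hp hp2 h8) (NT.kernel7 hp hp2) hp hp2 hq hMq hM hB

end Fermat.Agent.S41.CSP.PrimeSquares
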