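/-
helper23 (P-S41, block (B4b) "CSP", note 834 of helper19): the pure number theory of STEPS 5 and 7.

* `exists_prime_gt_zmodEq_zmodEq`: Dirichlet's theorem for two coprime moduli;
* `exists_prime_pi` (STEP 7): a prime `π ≡ b₀ mod a`, `π ≡ 2 mod p`;
* `exists_prime_sq` (STEP 5): for `a ≡ 1 mod k` a prime `a₂ ≡ a mod k b`, `a₂ ≡ 1 mod 8`, and a
  prime `y ≡ 2 mod p` with `y² ≡ k mod a₂` (quadratic reciprocity in the form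
  `jacobiSym.mod_right`).
-/
import Mathlib

set_option autoImplicit false

namespace Fermat.Agent.S41.CSP

open scoped NumberTheorySymbols

/-- Chinese remainder theorem over `ℤ` for coprime moduli. -/
theorem exists_zmodEq_zmodEq {m₁ m₂ : ℤ} (hco : IsCoprime m₁ m₂) (r₁ r₂ : ℤ) :
    ∃ r : ℤ, r ≡ r₁ [ZMOD m₁] ∧ r ≡ r₂ [ZMOD m₂] := by
  obtain ⟨u, v, huv⟩ := hco
  refine ⟨r₁ * (v * m₂) + r₂ * (u * m₁), ?_, ?_⟩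
  · rw [Int.modEq_iff_dvd]
    refine ⟨r₁ * u - r₂ * u, ?_⟩
    have : v * m₂ = 1 - u * m₁ := by linarith
    rw [this]
    ring
  · rw [Int.modEq_iff_dvd]
    refine ⟨r₂ * v - r₁ * v, ?_⟩
    have : u * m₁ = 1 - v * m₂ := by linarith
    rw [this]
    ring

theorem isCoprime_of_zmodEq {r s m : ℤ} (h : r ≡ s [ZMOD m]) (hs : IsCoprime s m) :
    IsCoprime r m := by
  obtain ⟨z, hz⟩ := (Int.modEq_iff_dvd.mp h)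
  have : r = s + m * (-z) := by linarith
  rw [this]
  exact (IsCoprime.add_mul_left_left_iff).mpr hs

/-- Dirichlet's theorem with an integer modulus. -/
theorem exists_prime_gt_zmodEq (B : ℕ) {m r : ℤ} (hm : m ≠ 0) (hr : IsCoprime r m) :
    ∃ ℓ : ℕ, B < ℓ ∧ ℓ.Prime ∧ (ℓ : ℤ) ≡ r [ZMOD m] := by
  have hq : m.natAbs ≠ 0 := Int.natAbs_ne_zero.mpr hm
  have hc' : IsCoprime r (m.natAbs : ℤ) := by
    rw [Int.natCast_natAbs]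
    rcases abs_choice m with h | h <;> rw [h]
    · exact hr
    · exact hr.neg_right
  obtain ⟨ℓ, hℓB, hℓp, hℓ⟩ := Nat.forall_exists_prime_gt_and_zmodEq B hq hc'
  refine ⟨ℓ, hℓB, hℓp, ?_⟩
  rw [Int.modEq_iff_dvd] at hℓ ⊢
  exact (Int.natAbs_dvd).mp hℓ

/-- **Dirichlet's theorem for two coprime moduli.** -/
theorem exists_prime_gt_zmodEq_zmodEq (B : ℕ) {m₁ m₂ : ℤ} {r₁ r₂ : ℤ} (h₁ : m₁ ≠ 0)
    (h₂ : m₂ ≠ 0) (hco : IsCoprime m₁ m₂) (hr₁ : IsCoprime r₁ m₁) (hr₂ : IsCoprime r₂ m₂) :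
    ∃ ℓ : ℕ, B < ℓ ∧ ℓ.Prime ∧ (ℓ : ℤ) ≡ r₁ [ZMOD m₁] ∧ (ℓ : ℤ) ≡ r₂ [ZMOD m₂] := by
  obtain ⟨r, hrm₁, hrm₂⟩ := exists_zmodEq_zmodEq hco r₁ r₂
  have hc₁ : IsCoprime r m₁ := isCoprime_of_zmodEq hrm₁ hr₁
  have hc₂ : IsCoprime r m₂ := isCoprime_of_zmodEq hrm₂ hr₂
  have hc : IsCoprime r (m₁ * m₂) := IsCoprime.mul_right hc₁ hc₂
  obtain ⟨ℓ, hℓB, hℓp, hℓ'⟩ := exists_prime_gt_zmodEq B (mul_ne_zero h₁ h₂) hc
  refine ⟨ℓ, hℓB, hℓp, ?_, ?_⟩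
  · exact (hℓ'.of_mul_right m₂).trans hrm₁
  · exact (hℓ'.of_mul_left m₁).trans hrm₂

theorem isCoprime_two_prime {p : ℕ} (hp : p.Prime) (hp2 : p ≠ 2) : IsCoprime (2 : ℤ) (p : ℤ) := by
  have h : Nat.Coprime 2 p := (Nat.coprime_primes Nat.prime_two hp).mpr (Ne.symm hp2)
  exact_mod_cast Nat.isCoprime_iff_coprime.mpr h

theorem isCoprime_prime_of_not_dvd {p : ℕ} (hp : p.Prime) {a : ℤ} (hpa : ¬ (p : ℤ) ∣ a) :
    IsCoprime a (p : ℤ) := by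
  have hp' : Prime (p : ℤ) := Nat.prime_iff_prime_int.mp hp
  exact isCoprime_comm.mp (hp'.coprime_iff_not_dvd.mpr hpa)

/-- **STEP 7**: a large prime `π ≡ b₀ mod a`, `π ≡ 2 mod p`. -/
theorem exists_prime_pi (B : ℕ) {p : ℕ} (hp : p.Prime) (hp2 : p ≠ 2) {a b₀ : ℤ} (ha : a ≠ 0)
    (hab : IsCoprime b₀ a) (hpa : ¬ (p : ℤ) ∣ a) :
    ∃ π : ℕ, B < π ∧ π.Prime ∧ (π : ℤ) ≡ b₀ [ZMOD a] ∧ (π : ℤ) ≡ 2 [ZMOD p] :=
  exists_prime_gt_zmodEq_zmodEq B ha (by exact_mod_cast hp.ne_zero)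
    (isCoprime_prime_of_not_dvd hp hpa) hab (isCoprime_two_prime hp hp2)

/-- quadratic reciprocity in the form needed: `J(k | n) = 1` if `n ≡ 1 mod 8` and `n ≡ 1 mod k`. -/
theorem jacobiSym_eq_one_of_modEq {k n : ℕ} (hk : 0 < k) (hn8 : n % 8 = 1)
    (hnk : n ≡ 1 [MOD k]) : J((k : ℤ) | n) = 1 := by
  obtain ⟨e, k', hk'odd, rfl⟩ := Nat.exists_eq_two_pow_mul_odd hk.ne'
  have hnodd : Odd n := by
    rw [Nat.odd_iff]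
    omega
  have h2 : J(2 | n) = 1 := by
    rw [jacobiSym.at_two hnodd, ZMod.χ₈_nat_eq_if_mod_eight]
    have h1 : n % 2 ≠ 0 := by omega
    simp [h1, hn8]
  have hk'pos : 0 < k' := hk'odd.pos
  have hnk' : n ≡ 1 [MOD k'] := hnk.of_mul_left (2 ^ e)
  have hn4 : n ≡ 1 [MOD 4] := by
    show n % 4 = 1 % 4
    omega
  have hco : Nat.Coprime 4 k' := by
    have : Nat.Coprime 2 k' := (Nat.coprime_two_left).mpr hk'odd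
    exact Nat.Coprime.pow_left 2 this
  have hn4k : n ≡ 1 [MOD 4 * k'] := (Nat.modEq_and_modEq_iff_modEq_mul hco).mp ⟨hn4, hnk'⟩
  have hmod : n % (4 * k') = 1 := by
    have h1 : n % (4 * k') = 1 % (4 * k') := hn4k
    rw [h1]
    apply Nat.mod_eq_of_lt
    omega
  have hk' : J((k' : ℤ) | n) = 1 := by
    rw [jacobiSym.mod_right (k' : ℤ) hnodd, Int.natAbs_natCast, hmod, jacobiSym.one_right]
  have hcast : ((2 ^ e * k' : ℕ) : ℤ) = (2 : ℤ) ^ e * (k' : ℤ) := by push_cast; ring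
  rw [hcast, jacobiSym.mul_left, jacobiSym.pow_left, h2, hk', one_pow, one_mul]

/-- **STEP 5**: for `a ≡ 1 mod k` (and a residue `r ≡ a mod k b`, `r ≡ 1 mod 8`) there are a large
prime `a₂ ≡ a mod k b`, `a₂ ≡ 1 mod 8` and a larger prime `y ≡ 2 mod p` with `y² ≡ k mod a₂`. -/
theorem exists_prime_sq (B : ℕ) {p : ℕ} (hp : p.Prime) (hp2 : p ≠ 2) {a b r : ℤ} {k : ℕ}
    (hk : 0 < k) (hb : b ≠ 0) (hak : a ≡ 1 [ZMOD k]) (hab : IsCoprime a b)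
    (hr : r ≡ a [ZMOD k * b]) (hr8 : r ≡ 1 [ZMOD 8]) :
    ∃ a₂ y : ℕ, B < a₂ ∧ a₂.Prime ∧ a₂ < y ∧ y.Prime ∧ (a₂ : ℤ) ≡ a [ZMOD k * b] ∧
      (a₂ : ℤ) ≡ 1 [ZMOD 8] ∧ (a₂ : ℤ) ∣ (y : ℤ) ^ 2 - k ∧ (y : ℤ) ≡ 2 [ZMOD p] := by
  have hkz : (k : ℤ) ≠ 0 := by exact_mod_cast hk.ne'
  have hca : IsCoprime a ((k : ℤ) * b) :=
    IsCoprime.mul_right (isCoprime_of_zmodEq hak isCoprime_one_left) hab
  have hcr : IsCoprime r ((k : ℤ) * b) := isCoprime_of_zmodEq hr hca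
  have hcr8 : IsCoprime r 8 := isCoprime_of_zmodEq hr8 isCoprime_one_left
  have hcr' : IsCoprime r (8 * ((k : ℤ) * b)) := IsCoprime.mul_right hcr8 hcr
  have hm : (8 * ((k : ℤ) * b)) ≠ 0 := mul_ne_zero (by norm_num) (mul_ne_zero hkz hb)
  obtain ⟨a₂, ha₂B, ha₂p, ha₂⟩ := exists_prime_gt_zmodEq (max B (max k p)) hm hcr'
  have hBa : B < a₂ := lt_of_le_of_lt (le_max_left _ _) ha₂B
  have hka : k < a₂ := lt_of_le_of_lt (le_trans (le_max_left _ _) (le_max_right _ _)) ha₂B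
  have hpa : p < a₂ := lt_of_le_of_lt (le_trans (le_max_right _ _) (le_max_right _ _)) ha₂B
  have ha₂kb : (a₂ : ℤ) ≡ a [ZMOD k * b] := (ha₂.of_mul_left 8).trans hr
  have ha₂8 : (a₂ : ℤ) ≡ 1 [ZMOD 8] := (ha₂.of_mul_right ((k : ℤ) * b)).trans hr8
  have ha₂k : (a₂ : ℤ) ≡ 1 [ZMOD k] := (ha₂kb.of_mul_right b).trans hak
  have h8 : a₂ % 8 = 1 := by
    have : (a₂ : ℤ) % 8 = 1 % 8 := ha₂8
    omega
  have hk1 : a₂ ≡ 1 [MOD k] := by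
    have : ((a₂ : ℕ) : ℤ) ≡ ((1 : ℕ) : ℤ) [ZMOD (k : ℤ)] := by simpa using ha₂k
    exact Int.natCast_modEq_iff.mp this
  have hJ := jacobiSym_eq_one_of_modEq hk h8 hk1
  have : Fact a₂.Prime := ⟨ha₂p⟩
  obtain ⟨y₀, hy₀⟩ := ZMod.isSquare_of_jacobiSym_eq_one hJ
  have hy₀ne : y₀ ≠ 0 := by
    rintro rfl
    rw [mul_zero] at hy₀
    have h1 : ((k : ℕ) : ZMod a₂) = 0 := by simpa using hy₀
    rw [ZMod.natCast_eq_zero_iff] at h1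
    exact absurd (Nat.le_of_dvd hk h1) (not_le.mpr hka)
  -- the second prime
  have hvalne : y₀.val ≠ 0 := by
    rw [Ne, ZMod.val_eq_zero]
    exact hy₀ne
  have hndvd : ¬ ((a₂ : ℕ) : ℤ) ∣ ((y₀.val : ℕ) : ℤ) := by
    rw [Int.natCast_dvd_natCast]
    intro h
    exact absurd (Nat.le_of_dvd (Nat.pos_of_ne_zero hvalne) h) (not_le.mpr (ZMod.val_lt y₀))
  have hcy : IsCoprime ((y₀.val : ℕ) : ℤ) ((a₂ : ℕ) : ℤ) := isCoprime_prime_of_not_dvd ha₂p hndvd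
  have hcap : IsCoprime ((a₂ : ℕ) : ℤ) ((p : ℕ) : ℤ) := by
    have h : Nat.Coprime a₂ p := (Nat.coprime_primes ha₂p hp).mpr (ne_of_gt hpa)
    exact Nat.isCoprime_iff_coprime.mpr h
  obtain ⟨y, hya, hyp, hy1, hy2⟩ := exists_prime_gt_zmodEq_zmodEq a₂
    (by exact_mod_cast ha₂p.ne_zero : ((a₂ : ℕ) : ℤ) ≠ 0)
    (by exact_mod_cast hp.ne_zero : ((p : ℕ) : ℤ) ≠ 0) hcap hcy (isCoprime_two_prime hp hp2)
  refine ⟨a₂, y, hBa, ha₂p, hya, hyp, ha₂kb, ha₂8, ?_, hy2⟩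
  have hyz : ((y : ℕ) : ZMod a₂) = y₀ := by
    have h1 := (ZMod.intCast_eq_intCast_iff _ _ a₂).mpr hy1
    simpa using h1
  rw [← ZMod.intCast_zmod_eq_zero_iff_dvd]
  push_cast
  rw [hyz]
  have h2 : ((k : ℕ) : ZMod a₂) = y₀ * y₀ := by simpa using hy₀
  rw [h2]
  ring

/-- **STEP 5, case `8 ∣ b`** (`q` odd, `8 ∣ M ∣ b`, `a ≡ 1 mod M`). -/
theorem exists_prime_sq_of_eight_dvd (B : ℕ) {p : ℕ} (hp : p.Prime) (hp2 : p ≠ 2) {a b : ℤ}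
    {k : ℕ} (hk : 0 < k) (hb : b ≠ 0) (hak : a ≡ 1 [ZMOD k]) (hab : IsCoprime a b)
    (ha8 : a ≡ 1 [ZMOD 8]) :
    ∃ a₂ y : ℕ, B < a₂ ∧ a₂.Prime ∧ a₂ < y ∧ y.Prime ∧ (a₂ : ℤ) ≡ a [ZMOD k * b] ∧
      (a₂ : ℤ) ≡ 1 [ZMOD 8] ∧ (a₂ : ℤ) ∣ (y : ℤ) ^ 2 - k ∧ (y : ℤ) ≡ 2 [ZMOD p] :=
  exists_prime_sq B hp hp2 hk hb hak hab (Int.ModEq.refl a) ha8

/-- **STEP 5, case `k b` odd** (`q = 2`). -/
theorem exists_prime_sq_of_odd (B : ℕ) {p : ℕ} (hp : p.Prime) (hp2 : p ≠ 2) {a b : ℤ}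
    {k : ℕ} (hk : 0 < k) (hb : b ≠ 0) (hak : a ≡ 1 [ZMOD k]) (hab : IsCoprime a b)
    (hodd : IsCoprime ((k : ℤ) * b) 2) :
    ∃ a₂ y : ℕ, B < a₂ ∧ a₂.Prime ∧ a₂ < y ∧ y.Prime ∧ (a₂ : ℤ) ≡ a [ZMOD k * b] ∧
      (a₂ : ℤ) ≡ 1 [ZMOD 8] ∧ (a₂ : ℤ) ∣ (y : ℤ) ^ 2 - k ∧ (y : ℤ) ≡ 2 [ZMOD p] := by
  have h8 : IsCoprime ((k : ℤ) * b) 8 := by
    have : IsCoprime ((k : ℤ) * b) (2 ^ 3) := IsCoprime.pow_right hodd
    norm_num at this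
    exact this
  obtain ⟨r, hr1, hr2⟩ := exists_zmodEq_zmodEq h8 a 1
  exact exists_prime_sq B hp hp2 hk hb hak hab hr1 hr2

end Fermat.Agent.S41.CSP
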