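import Mathlib
import Fermat.Agent.S41.CSP.Central
import Fermat.Agent.S41.CSP.Squares

/-!
# P-S41 (B4b), STEP 4 of note 834, final form (helper48)

`IsSym.cnat_sq` : a symbol `κ` of level `M` on `Γ(M)[1/q]` is invariant under
`cnat m ∘ cnat m` (conjugation by `diag(m², 1)`) on `Γ(m² M)[1/q]`.

Self-contained on top of `Central.lean` (`IsSym.conj_lowerT_one`) and `Squares.lean`
(`cnat_sq_of_central`): the only conjugations by upper elementary matrices that are needed are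
by `upperT n` with `n` an integer, and these follow from `conj_lowerT_one` applied to the
symbol `g ↦ κ (w g w⁻¹)`, `w = [[0,1],[-1,0]]`.
-/

set_option autoImplicit false

namespace Fermat.Agent.S41.CSP

open Matrix
open scoped MatrixGroups
open Fermat.Agent.S41.Ihara.Amalgam (ext4 inv_apply_00 inv_apply_01 inv_apply_10
  inv_apply_11 det_eq_one conjD)

namespace Squares

/-- The Weyl element `[[0, 1], [-1, 0]]`. -/
def wS : SL(2, ℚ) := ⟨!![0, 1; -1, 0], by simp [Matrix.det_fin_two_of]⟩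

@[simp] theorem wS_00 : wS 0 0 = 0 := rfl
@[simp] theorem wS_01 : wS 0 1 = 1 := rfl
@[simp] theorem wS_10 : wS 1 0 = -1 := rfl
@[simp] theorem wS_11 : wS 1 1 = 0 := rfl

theorem wS_mem_GR (q : ℕ) : wS ∈ GR q := by
  intro i j
  fin_cases i <;> fin_cases j <;>
    simp [(Rq q).one_mem, (Rq q).zero_mem, (Rq q).neg_mem (Rq q).one_mem]

/-- `w · lowerT 1 · w⁻¹ = upperT (-1)`. -/
theorem wS_conj_lowerT_one : wS * lowerT (1 : ℚ) * wS⁻¹ = upperT (-1 : ℚ) := by
  apply ext4 <;>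
    simp only [mul_ap, inv_apply_00, inv_apply_01, inv_apply_10, inv_apply_11, wS_00, wS_01,
      wS_10, wS_11, upperT_00, upperT_01, upperT_10, upperT_11, lowerT_00, lowerT_01, lowerT_10,
      lowerT_11] <;> ring

variable {q M : ℕ} {B : Type*} [AddCommGroup B] {κ : SL(2, ℚ) → B}

/-- For `x ∈ SL₂(ℤ[1/q])`, `g ↦ κ (x g x⁻¹)` is again a symbol of level `M`. -/
theorem isSym_conj (hκ : IsSym q M κ) {x : SL(2, ℚ)} (hx : x ∈ GR q) :
    IsSym q M (fun g => κ (x * g * x⁻¹)) where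
  mul g hg h hh := by
    have e : x * (g * h) * x⁻¹ = (x * g * x⁻¹) * (x * h * x⁻¹) := by group
    show κ (x * (g * h) * x⁻¹) = _
    rw [e]
    exact hκ.mul _ (conj_mem_Del hx hg) _ (conj_mem_Del hx hh)
  unip g hg ht := hκ.unip _ (conj_mem_Del hx hg) (by rw [tr2_conj]; exact ht)

omit [AddCommGroup B] in
/-- If conjugation by `x` preserves `κ` on `Γ(M)[1/q]`, so does conjugation by `x⁻¹`. -/
theorem conj_inv_of_conj {x : SL(2, ℚ)} (hx : x ∈ GR q)
    (h : ∀ g ∈ Del q M, κ (x * g * x⁻¹) = κ g) :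
    ∀ g ∈ Del q M, κ (x⁻¹ * g * (x⁻¹)⁻¹) = κ g := by
  intro g hg
  have hg' : x⁻¹ * g * (x⁻¹)⁻¹ ∈ Del q M := conj_mem_Del ((GR q).inv_mem hx) hg
  have := h _ hg'
  have e : x * (x⁻¹ * g * (x⁻¹)⁻¹) * x⁻¹ = g := by group
  rw [e] at this
  exact this.symm

omit [AddCommGroup B] in
/-- If conjugation by `x` and by `y` preserve `κ` on `Γ(M)[1/q]`, so does conjugation by
`x * y`. -/
theorem conj_mul_of_conj {x y : SL(2, ℚ)} (hy : y ∈ GR q)
    (h : ∀ g ∈ Del q M, κ (x * g * x⁻¹) = κ g) (h' : ∀ g ∈ Del q M, κ (y * g * y⁻¹) = κ g) :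
    ∀ g ∈ Del q M, κ ((x * y) * g * (x * y)⁻¹) = κ g := by
  intro g hg
  have e : (x * y) * g * (x * y)⁻¹ = x * (y * g * y⁻¹) * x⁻¹ := by group
  rw [e, h _ (conj_mem_Del hy hg), h' _ hg]

/-- Conjugation by `upperT (-1)` preserves `κ`. -/
theorem conj_upperT_neg_one (hκ : IsSym q M κ) (hq : q.Prime) (hMq : Nat.Coprime M q) :
    ∀ g ∈ Del q M, κ (upperT (-1 : ℚ) * g * (upperT (-1 : ℚ))⁻¹) = κ g := by
  intro g hg
  have hw := wS_mem_GR q
  have hh : wS⁻¹ * g * wS ∈ Del q M := conj_mem_Del' hw hg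
  have key := (isSym_conj hκ hw).conj_lowerT_one hq hMq hh
  have e1 : wS * (lowerT (1 : ℚ) * (wS⁻¹ * g * wS) * (lowerT (1 : ℚ))⁻¹) * wS⁻¹ =
      upperT (-1 : ℚ) * g * (upperT (-1 : ℚ))⁻¹ := by
    rw [← wS_conj_lowerT_one]; group
  have e2 : wS * (wS⁻¹ * g * wS) * wS⁻¹ = g := by group
  rw [e1, e2] at key
  exact key

/-- Conjugation by `upperT 1` preserves `κ`. -/
theorem conj_upperT_one (hκ : IsSym q M κ) (hq : q.Prime) (hMq : Nat.Coprime M q) :
    ∀ g ∈ Del q M, κ (upperT (1 : ℚ) * g * (upperT (1 : ℚ))⁻¹) = κ g := by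
  have h := conj_inv_of_conj (upperT_mem_GR ((Rq q).neg_mem (Rq q).one_mem))
    (conj_upperT_neg_one hκ hq hMq)
  have e : (upperT (-1 : ℚ))⁻¹ = upperT (1 : ℚ) := by
    rw [upperT_neg, inv_inv]
  rwa [e] at h

/-- Conjugation by `upperT n`, `n : ℕ`, preserves `κ`. -/
theorem conj_upperT_natCast (hκ : IsSym q M κ) (hq : q.Prime) (hMq : Nat.Coprime M q) (n : ℕ) :
    ∀ g ∈ Del q M, κ (upperT (n : ℚ) * g * (upperT (n : ℚ))⁻¹) = κ g := by
  induction n with
  | zero =>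
    intro g _
    rw [Nat.cast_zero, upperT_zero]; simp
  | succ n ih =>
    have e : upperT ((n + 1 : ℕ) : ℚ) = upperT (n : ℚ) * upperT (1 : ℚ) := by
      rw [Nat.cast_succ, upperT_add]
    rw [e]
    exact conj_mul_of_conj (upperT_mem_GR (Rq q).one_mem) ih (conj_upperT_one hκ hq hMq)

/-- Conjugation by `upperT n`, `n : ℤ`, preserves `κ`. -/
theorem conj_upperT_intCast (hκ : IsSym q M κ) (hq : q.Prime) (hMq : Nat.Coprime M q) (n : ℤ) :
    ∀ g ∈ Del q M, κ (upperT (n : ℚ) * g * (upperT (n : ℚ))⁻¹) = κ g := by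
  obtain ⟨k, rfl | rfl⟩ := Int.eq_nat_or_neg n
  · simpa using conj_upperT_natCast hκ hq hMq k
  · have h := conj_inv_of_conj (upperT_mem_GR (natCast_mem (Rq q) k))
      (conj_upperT_natCast hκ hq hMq k)
    have e : upperT (((-(k : ℤ) : ℤ)) : ℚ) = (upperT (k : ℚ))⁻¹ := by
      rw [← upperT_neg]; push_cast; rfl
    rw [e]
    exact h

end Squares

open Squares

/-- **STEP 4 (squares).** For a symbol `κ` of level `M` and `m ≥ 1` prime to `q`,
`κ (diag(m²,1) g diag(m²,1)⁻¹) = κ g` for `g ∈ Γ(m² M)[1/q]`. -/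
theorem IsSym.cnat_sq {q M : ℕ} {B : Type*} [AddCommGroup B] {κ : SL(2, ℚ) → B}
    (hκ : IsSym q M κ) (hq : q.Prime) (hMq : Nat.Coprime M q) (m : ℕ) [NeZero m]
    (hmq : Nat.Coprime m q) {g : SL(2, ℚ)} (hg : g ∈ Del q (m * (m * M))) :
    κ (cnat m (cnat m g)) = κ g := by
  have hmMq : Nat.Coprime (m * M) q := Nat.Coprime.mul_left hmq hMq
  refine cnat_sq_of_central m ?_ ?_ ?_ hg
  · -- only the integers `-1`, `m - 1`, `m` are used, but `cnat_sq_of_central` asks for all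
    -- of `ℤ[1/q]`: reduce to an integer modulo `M`.
    intro t ht h hh
    obtain ⟨n, hn⟩ := exists_int_sub_mem_Lv hq.ne_zero hMq ht
    have hz : (CSP.upperT (t - n) : SL(2, ℚ)) ∈ Del q M := upperT_mem_Del hn
    have e : CSP.upperT t = CSP.upperT (t - n) * CSP.upperT ((n : ℤ) : ℚ) := by
      rw [← upperT_add]; congr 1; ring
    rw [e]
    refine conj_mul_of_conj (upperT_mem_GR (intCast_mem (Rq q) n)) ?_
      (conj_upperT_intCast hκ hq hMq n) h hh
    intro g' hg'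
    rw [hκ.mul _ ((Del q M).mul_mem hz hg') _ ((Del q M).inv_mem hz), hκ.mul _ hz _ hg',
      hκ.inv hz]
    abel
  · intro g' hg'
    exact hκ.conj_lowerT_one hq hMq hg'
  · intro x hx
    exact (hκ.comp_cnat m).conj_lowerT_one hq hmMq hx

end Fermat.Agent.S41.CSP
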