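import Mathlib
import Fermat.Agent.S41.CSP.Sym

/-!
# P-S41 (B4b) STEP 3 'wlog': normal form of the second column (helper51)

For `g ∈ Γ(M)[1/q]` (`q` prime, `M` prime to `q`) there are elementary matrices of level `M`
such that, after left multiplication by them, the second column of `g` is `(b, d)` with
`b, d` integers prime to `q`, `b ≠ 0`, `gcd(b, d) = 1`, `M ∣ b`, `d ≡ 1 mod M`.

* `exists_int_coprime_sub_mem_Lv` : integers prime to `q` are dense in `ℤ[1/q]` modulo `n`;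
* `exists_col_normal_form` : the explicit form;
* `Del_induction_col` : the induction principle for the consumer (`Central.lean`).
-/

set_option autoImplicit false

namespace Fermat.Agent.S41.CSP

open Matrix
open scoped MatrixGroups
open Fermat.Agent.S41.Ihara.Amalgam (det_eq_one)

/-- Integers prime to `q` are dense in `ℤ[1/q]` modulo `n` prime to `q`. -/
theorem exists_int_coprime_sub_mem_Lv {q : ℕ} (hq : q ≠ 0) {n : ℕ} (hn : Nat.Coprime n q) {x : ℚ}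
    (hx : x ∈ Rq q) : ∃ m : ℤ, IsCoprime m (q : ℤ) ∧ x - m ∈ Lv q n := by
  obtain ⟨m0, hm0⟩ := exists_int_sub_mem_Lv hq hn hx
  obtain ⟨a, b, hab⟩ : IsCoprime (n : ℤ) (q : ℤ) := Nat.isCoprime_iff_coprime.mpr hn
  -- a * n + b * q = 1 ; m := m0 + n * (a * (1 - m0)) = 1 - b q (1 - m0)
  refine ⟨m0 + n * (a * (1 - m0)), ⟨1, b * (1 - m0), ?_⟩, ?_⟩
  · linear_combination (1 - m0) * hab
  · have e : x - ((m0 + n * (a * (1 - m0)) : ℤ) : ℚ) =
        (x - m0) - (n : ℚ) * ((a * (1 - m0) : ℤ) : ℚ) := by push_cast; ring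
    rw [e]
    exact (Lv q n).sub_mem hm0 (natCast_mul_mem_Lv (intCast_mem _ _))

theorem upperT_mul_01 (s : ℚ) (h : SL(2, ℚ)) : (upperT s * h) 0 1 = h 0 1 + s * h 1 1 := by
  rw [mul_ap]; simp
theorem upperT_mul_11 (s : ℚ) (h : SL(2, ℚ)) : (upperT s * h) 1 1 = h 1 1 := by
  rw [mul_ap]; simp
theorem lowerT_mul_01 (s : ℚ) (h : SL(2, ℚ)) : (lowerT s * h) 0 1 = h 0 1 := by
  rw [mul_ap]; simp
theorem lowerT_mul_11 (s : ℚ) (h : SL(2, ℚ)) : (lowerT s * h) 1 1 = s * h 0 1 + h 1 1 := by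
  rw [mul_ap]; simp

theorem entry_mem_Rq_of_mem_Del {q M : ℕ} {g : SL(2, ℚ)} (hg : g ∈ Del q M) (i j : Fin 2) :
    g i j ∈ Rq q := Del_le_GR q M hg i j

/-- Step (A): if the `01`-entry is nonzero, a lower elementary matrix of level `M` makes the
`11`-entry an integer prime to `q`. -/
theorem exists_lowerT_int {q M : ℕ} (hq : q.Prime) (hM : Nat.Coprime M q) {h : SL(2, ℚ)}
    (hh : h ∈ Del q M) (h01 : h 0 1 ≠ 0) :
    ∃ s ∈ Lv q M, ∃ d : ℤ, IsCoprime d (q : ℤ) ∧ (lowerT s * h) 1 1 = d := by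
  obtain ⟨u, β, hu, hβ, hβq, hb0⟩ := exists_unit_mul_nat hq (entry_mem_Rq_of_mem_Del hh 0 1) h01
  have hn : Nat.Coprime (M * β) q := Nat.Coprime.mul_left hM hβq
  obtain ⟨d, hd, r, hr, hdr⟩ :=
    exists_int_coprime_sub_mem_Lv hq.ne_zero hn (entry_mem_Rq_of_mem_Del hh 1 1)
  refine ⟨-((M : ℚ) * (r * u⁻¹)), (Lv q M).neg_mem
    (natCast_mul_mem_Lv ((Rq q).mul_mem hr hu.inv_mem)), d, hd, ?_⟩
  rw [lowerT_mul_11, hb0]
  have hu0 := hu.1
  push_cast at hdr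
  have : h 1 1 = d + (M : ℚ) * β * r := by linarith
  rw [this]
  field_simp
  ring

/-- Step (B): if the `11`-entry is an integer prime to `q`, an upper elementary matrix of level
`M` makes the `01`-entry an integer prime to `q`. -/
theorem exists_upperT_int {q M : ℕ} (hq : q.Prime) (hM : Nat.Coprime M q) {h : SL(2, ℚ)}
    (hh : h ∈ Del q M) {d : ℤ} (hd : IsCoprime d (q : ℤ)) (h11 : h 1 1 = d) :
    ∃ s ∈ Lv q M, ∃ b : ℤ, IsCoprime b (q : ℤ) ∧ (upperT s * h) 0 1 = b := by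
  have hδq : Nat.Coprime d.natAbs q := by
    have := Int.isCoprime_iff_gcd_eq_one.mp hd
    simpa [Int.gcd] using this
  have hn : Nat.Coprime (M * d.natAbs) q := Nat.Coprime.mul_left hM hδq
  obtain ⟨b, hb, r, hr, hbr⟩ :=
    exists_int_coprime_sub_mem_Lv hq.ne_zero hn (entry_mem_Rq_of_mem_Del hh 0 1)
  push_cast at hbr
  have h01 : h 0 1 = b + (M : ℚ) * d.natAbs * r := by linarith
  rcases Int.natAbs_eq d with hdd | hdd
  · refine ⟨-((M : ℚ) * r), (Lv q M).neg_mem (natCast_mul_mem_Lv hr), b, hb, ?_⟩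
    rw [upperT_mul_01, h11, h01]
    have : (d : ℚ) = (d.natAbs : ℚ) := by
      have h' := congrArg (Int.cast : ℤ → ℚ) hdd
      rwa [Int.cast_natCast] at h'
    rw [this]
    ring
  · refine ⟨(M : ℚ) * r, natCast_mul_mem_Lv hr, b, hb, ?_⟩
    rw [upperT_mul_01, h11, h01]
    have : (d : ℚ) = -(d.natAbs : ℚ) := by
      have h' := congrArg (Int.cast : ℤ → ℚ) hdd
      rwa [Int.cast_neg, Int.cast_natCast] at h'
    rw [this]
    ring

/-- Coprimality of the integral second column of an element of `SL₂(ℤ[1/q])`. -/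
theorem isCoprime_col_of_mem_GR {q : ℕ} {g : SL(2, ℚ)} (hg : g ∈ GR q) {b d : ℤ}
    (hb : g 0 1 = b) (hd : g 1 1 = d) (hdq : IsCoprime d (q : ℤ)) : IsCoprime b d := by
  obtain ⟨k1, m1, h1⟩ := hg 0 0
  obtain ⟨k2, m2, h2⟩ := hg 1 0
  have hdet := det_eq_one g
  rw [hb, hd] at hdet
  -- m1 q^k2 d - b m2 q^k1 = q^(k1+k2)
  have hZ : m1 * (q : ℤ) ^ k2 * d - b * (m2 * (q : ℤ) ^ k1) = (q : ℤ) ^ (k1 + k2) := by
    have : ((m1 * (q : ℤ) ^ k2 * d - b * (m2 * (q : ℤ) ^ k1) : ℤ) : ℚ) =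
        (((q : ℤ) ^ (k1 + k2) : ℤ) : ℚ) := by
      push_cast
      rw [← h1, ← h2, pow_add]
      linear_combination ((q : ℚ) ^ k1 * (q : ℚ) ^ k2) * hdet
    exact_mod_cast this
  obtain ⟨x, y, hxy⟩ : IsCoprime d ((q : ℤ) ^ (k1 + k2)) := hdq.pow_right
  refine ⟨-(y * (m2 * (q : ℤ) ^ k1)), x + y * (m1 * (q : ℤ) ^ k2), ?_⟩
  rw [← hZ] at hxy
  linear_combination hxy

/-- **Normal form of the second column.** -/
theorem exists_col_normal_form {q M : ℕ} (hq : q.Prime) (hM : Nat.Coprime M q) {g : SL(2, ℚ)}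
    (hg : g ∈ Del q M) :
    ∃ s0 ∈ Lv q M, ∃ s1 ∈ Lv q M, ∃ s2 ∈ Lv q M, ∃ b d : ℤ,
      (upperT s2 * (lowerT s1 * (upperT s0 * g))) 0 1 = b ∧
      (upperT s2 * (lowerT s1 * (upperT s0 * g))) 1 1 = d ∧
      b ≠ 0 ∧ IsCoprime b d ∧ IsCoprime b (q : ℤ) ∧ IsCoprime d (q : ℤ) ∧
      (M : ℤ) ∣ b ∧ (M : ℤ) ∣ d - 1 := by
  have hM0 : M ≠ 0 := by
    rintro rfl
    rw [Nat.coprime_zero_left] at hM
    exact hq.ne_one hM
  -- step 0: make the 01-entry nonzero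
  obtain ⟨s0, hs0, h0⟩ : ∃ s0 ∈ Lv q M, (upperT s0 * g) 0 1 ≠ 0 := by
    by_cases hb : g 0 1 = 0
    · refine ⟨M, ⟨1, (Rq q).one_mem, by simp⟩, ?_⟩
      rw [upperT_mul_01, hb, zero_add]
      have hdet := det_eq_one g
      rw [hb] at hdet
      have h11 : g 1 1 ≠ 0 := by
        rintro h
        rw [h] at hdet
        simp at hdet
      exact mul_ne_zero (Nat.cast_ne_zero.mpr hM0) h11
    · exact ⟨0, (Lv q M).zero_mem, by rwa [upperT_zero, one_mul]⟩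
  have hg0 : upperT s0 * g ∈ Del q M := (Del q M).mul_mem (upperT_mem_Del hs0) hg
  obtain ⟨s1, hs1, d, hd, h1⟩ := exists_lowerT_int hq hM hg0 h0
  have hg1 : lowerT s1 * (upperT s0 * g) ∈ Del q M :=
    (Del q M).mul_mem (lowerT_mem_Del hs1) hg0
  obtain ⟨s2, hs2, b, hb, h2⟩ := exists_upperT_int hq hM hg1 hd h1
  have hg2 : upperT s2 * (lowerT s1 * (upperT s0 * g)) ∈ Del q M :=
    (Del q M).mul_mem (upperT_mem_Del hs2) hg1
  have h11 : (upperT s2 * (lowerT s1 * (upperT s0 * g))) 1 1 = d := by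
    rw [upperT_mul_11, h1]
  refine ⟨s0, hs0, s1, hs1, s2, hs2, b, d, h2, h11, ?_, ?_, hb, hd, ?_, ?_⟩
  · rintro rfl
    have : IsUnit (q : ℤ) := isCoprime_zero_left.mp hb
    have h' := Int.isUnit_iff.mp this
    have hq2 := hq.two_le
    omega
  · exact isCoprime_col_of_mem_GR (Del_le_GR q M hg2) h2 h11 hd
  · rw [← intCast_mem_Lv_iff hM, ← h2]
    exact hg2.2.1
  · rw [← intCast_mem_Lv_iff hM]
    push_cast
    rw [← h11]
    exact hg2.2.2.2

/-- **Induction principle** for properties of elements of `Γ(M)[1/q]` that may be checked after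
left multiplication by elementary matrices of level `M`. -/
theorem Del_induction_col {q M : ℕ} (hq : q.Prime) (hM : Nat.Coprime M q)
    (P : SL(2, ℚ) → Prop)
    (hU : ∀ g ∈ Del q M, ∀ s ∈ Lv q M, P (upperT s * g) → P g)
    (hL : ∀ g ∈ Del q M, ∀ s ∈ Lv q M, P (lowerT s * g) → P g)
    (hint : ∀ g ∈ Del q M, ∀ b d : ℤ, g 0 1 = b → g 1 1 = d → b ≠ 0 → IsCoprime b d →
      IsCoprime b (q : ℤ) → IsCoprime d (q : ℤ) → (M : ℤ) ∣ b → (M : ℤ) ∣ d - 1 → P g) :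
    ∀ g ∈ Del q M, P g := by
  intro g hg
  obtain ⟨s0, hs0, s1, hs1, s2, hs2, b, d, h01, h11, hb0, hbd, hbq, hdq, hMb, hMd⟩ :=
    exists_col_normal_form hq hM hg
  have hg0 : upperT s0 * g ∈ Del q M := (Del q M).mul_mem (upperT_mem_Del hs0) hg
  have hg1 : lowerT s1 * (upperT s0 * g) ∈ Del q M :=
    (Del q M).mul_mem (lowerT_mem_Del hs1) hg0
  have hg2 : upperT s2 * (lowerT s1 * (upperT s0 * g)) ∈ Del q M :=
    (Del q M).mul_mem (upperT_mem_Del hs2) hg1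
  exact hU g hg s0 hs0 (hL _ hg0 s1 hs1 (hU _ hg1 s2 hs2
    (hint _ hg2 b d h01 h11 hb0 hbd hbq hdq hMb hMd)))

/-! ### Row version (right multiplication), for `RowSymbol` -/

open Fermat.Agent.S41.Ihara.Amalgam (inv_apply_00 inv_apply_01)

/-- **Normal form of the first row**: after right multiplication by elementary matrices of level
`M`, the first row of `g ∈ Γ(M)[1/q]` is an integer pair `(a, b)` with `a, b` prime to `q`,
`b ≠ 0`, `gcd(a, b) = 1`, `a ≡ 1 mod M`, `M ∣ b`. -/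
theorem exists_row_normal_form {q M : ℕ} (hq : q.Prime) (hM : Nat.Coprime M q) {g : SL(2, ℚ)}
    (hg : g ∈ Del q M) :
    ∃ s0 ∈ Lv q M, ∃ s1 ∈ Lv q M, ∃ s2 ∈ Lv q M, ∃ a b : ℤ,
      (g * upperT s0 * lowerT s1 * upperT s2) 0 0 = a ∧
      (g * upperT s0 * lowerT s1 * upperT s2) 0 1 = b ∧
      b ≠ 0 ∧ IsCoprime a b ∧ IsCoprime a (q : ℤ) ∧ IsCoprime b (q : ℤ) ∧
      (M : ℤ) ∣ a - 1 ∧ (M : ℤ) ∣ b := by
  obtain ⟨s0, hs0, s1, hs1, s2, hs2, b, d, h01, h11, hb0, hbd, hbq, hdq, hMb, hMd⟩ :=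
    exists_col_normal_form hq hM ((Del q M).inv_mem hg)
  have e : g * upperT (-s0) * lowerT (-s1) * upperT (-s2) =
      (upperT s2 * (lowerT s1 * (upperT s0 * g⁻¹)))⁻¹ := by
    rw [upperT_neg, lowerT_neg, upperT_neg]
    group
  refine ⟨-s0, (Lv q M).neg_mem hs0, -s1, (Lv q M).neg_mem hs1, -s2, (Lv q M).neg_mem hs2,
    d, -b, ?_, ?_, neg_ne_zero.mpr hb0, hbd.symm.neg_right, hdq, hbq.neg_left, hMd,
    (dvd_neg).mpr hMb⟩
  · rw [e, inv_apply_00, h11]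
  · rw [e, inv_apply_01, h01]; push_cast; ring

/-- Consumer form: every `g ∈ Γ(M)[1/q]` has the same symbol as some `g' ∈ Γ(M)[1/q]` whose first
row is an integer pair `(a, b)` as in `exists_row_normal_form`. -/
theorem IsSym.exists_int_row {q M : ℕ} {B : Type*} [AddCommGroup B] {κ : SL(2, ℚ) → B}
    (hκ : IsSym q M κ) (hq : q.Prime) (hM : Nat.Coprime M q) {g : SL(2, ℚ)}
    (hg : g ∈ Del q M) :
    ∃ g' ∈ Del q M, κ g' = κ g ∧ ∃ a b : ℤ, g' 0 0 = a ∧ g' 0 1 = b ∧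
      b ≠ 0 ∧ IsCoprime a b ∧ IsCoprime a (q : ℤ) ∧ IsCoprime b (q : ℤ) ∧
      (M : ℤ) ∣ a - 1 ∧ (M : ℤ) ∣ b := by
  obtain ⟨s0, hs0, s1, hs1, s2, hs2, a, b, h⟩ := exists_row_normal_form hq hM hg
  have hg0 : g * CSP.upperT s0 ∈ Del q M := (Del q M).mul_mem hg (upperT_mem_Del hs0)
  have hg1 : g * CSP.upperT s0 * CSP.lowerT s1 ∈ Del q M := (Del q M).mul_mem hg0 (lowerT_mem_Del hs1)
  have hg2 : g * CSP.upperT s0 * CSP.lowerT s1 * CSP.upperT s2 ∈ Del q M :=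
    (Del q M).mul_mem hg1 (upperT_mem_Del hs2)
  refine ⟨_, hg2, ?_, a, b, h⟩
  rw [hκ.mul_unip (upperT_mem_Del hs2) (tr2_upperT _) hg1,
    hκ.mul_unip (lowerT_mem_Del hs1) (tr2_lowerT _) hg0,
    hκ.mul_unip (upperT_mem_Del hs0) (tr2_upperT _) hg]

end Fermat.Agent.S41.CSP
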